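import Fermat.Agent.EigenLattice.Padic
import Fermat.Agent.DetCyclo.Basic
import Fermat.Prelude.Def_GaloisRep_LocalConditions

/-!
# Common fixed vectors of unipotent groups, and the reducible companion of a scalar representation
-/

set_option autoImplicit false

noncomputable section

set_option linter.style.haveILetI false

open Matrix Polynomial
open scoped TensorProduct

namespace FLTAgent.EigenLattice

open FLTAgent.DetCyclo (CycloExponent exists_cycloExponent cycloExponent_frobenius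
  exists_primitive_root_pow)

local notation "QA" => AlgebraicClosure ℚ
local notation "GG" => (AlgebraicClosure ℚ ≃ₐ[ℚ] AlgebraicClosure ℚ)

section Kolchin

variable {R : Type*} [CommRing R] [IsDomain R]

theorem trace_det_of_unipotent {M : Matrix (Fin 2) (Fin 2) R}
    (h : M.charpoly = (X - 1) ^ 2) : M.trace = 2 ∧ M.det = 1 := by
  rw [Matrix.charpoly_fin_two] at h
  have h0 := congrArg (fun P : R[X] => P.eval 0) h
  have h1 := congrArg (fun P : R[X] => P.eval 1) h
  simp at h0 h1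
  exact ⟨by linear_combination -h1 + h0, h0⟩

/-- A group of unipotent `2 × 2` matrices has a common fixed vector. -/
theorem exists_fixed_vector {G : Type*} [Group G] (H : Subgroup G)
    (r : G →* Matrix (Fin 2) (Fin 2) R) (h : ∀ σ ∈ H, (r σ).charpoly = (X - 1) ^ 2) :
    ∃ w : Fin 2 → R, w ≠ 0 ∧ ∀ σ ∈ H, r σ *ᵥ w = w := by
  by_cases htriv : ∀ σ ∈ H, r σ = 1
  · exact ⟨Pi.single 0 1, by simp, fun σ hσ => by rw [htriv σ hσ, Matrix.one_mulVec]⟩
  push Not at htriv
  obtain ⟨σ₀, hσ₀, hne⟩ := htriv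
  set A := r σ₀ - 1 with hA
  have hA0 : A ≠ 0 := sub_ne_zero.2 hne
  obtain ⟨u, hu⟩ : ∃ u, A *ᵥ u ≠ 0 := by
    by_contra hall
    push Not at hall
    exact hA0 (Matrix.toLin'.injective (LinearMap.ext fun u => by
      rw [Matrix.toLin'_apply, hall u, map_zero, LinearMap.zero_apply]))
  refine ⟨A *ᵥ u, hu, fun τ hτ => ?_⟩
  set B := r τ - 1 with hB
  obtain ⟨t1, d1⟩ := trace_det_of_unipotent (h σ₀ hσ₀)
  obtain ⟨t2, d2⟩ := trace_det_of_unipotent (h τ hτ)
  obtain ⟨t3, -⟩ := trace_det_of_unipotent (h (σ₀ * τ) (H.mul_mem hσ₀ hτ))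
  rw [map_mul] at t3
  have eB : r τ = B + 1 := by rw [hB, sub_add_cancel]
  have eA : r σ₀ = A + 1 := by rw [hA, sub_add_cancel]
  rw [eB] at t2 d2
  rw [eA] at t1 d1
  rw [eA, eB] at t3
  rw [eB]
  simp [Matrix.trace_fin_two, Matrix.det_fin_two, Matrix.mul_apply, Fin.sum_univ_two] at t1 d1 t2 d2 t3
  have x1 : A 1 1 = -A 0 0 := by linear_combination t1
  have a1 : B 1 1 = -B 0 0 := by linear_combination t2
  rw [x1] at d1 t3
  rw [a1] at d2 t3
  have ex : A 0 0 * A 0 0 + A 0 1 * A 1 0 = 0 := by linear_combination -d1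
  have ea : B 0 0 * B 0 0 + B 0 1 * B 1 0 = 0 := by linear_combination -d2
  have et : 2 * (A 0 0 * B 0 0) + B 0 1 * A 1 0 + B 1 0 * A 0 1 = 0 := by linear_combination t3
  have hBA : B * A = 0 := by
    ext i j
    fin_cases i <;> fin_cases j <;>
      simp [Matrix.mul_apply, Fin.sum_univ_two, x1, a1] <;> refine sq_eq_zero_iff.1 ?_
    · linear_combination (A 0 0 * A 0 0) * ea + (B 0 1 * A 1 0) * et - (B 0 1 * B 1 0) * ex
    · linear_combination (A 0 1 * A 0 1) * ea - (B 0 1 * A 0 1) * et + (B 0 1 * B 0 1) * ex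
    · linear_combination (A 1 0 * A 1 0) * ea - (B 1 0 * A 1 0) * et + (B 1 0 * B 1 0) * ex
    · linear_combination (A 0 0 * A 0 0) * ea + (B 1 0 * A 0 1) * et - (B 0 1 * B 1 0) * ex
  rw [Matrix.add_mulVec, Matrix.one_mulVec, Matrix.mulVec_mulVec, hBA, Matrix.zero_mulVec, zero_add]

end Kolchin

section Scalar

variable {O : Type} [CommRing O] [IsDomain O] [IsDiscreteValuationRing O] [CharZero O]
  [IsAdicComplete (IsLocalRing.maximalIdeal O) O]
  (p : ℕ) [Fact p.Prime] (hp : (p : O) ∈ IsLocalRing.maximalIdeal O)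

include hp in
theorem exists_cycloValue (σ : GG) :
    ∃ x : O, ∀ k c, CycloExponent p k σ c → ((p ^ k : ℕ) : O) ∣ x - c := by
  choose c hc using fun k => exists_cycloExponent p k σ
  have hmod : ∀ {k m}, k ≤ m → CycloExponent p k σ (c m) := fun {k m} hkm ζ hζ =>
    hc m ζ (by
      rw [← Nat.sub_add_cancel hkm, pow_add, mul_comm, pow_mul, hζ, one_pow])
  have hdvd : ∀ {k : ℕ} {a b : ℕ}, a ≡ b [MOD p ^ k] → ((p ^ k : ℕ) : O) ∣ (a : O) - b := by
    intro k a b hab
    obtain ⟨t, ht⟩ := Nat.modEq_iff_dvd.1 hab.symm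
    refine ⟨(t : O), ?_⟩
    have := congrArg (Int.cast : ℤ → O) ht
    push_cast at this ⊢
    exact this
  obtain ⟨x, hx⟩ := exists_limit_natPow p hp (fun k => (c k : O))
    fun {k m} hkm => hdvd ((hmod hkm).modEq (hc k))
  refine ⟨x, fun k c' hc' => ?_⟩
  have := dvd_add (hx k) (hdvd ((hc k).modEq hc'))
  rwa [sub_add_sub_cancel] at this

/-- The cyclotomic character with values in `O`. -/
def cycloO (σ : GG) : O := (exists_cycloValue p hp σ).choose

theorem cycloO_spec (σ : GG) {k c : ℕ} (h : CycloExponent p k σ c) :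
    ((p ^ k : ℕ) : O) ∣ cycloO p hp σ - c :=
  (exists_cycloValue p hp σ).choose_spec k c h

theorem cycloO_mul (σ τ : GG) : cycloO p hp (σ * τ) = cycloO p hp σ * cycloO p hp τ := by
  refine eq_of_forall_natPow_dvd p hp fun k => ?_
  obtain ⟨c, hc⟩ := exists_cycloExponent p k σ
  obtain ⟨d, hd⟩ := exists_cycloExponent p k τ
  obtain ⟨u, hu⟩ := cycloO_spec p hp _ (hc.mul hd)
  obtain ⟨v, hv⟩ := cycloO_spec p hp _ hc
  obtain ⟨w, hw⟩ := cycloO_spec p hp _ hd
  rw [Nat.cast_mul] at hu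
  exact ⟨u - v * cycloO p hp τ - (c : O) * w,
    by linear_combination hu - cycloO p hp τ * hv - (c : O) * hw⟩

theorem cycloO_one : cycloO p hp 1 = 1 := by
  refine eq_of_forall_natPow_dvd p hp fun k => ?_
  have h : CycloExponent p k 1 1 := fun ζ _ => by simp
  simpa using cycloO_spec p hp 1 h

theorem cycloO_frobenius {ℓ : ℕ} (hℓ : ℓ.Prime) (hℓp : ℓ ≠ p) {V : ValuationSubring QA}
    (hV : V.LiesOverPrime ℓ) {τ : GG} (hτ : V.IsFrobeniusAt τ ℓ) : cycloO p hp τ = (ℓ : O) :=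
  eq_of_forall_natPow_dvd p hp fun k => cycloO_spec p hp τ (cycloExponent_frobenius hℓ hℓp hV hτ k)

include hp in
theorem exists_level_cycloO (n : ℕ) : ∃ L : IntermediateField ℚ QA, FiniteDimensional ℚ L ∧
    ∀ σ : GG, (∀ a ∈ L, σ a = a) → cycloO p hp σ - 1 ∈ IsLocalRing.maximalIdeal O ^ n := by
  obtain ⟨ζ, hζ⟩ := exists_primitive_root_pow p n
  haveI : NeZero (p ^ n) := ⟨pow_ne_zero _ (Fact.out : p.Prime).ne_zero⟩
  refine ⟨IntermediateField.adjoin ℚ {ζ}, IntermediateField.adjoin.finiteDimensional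
    ((AlgebraicClosure.isAlgebraic ℚ).isAlgebraic ζ).isIntegral, fun σ hσ => ?_⟩
  have h : CycloExponent p n σ 1 := fun η hη => by
    obtain ⟨i, -, rfl⟩ := hζ.eq_pow_of_pow_eq_one hη
    rw [map_pow, hσ ζ (IntermediateField.mem_adjoin_simple_self ℚ ζ), pow_one]
  have h1 := cycloO_spec p hp σ h
  rw [Nat.cast_one] at h1
  exact Ideal.mem_of_dvd _ h1 (natPow_mem p hp n)

/-- A pair of continuous characters as a representation. -/
def diagRep (a b : GG →* O)
    (ha : ∀ n, ∃ L : IntermediateField ℚ QA, FiniteDimensional ℚ L ∧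
      ∀ σ : GG, (∀ x ∈ L, σ x = x) → a σ - 1 ∈ IsLocalRing.maximalIdeal O ^ n)
    (hb : ∀ n, ∃ L : IntermediateField ℚ QA, FiniteDimensional ℚ L ∧
      ∀ σ : GG, (∀ x ∈ L, σ x = x) → b σ - 1 ∈ IsLocalRing.maximalIdeal O ^ n) :
    GaloisRepAdic O where
  V := Fin 2 → O
  finrank_eq := by simp
  ρ :=
    { toFun := fun σ => Matrix.toLin' (Matrix.diagonal ![a σ, b σ])
      map_one' := by
        rw [map_one, map_one, show (![1, 1] : Fin 2 → O) = fun _ => 1 by ext i; fin_cases i <;> rfl,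
          Matrix.diagonal_one, Matrix.toLin'_one]
        rfl
      map_mul' := fun σ τ => by
        rw [map_mul, map_mul, show (![a σ * a τ, b σ * b τ] : Fin 2 → O) =
          fun i => ![a σ, b σ] i * ![a τ, b τ] i by ext i; fin_cases i <;> rfl,
          ← Matrix.diagonal_mul_diagonal, Matrix.toLin'_mul]
        rfl }
  isAdicContinuous := by
    intro n
    obtain ⟨L₁, hL₁, h₁⟩ := ha n
    obtain ⟨L₂, hL₂, h₂⟩ := hb n
    refine ⟨L₁ ⊔ L₂, inferInstance, fun σ hσ v => ?_⟩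
    have e : Matrix.toLin' (Matrix.diagonal ![a σ, b σ]) v - v =
        (a σ - 1) • (v 0 • Pi.single 0 1) + (b σ - 1) • (v 1 • Pi.single 1 1) := by
      ext i
      fin_cases i <;> simp [Matrix.toLin'_apply, Matrix.mulVec_diagonal, sub_mul]
    show Matrix.toLin' (Matrix.diagonal ![a σ, b σ]) v - v ∈ _
    rw [e]
    exact add_mem
      (Submodule.smul_mem_smul (h₁ σ fun x hx => hσ x ((le_sup_left : L₁ ≤ L₁ ⊔ L₂) hx))
        Submodule.mem_top)
      (Submodule.smul_mem_smul (h₂ σ fun x hx => hσ x ((le_sup_right : L₂ ≤ L₁ ⊔ L₂) hx))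
        Submodule.mem_top)

theorem charpoly_diagRep (a b : GG →* O) (ha) (hb) (σ : GG) :
    LinearMap.charpoly ((diagRep a b ha hb).ρ σ) =
      X ^ 2 - C (a σ + b σ) * X + C (a σ * b σ) := by
  show LinearMap.charpoly (Matrix.toLin' (Matrix.diagonal ![a σ, b σ])) = _
  rw [Matrix.charpoly_toLin', Matrix.charpoly_fin_two, Matrix.trace_fin_two, Matrix.det_fin_two]
  simp

theorem not_absIrr_of_eigenvector {k : Type} [Field k] (ρ : ResidualGaloisRep k) (v : ρ.V)
    (f : ρ.V →ₗ[k] k) (hf : f v = 1) (hv : ∀ σ, ∃ c : k, ρ.ρ σ v = c • v) :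
    ¬ ρ.IsAbsolutelyIrreducible := by
  intro h
  have hstab : ∀ σ : GG, ∀ y ∈ Submodule.span (AlgebraicClosure k)
      {(1 : AlgebraicClosure k) ⊗ₜ[k] v},
      (ρ.ρ σ).baseChange (AlgebraicClosure k) y ∈ Submodule.span (AlgebraicClosure k)
        {(1 : AlgebraicClosure k) ⊗ₜ[k] v} := by
    intro σ y hy
    obtain ⟨c, rfl⟩ := Submodule.mem_span_singleton.1 hy
    obtain ⟨d, hd⟩ := hv σ
    rw [map_smul, LinearMap.baseChange_tmul, hd, TensorProduct.tmul_smul,
      ← algebraMap_smul (AlgebraicClosure k) d]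
    exact Submodule.smul_mem _ _ (Submodule.smul_mem _ _ (Submodule.mem_span_singleton_self _))
  have h1 : (1 : AlgebraicClosure k) ⊗ₜ[k] v ≠ 0 := fun h0 => by
    have h2 := congrArg (fun z => TensorProduct.AlgebraTensorModule.rid k (AlgebraicClosure k)
      (AlgebraicClosure k) (f.baseChange (AlgebraicClosure k) z)) h0
    simp [hf] at h2
  have h2 : Module.finrank (AlgebraicClosure k) (AlgebraicClosure k ⊗[k] ρ.V) = 2 := by
    rw [Module.finrank_baseChange, ρ.finrank_eq]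
  rcases h (Submodule.span (AlgebraicClosure k) {(1 : AlgebraicClosure k) ⊗ₜ[k] v}) hstab with
    h0 | h0
  · exact h1 ((Submodule.mem_bot _).1 (h0 ▸ Submodule.mem_span_singleton_self _))
  · have h3 := finrank_span_singleton (K := AlgebraicClosure k) h1
    rw [show Submodule.span (AlgebraicClosure k) {(1 : AlgebraicClosure k) ⊗ₜ[k] v} =
      (⊤ : Submodule (AlgebraicClosure k) (AlgebraicClosure k ⊗[k] ρ.V)) from h0, finrank_top, h2]
      at h3
    omega

theorem not_absIrr_diagRep (a b : GG →* O) (ha) (hb) :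
    ¬ (diagRep a b ha hb).residual.IsAbsolutelyIrreducible := by
  refine not_absIrr_of_eigenvector (diagRep a b ha hb).residual
    ((1 : IsLocalRing.ResidueField O) ⊗ₜ[O] (Pi.single 0 1 : Fin 2 → O))
    ((TensorProduct.AlgebraTensorModule.rid O (IsLocalRing.ResidueField O)
        (IsLocalRing.ResidueField O)).toLinearMap ∘ₗ
      (LinearMap.proj 0 : (Fin 2 → O) →ₗ[O] O).baseChange (IsLocalRing.ResidueField O)) ?_
    fun σ => ⟨IsLocalRing.residue O (a σ), ?_⟩
  · show (TensorProduct.AlgebraTensorModule.rid O (IsLocalRing.ResidueField O)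
        (IsLocalRing.ResidueField O))
      (((LinearMap.proj 0 : (Fin 2 → O) →ₗ[O] O).baseChange (IsLocalRing.ResidueField O))
        (1 ⊗ₜ[O] (Pi.single 0 1 : Fin 2 → O))) = 1
    rw [LinearMap.baseChange_tmul]
    simp
  · show ((Matrix.toLin' (Matrix.diagonal ![a σ, b σ])).baseChange (IsLocalRing.ResidueField O))
        (1 ⊗ₜ[O] (Pi.single 0 1 : Fin 2 → O)) = _
    rw [LinearMap.baseChange_tmul,
      show Matrix.toLin' (Matrix.diagonal ![a σ, b σ]) (Pi.single 0 1) =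
        a σ • (Pi.single 0 1 : Fin 2 → O) by
        ext i
        fin_cases i <;> simp [Matrix.toLin'_apply],
      TensorProduct.tmul_smul, ← algebraMap_smul (IsLocalRing.ResidueField O) (a σ)]
    rfl

include hp in
/-- An everywhere scalar representation with the Frobenius relations has a reducible companion with
the same Frobenius characteristic polynomials. -/
theorem exists_companion (ρ : GaloisRepAdic O) (hs : ∀ σ, ∃ c : O, ρ.ρ σ = c • 1)
    (P : ℕ → Prop) (hP : ∀ ℓ, P ℓ → ℓ.Prime ∧ ℓ ≠ p) (t : ℕ → O)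
    (hrel : ∀ ℓ, P ℓ → ∀ V : ValuationSubring QA, V.LiesOverPrime ℓ → ∀ τ : GG,
      V.IsFrobeniusAt τ ℓ → ρ.ρ τ * ρ.ρ τ - t ℓ • ρ.ρ τ + (ℓ : O) • 1 = 0) :
    ∃ ρ' : GaloisRepAdic O, ¬ ρ'.residual.IsAbsolutelyIrreducible ∧
      ∀ ℓ, P ℓ → ∀ V : ValuationSubring QA, V.LiesOverPrime ℓ → ∀ τ : GG, V.IsFrobeniusAt τ ℓ →
        LinearMap.charpoly (ρ'.ρ τ) = X ^ 2 - C (t ℓ) * X + C ((ℓ : O)) := by
  classical
  choose c hc using hs
  obtain ⟨bs⟩ := FLTAgent.Deformation.nonempty_basis ρ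
  have huniq : ∀ {x y : O}, (x • (1 : Module.End O ρ.V)) = y • 1 → x = y := fun {x y} h => by
    have := congrArg (fun f : Module.End O ρ.V => bs.repr (f (bs 0)) 0) h
    simpa using this
  have hc1 : c 1 = 1 := huniq (by rw [← hc, map_one, one_smul])
  have hcm : ∀ σ τ, c (σ * τ) = c σ * c τ := fun σ τ => huniq (by
    rw [← hc, map_mul, hc, hc, smul_mul_smul_comm, one_mul])
  let a : GG →* O := { toFun := c, map_one' := hc1, map_mul' := hcm }
  let b : GG →* O :=
    { toFun := fun σ => cycloO p hp σ * c σ⁻¹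
      map_one' := by rw [cycloO_one, inv_one, hc1, one_mul]
      map_mul' := fun σ τ => by rw [cycloO_mul, _root_.mul_inv_rev, hcm]; ring }
  have hinv : ∀ σ, c σ * c σ⁻¹ = 1 := fun σ => by rw [← hcm, mul_inv_cancel, hc1]
  have ha : ∀ n, ∃ L : IntermediateField ℚ QA, FiniteDimensional ℚ L ∧
      ∀ σ : GG, (∀ x ∈ L, σ x = x) → a σ - 1 ∈ IsLocalRing.maximalIdeal O ^ n := by
    intro n
    obtain ⟨L, hL, h⟩ := ρ.isAdicContinuous n
    refine ⟨L, hL, fun σ hσ => ?_⟩
    have h1 := h σ hσ (bs 0)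
    rw [hc, LinearMap.smul_apply, Module.End.one_apply,
      show c σ • bs 0 - bs 0 = (c σ - 1) • bs 0 by rw [sub_smul, one_smul]] at h1
    show c σ - 1 ∈ _
    have h3 : ∀ y ∈ (IsLocalRing.maximalIdeal O ^ n) • (⊤ : Submodule O ρ.V),
        bs.coord 0 y ∈ IsLocalRing.maximalIdeal O ^ n := by
      intro y hy
      refine Submodule.smul_induction_on hy (fun r hr z _ => ?_) fun u v hu hv => ?_
      · rw [map_smul, smul_eq_mul]; exact Ideal.mul_mem_right _ _ hr
      · rw [map_add]; exact add_mem hu hv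
    simpa using h3 _ h1
  have hb : ∀ n, ∃ L : IntermediateField ℚ QA, FiniteDimensional ℚ L ∧
      ∀ σ : GG, (∀ x ∈ L, σ x = x) → b σ - 1 ∈ IsLocalRing.maximalIdeal O ^ n := by
    intro n
    obtain ⟨L₁, hL₁, h₁⟩ := ha n
    obtain ⟨L₂, hL₂, h₂⟩ := exists_level_cycloO p hp n
    refine ⟨L₁ ⊔ L₂, inferInstance, fun σ hσ => ?_⟩
    have e1 := h₁ σ⁻¹ fun x hx => by
      rw [show σ⁻¹ = σ.symm from rfl, AlgEquiv.symm_apply_eq,
        hσ x ((le_sup_left : L₁ ≤ L₁ ⊔ L₂) hx)]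
    have e2 := h₂ σ fun x hx => hσ x ((le_sup_right : L₂ ≤ L₁ ⊔ L₂) hx)
    show cycloO p hp σ * c σ⁻¹ - 1 ∈ _
    rw [show cycloO p hp σ * c σ⁻¹ - 1 = cycloO p hp σ * (a σ⁻¹ - 1) + (cycloO p hp σ - 1) by
      show _ = cycloO p hp σ * (c σ⁻¹ - 1) + _
      ring]
    exact add_mem (Ideal.mul_mem_left _ _ e1) e2
  refine ⟨diagRep a b ha hb, not_absIrr_diagRep a b ha hb, fun ℓ hℓ V hV τ hτ => ?_⟩
  obtain ⟨hℓp, hne⟩ := hP ℓ hℓ
  have h1 := hrel ℓ hℓ V hV τ hτ
  rw [hc, smul_mul_smul_comm, one_mul, smul_smul, ← sub_smul, ← add_smul] at h1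
  have h2 : c τ * c τ - t ℓ * c τ + ℓ = 0 := huniq (h1.trans (zero_smul O _).symm)
  have e3 : a τ * b τ = (ℓ : O) := by
    show c τ * (cycloO p hp τ * c τ⁻¹) = _
    rw [cycloO_frobenius p hp hℓp hne hV hτ]
    linear_combination (ℓ : O) * hinv τ
  have e4 : a τ + b τ = t ℓ := by
    have h0 : c τ ≠ 0 := left_ne_zero_of_mul_eq_one (hinv τ)
    refine mul_left_cancel₀ h0 ?_
    change c τ * b τ = _ at e3
    show c τ * (c τ + b τ) = _
    linear_combination h2 + e3
  rw [charpoly_diagRep, e3, e4]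

end Scalar

end FLTAgent.EigenLattice
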