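import Fermat.Agent.CuspForms.EigenChar
import Fermat.Agent.PeriodHecke.Action
import Fermat.Prelude.Thm_IsLocalRing_isAdicComplete_of_module_finite
import Fermat.Prelude.Thm_Algebra_finite_maximalSpectrum_and_bijective_localization_of_module_finite
import Mathlib.RingTheory.DedekindDomain.IntegralClosure
import Mathlib.RingTheory.DiscreteValuationRing.TFAE
import Mathlib.FieldTheory.IsAlgClosed.AlgebraicClosure

/-!
# Extending characters of Hecke algebras to finite extensions of a complete DVR
-/

set_option autoImplicit false

noncomputable section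

set_option linter.style.haveILetI false
set_option linter.unusedSectionVars false

open CongruenceSubgroup

namespace FLTAgent.EigenLattice

section Ring

variable (O : Type) [CommRing O] [IsDomain O] [IsDiscreteValuationRing O] [CharZero O]
  [IsAdicComplete (IsLocalRing.maximalIdeal O) O]

/-- A finite domain over a complete local ring is local. -/
theorem isLocalRing_of_finite_domain (A : Type) [CommRing A] [IsDomain A] [Algebra O A]
    [Module.Finite O A] : IsLocalRing A := by
  classical
  obtain ⟨-, hbij, -, -⟩ :=
    Algebra.finite_maximalSpectrum_and_bijective_localization_of_module_finite (𝒪 := O) A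
  refine IsLocalRing.of_unique_max_ideal ?_
  obtain ⟨I, hI⟩ := Ideal.exists_maximal A
  refine ⟨I, hI, fun J hJ => ?_⟩
  by_contra hne
  let I' : MaximalSpectrum A := ⟨I, hI⟩
  let J' : MaximalSpectrum A := ⟨J, hJ⟩
  obtain ⟨a, ha⟩ := hbij.2 (Pi.single I' 1)
  obtain ⟨b, hb⟩ := hbij.2 (Pi.single J' 1)
  have hab : a * b = 0 := hbij.1 (by
    rw [map_mul, ha, hb, map_zero]
    funext K
    rw [Pi.mul_apply, Pi.zero_apply]
    rcases eq_or_ne K I' with rfl | hK
    · rw [Pi.single_eq_of_ne (show I' ≠ J' from fun h => hne (congrArg MaximalSpectrum.asIdeal h).symm),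
        mul_zero]
    · rw [Pi.single_eq_of_ne hK, zero_mul])
  rcases mul_eq_zero.1 hab with h0 | h0
  · rw [h0, map_zero] at ha
    have := congrFun ha I'
    rw [Pi.single_eq_same] at this
    exact zero_ne_one this
  · rw [h0, map_zero] at hb
    have := congrFun hb J'
    rw [Pi.single_eq_same] at this
    exact zero_ne_one this

/-- The integers of a finite extension of the fraction field of a complete DVR. -/
theorem exists_integers [Finite (IsLocalRing.ResidueField O)] (L : Type) [Field L]
    [Algebra (FractionRing O) L] [FiniteDimensional (FractionRing O) L] [Algebra O L]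
    [IsScalarTower O (FractionRing O) L] :
    IsDiscreteValuationRing (integralClosure O L) ∧
    IsAdicComplete (IsLocalRing.maximalIdeal O) O ∧
    Module.Finite O (integralClosure O L) ∧
    IsLocalHom (algebraMap O (integralClosure O L)) ∧
    Function.Injective (algebraMap O (integralClosure O L)) := by
  haveI : CharZero (FractionRing O) :=
    charZero_of_injective_algebraMap (IsFractionRing.injective O (FractionRing O))
  haveI : Algebra.IsSeparable (FractionRing O) L := inferInstance
  haveI hfin : Module.Finite O (integralClosure O L) :=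
    IsIntegralClosure.finite O (FractionRing O) L (integralClosure O L)
  haveI : IsDedekindDomain (integralClosure O L) :=
    IsIntegralClosure.isDedekindDomain O (FractionRing O) L (integralClosure O L)
  haveI : IsLocalRing (integralClosure O L) := isLocalRing_of_finite_domain O _
  have hinj : Function.Injective (algebraMap O (integralClosure O L)) := fun a b h => by
    have h1 := congrArg (algebraMap (integralClosure O L) L) h
    rw [← IsScalarTower.algebraMap_apply, ← IsScalarTower.algebraMap_apply,
      IsScalarTower.algebraMap_apply O (FractionRing O) L,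
      IsScalarTower.algebraMap_apply O (FractionRing O) L] at h1
    exact IsFractionRing.injective O (FractionRing O) ((algebraMap _ L).injective h1)
  have hloc : IsLocalHom (algebraMap O (integralClosure O L)) :=
    RingHom.IsIntegral.isLocalHom (Algebra.IsIntegral.isIntegral (R := O)) hinj
  have hnf : ¬ IsField (integralClosure O L) := fun h => by
    have h1 := isField_of_isIntegral_of_isField hinj h
    exact (IsDiscreteValuationRing.not_isField O) h1
  refine ⟨?_, inferInstance, hfin, hloc, hinj⟩
  have h := (IsDiscreteValuationRing.TFAE (integralClosure O L) hnf).out 2 0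
  exact h.mp ‹_›

end Ring

/-- A ring hom on a subring of the complex numbers extends, after a finite extension of the DVR, to
an integral finitely generated bigger subring. -/
theorem exists_extension (O : Type) [CommRing O] [IsDomain O] [IsDiscreteValuationRing O]
    [CharZero O] [IsAdicComplete (IsLocalRing.maximalIdeal O) O]
    [Finite (IsLocalRing.ResidueField O)] {R S : Subring ℂ} (hRS : R ≤ S) [Module.Finite ℤ S]
    (f : R →+* O) :
    ∃ (O'' : Type) (_ : CommRing O'') (_ : IsDomain O'') (_ : IsDiscreteValuationRing O'')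
      (_ : IsAdicComplete (IsLocalRing.maximalIdeal O'') O'')
      (_ : Finite (IsLocalRing.ResidueField O'')) (_ : CharZero O'') (_ : Algebra O O'')
      (_ : Module.Finite O O'') (_ : IsLocalHom (algebraMap O O'')),
      Function.Injective (algebraMap O O'') ∧
      ∃ F : S →+* O'', ∀ r : R, F (Subring.inclusion hRS r) = algebraMap O O'' (f r) := by
  classical
  haveI : CharZero (FractionRing O) :=
    charZero_of_injective_algebraMap (IsFractionRing.injective O (FractionRing O))
  letI : Algebra R S := (Subring.inclusion hRS).toAlgebra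
  haveI : Algebra.IsIntegral ℤ S := Algebra.IsIntegral.of_finite ℤ S
  haveI : Algebra.IsIntegral R S := Algebra.IsIntegral.tower_top (R := ℤ) (S := R) (T := S)
  haveI : FaithfulSMul R S := (faithfulSMul_iff_algebraMap_injective R S).2 (Subring.inclusion_injective hRS)
  haveI : Algebra.IsIntegral ℤ R :=
    ⟨fun x => (isIntegral_algHom_iff (Subring.inclusion hRS).toIntAlgHom
      (Subring.inclusion_injective hRS)).1 (Algebra.IsIntegral.isIntegral _)⟩
  have hker : Function.Injective f := by
    rw [RingHom.injective_iff_ker_eq_bot]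
    refine Ideal.eq_bot_of_comap_eq_bot (R := ℤ) ?_
    rw [RingHom.comap_ker, ← RingHom.injective_iff_ker_eq_bot]
    exact (f.comp (algebraMap ℤ R)).injective_int
  set K := FractionRing O
  set Kb := AlgebraicClosure K
  let jR : R →+* Kb := ((algebraMap K Kb).comp (algebraMap O K)).comp f
  letI : Algebra R Kb := jR.toAlgebra
  haveI : FaithfulSMul R Kb := (faithfulSMul_iff_algebraMap_injective R Kb).2
    (((algebraMap K Kb).injective.comp (IsFractionRing.injective O K)).comp hker)
  haveI : Algebra.IsAlgebraic R S := Algebra.IsIntegral.isAlgebraic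
  let lift : S →ₐ[R] Kb := IsAlgClosed.lift
  obtain ⟨gen, hgen⟩ := (inferInstance : Module.Finite ℤ S).fg_top
  set L := IntermediateField.adjoin K (lift '' (gen : Set S))
  haveI : FiniteDimensional K L :=
    IntermediateField.finiteDimensional_adjoin fun x _ => Algebra.IsIntegral.isIntegral x
  letI : Algebra O L := ((algebraMap K L).comp (algebraMap O K)).toAlgebra
  haveI : IsScalarTower O K L := IsScalarTower.of_algebraMap_eq fun _ => rfl
  obtain ⟨hdvr, -, hfin, hloc, hinj⟩ := exists_integers O L
  have hmem : ∀ s : S, lift s ∈ L := by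
    intro s
    have hs : s ∈ Submodule.span ℤ (gen : Set S) := hgen ▸ Submodule.mem_top
    induction hs using Submodule.span_induction with
    | mem x hx => exact IntermediateField.subset_adjoin K _ ⟨x, hx, rfl⟩
    | zero => rw [map_zero]; exact zero_mem _
    | add x y _ _ hx hy => rw [map_add]; exact add_mem hx hy
    | smul c x _ hx => rw [map_zsmul]; exact zsmul_mem hx c
  let liftL : S →+* L := lift.toRingHom.codRestrict L hmem
  have hint : ∀ s : S, liftL s ∈ integralClosure O L := fun s => by
    have h1 : IsIntegral ℤ (liftL s) := map_isIntegral_int liftL (Algebra.IsIntegral.isIntegral s)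
    exact h1.tower_top
  haveI := hdvr
  haveI := hfin
  haveI := hloc
  haveI : IsAdicComplete (IsLocalRing.maximalIdeal (integralClosure O L)) (integralClosure O L) :=
    IsLocalRing.isAdicComplete_of_module_finite (𝒪 := O)
  haveI : Finite (IsLocalRing.ResidueField (integralClosure O L)) :=
    IsLocalRing.ResidueField.finite_of_finite ‹_›
  haveI : CharZero (integralClosure O L) := charZero_of_injective_algebraMap hinj
  refine ⟨integralClosure O L, inferInstance, inferInstance, inferInstance, inferInstance,
    inferInstance, inferInstance, inferInstance, hfin, hloc, hinj,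
    liftL.codRestrict (integralClosure O L).toSubring hint, fun r => Subtype.ext (Subtype.ext ?_)⟩
  exact lift.commutes r

/-- A character of the good operators with values in a DVR extends to the whole Hecke algebra. -/
theorem exists_full_character {M : ℕ} [NeZero M] {g : CuspForm (Gamma0 M) 2}
    (hg : g.IsNormalizedEigenform) {S : Set ℕ}
    (O : Type) [CommRing O] [IsDomain O] [IsDiscreteValuationRing O] [CharZero O]
    [IsAdicComplete (IsLocalRing.maximalIdeal O) O] [Finite (IsLocalRing.ResidueField O)]
    (hMS : ∀ q : ℕ, q.Prime → q ∣ M → q ∈ S)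
    (chig : CuspForm.heckeAlgebra M 2 S →+* ℂ)
    (hchig : ∀ (ℓ : ℕ) (hℓ : ℓ.Prime) (hℓM : ¬ ℓ ∣ M) (hℓS : ℓ ∉ S),
      chig (CuspForm.heckeAlgebra.T hℓ hℓM hℓS) = ModularFormClass.qCoeff g ℓ)
    (iota : chig.range →+* O) :
    ∃ (O'' : Type) (_ : CommRing O'') (_ : IsDomain O'') (_ : IsDiscreteValuationRing O'')
      (_ : IsAdicComplete (IsLocalRing.maximalIdeal O'') O'')
      (_ : Finite (IsLocalRing.ResidueField O'')) (_ : CharZero O'') (_ : Algebra O O'')
      (_ : Module.Finite O O'') (_ : IsLocalHom (algebraMap O O'')),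
      Function.Injective (algebraMap O O'') ∧
      ∃ F : (CuspForms.eigenChar hg).range →+* O'',
        ∀ (ℓ : ℕ) (hℓ : ℓ.Prime) (hℓM : ¬ ℓ ∣ M) (hℓS : ℓ ∉ S),
          F ((CuspForms.eigenChar hg).rangeRestrict (CuspForms.heckeGen M ℓ hℓ)) =
            algebraMap O O'' (iota (chig.rangeRestrict (CuspForm.heckeAlgebra.T hℓ hℓM hℓS))) := by
  have hle : CuspForm.heckeAlgebra M 2 S ≤ CuspForm.heckeAlgebra M 2 (∅ : Set ℕ) := by
    refine Algebra.adjoin_mono ?_
    rintro x (⟨l, hl, hlM, -, rfl⟩ | ⟨q, hqM, hq, -, rfl⟩)
    · exact Or.inl ⟨l, hl, hlM, by simp, rfl⟩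
    · exact Or.inr ⟨q, hqM, hq, by simp, rfl⟩
  have hchar : ∀ t : CuspForm.heckeAlgebra M 2 S,
      chig t = CuspForms.eigenChar hg ⟨t.1, hle t.2⟩ := by
    rintro ⟨t, ht⟩
    induction ht using Algebra.adjoin_induction with
    | mem x hx =>
      rcases hx with ⟨l, hl, hlM, hlS, rfl⟩ | ⟨q, hqM, hq, hqS, rfl⟩
      · refine (hchig l hl hlM hlS).trans ((CuspForms.eigenChar_heckeGen hg l hl).symm.trans ?_)
        refine congrArg _ (Subtype.ext ?_)
        rw [CuspForms.heckeGen, dif_neg hlM]
        rfl
      · exact absurd (hMS q hq hqM) hqS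
    | algebraMap c =>
      refine (map_intCast chig c).trans ?_
      exact (map_intCast (CuspForms.eigenChar hg) c).symm
    | add x y hx hy ih ih' =>
      refine (map_add chig ⟨x, hx⟩ ⟨y, hy⟩).trans ?_
      rw [ih, ih', ← map_add]
      rfl
    | mul x y hx hy ih ih' =>
      refine (map_mul chig ⟨x, hx⟩ ⟨y, hy⟩).trans ?_
      rw [ih, ih', ← map_mul]
      rfl
  have hRS : chig.range ≤ (CuspForms.eigenChar hg).range := by
    rintro _ ⟨t, rfl⟩
    exact ⟨_, (hchar t).symm⟩
  haveI : Module.Finite ℤ (CuspForm.heckeAlgebra M 2 (∅ : Set ℕ)) := PeriodHecke.finite_hecke M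
  haveI : Module.Finite ℤ (CuspForms.eigenChar hg).range :=
    Module.Finite.of_surjective (CuspForms.eigenChar hg).rangeRestrict.toIntAlgHom.toLinearMap
      (CuspForms.eigenChar hg).rangeRestrict_surjective
  obtain ⟨O'', i1, i2, i3, i4, i5, i6, i7, i8, i9, hinj, F, hF⟩ := exists_extension O hRS iota
  refine ⟨O'', i1, i2, i3, i4, i5, i6, i7, i8, i9, hinj, F, fun ℓ hℓ hℓM hℓS => ?_⟩
  rw [← hF]
  refine congrArg F (Subtype.ext ?_)
  show CuspForms.eigenChar hg (CuspForms.heckeGen M ℓ hℓ) = chig (CuspForm.heckeAlgebra.T hℓ hℓM hℓS)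
  rw [CuspForms.eigenChar_heckeGen, hchig]

end FLTAgent.EigenLattice
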