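import Fermat.Agent.EigenLattice.Push
import Fermat.Agent.EigenLattice.Extend
import Fermat.Agent.EigenLattice.Diagonal
import Fermat.Prelude.Def_GaloisRep_LocalConditions
import Fermat.Prelude.Def_CuspForm_Newforms
import Fermat.Prelude.Def_CuspForm_HeckeGaloisRepDatum
import Fermat.Prelude.Def_GaloisRep_ComplexConjugation

/-!
# A newform of level exactly divisible by `q²` has no inertia fixed eigenclasses at `q`

The algebraic part of Carayol's theorem: the geometric bound is a hypothesis.
-/

set_option autoImplicit false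

noncomputable section

set_option linter.style.haveILetI false
set_option linter.unusedSectionVars false
set_option synthInstance.maxHeartbeats 400000
set_option maxHeartbeats 1000000

open CongruenceSubgroup Matrix AlgebraicCurve
open scoped MatrixGroups

namespace FLTAgent.EigenLattice

open ModularCurve (JZero modularFunctionFieldBar heckeAlphaBar heckeBetaBar)

local notation "QA" => AlgebraicClosure ℚ
local notation "GG" => (AlgebraicClosure ℚ ≃ₐ[ℚ] AlgebraicClosure ℚ)

/-- The geometric bound at `q`: inertia fixed classes killed by both push forwards have bounded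
exponent. -/
def CarayolBound (q M' : ℕ) [Fact q.Prime] [NeZero M'] : Prop :=
  ∃ B : ℕ, 0 < B ∧ ∀ (A : ValuationSubring (AlgebraicClosure ℚ)), A.LiesOverPrime q →
    ∀ (n : ℕ), ¬ q ∣ n →
      haveI : NeZero (q * M') := ⟨Nat.mul_ne_zero (Nat.Prime.ne_zero Fact.out) (NeZero.ne M')⟩
      haveI : NeZero q := ⟨Nat.Prime.ne_zero Fact.out⟩
      ∀ D : Divisor.degZero (K := AlgebraicClosure ℚ) (F := modularFunctionFieldBar (q * M' * q)),
        n • Pic0.mk D = 0 →
        (∀ σ ∈ A.inertiaSubgroupIn ℚ, σ • Pic0.mk D = Pic0.mk D) →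
        (Divisor.pushforwardAlong (heckeAlphaBar (AlgebraicClosure ℚ) (q * M') q)
          (FLTAgent.Kronecker.isIntegralAlong _)
          (D : Divisor (AlgebraicClosure ℚ) _)).IsPrincipal →
        (Divisor.pushforwardAlong (heckeBetaBar (AlgebraicClosure ℚ) (q * M') q)
          (FLTAgent.Kronecker.isIntegralAlong _)
          (D : Divisor (AlgebraicClosure ℚ) _)).IsPrincipal →
        B • Pic0.mk D = 0

/-- A ring hom on the values of an eigensystem into a domain of characteristic zero is injective. -/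
theorem values_hom_injective {M : ℕ} [NeZero M] (χ : CuspForm.heckeAlgebra M 2 (∅ : Set ℕ) →+* ℂ)
    {O : Type} [CommRing O] [IsDomain O] [CharZero O] (F : χ.range →+* O) :
    Function.Injective F := by
  haveI : Module.Finite ℤ (CuspForm.heckeAlgebra M 2 (∅ : Set ℕ)) := PeriodHecke.finite_hecke M
  haveI : Module.Finite ℤ χ.range :=
    Module.Finite.of_surjective χ.rangeRestrict.toIntAlgHom.toLinearMap χ.rangeRestrict_surjective
  haveI : Algebra.IsIntegral ℤ χ.range := Algebra.IsIntegral.of_finite ℤ _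
  rw [RingHom.injective_iff_ker_eq_bot]
  refine Ideal.eq_bot_of_comap_eq_bot (R := ℤ) ?_
  rw [RingHom.comap_ker, ← RingHom.injective_iff_ker_eq_bot]
  exact (F.comp (algebraMap ℤ χ.range)).injective_int

section Fixed

variable {N : ℕ} [NeZero N] (κ : AlgebraicClosure ℚ →+* ℂ) (p : ℕ) [Fact p.Prime]
  {O : Type} [CommRing O] [IsDomain O] [IsDiscreteValuationRing O] [CharZero O]
  [IsAdicComplete (IsLocalRing.maximalIdeal O) O] (hp : (p : O) ∈ IsLocalRing.maximalIdeal O)

/-- A fixed vector gives fixed torsion classes. -/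
theorem smul_torsCoord_symm_of_fixed {v : Ix N → O} (σ : GG)
    (hfix : galO N p κ O hp σ *ᵥ v = v) (k : ℕ) (g : O →+ ZMod (p ^ k)) :
    haveI : NeZero (p ^ k) := ⟨pow_ne_zero _ (Fact.out : p.Prime).ne_zero⟩
    σ • (((torsCoord (N := N) κ (p ^ k)).symm fun i => g (v i) :
        Pic0.torsion QA (modularFunctionFieldBar N) (p ^ k)) : JZero N) =
      (((torsCoord (N := N) κ (p ^ k)).symm fun i => g (v i) :
        Pic0.torsion QA (modularFunctionFieldBar N) (p ^ k)) : JZero N) := by
  haveI : NeZero (p ^ k) := ⟨pow_ne_zero _ (Fact.out : p.Prime).ne_zero⟩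
  set c := (torsCoord (N := N) κ (p ^ k)).symm fun i => g (v i)
  have h : ModularCurve.JZero.torsionGaloisRep N (p ^ k) σ c = c := by
    refine (torsCoord (N := N) κ (p ^ k)).injective ?_
    rw [← galMx_mulVec, AddEquiv.apply_symm_apply]
    funext i
    have h1 := functional_galO N p κ O hp g σ v i
    rw [hfix] at h1
    exact h1.symm
  have h2 := congrArg Subtype.val h
  rwa [ModularCurve.JZero.coe_torsionGaloisRep_apply] at h2

end Fixed

variable {q M' : ℕ} [Fact q.Prime] [NeZero M'] [NeZero (q * M' * q)]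

/-- A vector of the eigen lattice of a newform fixed by inertia at `q` is zero. -/
theorem eq_zero_of_fixed (hB : CarayolBound q M')
    {g : CuspForm (Gamma0 (q * M' * q)) 2} (hg : g.IsNewform) (p : ℕ) [Fact p.Prime] (hqp : q ≠ p)
    (κ : AlgebraicClosure ℚ →+* ℂ) {O : Type} [CommRing O] [IsDomain O] [IsDiscreteValuationRing O]
    [CharZero O] [IsAdicComplete (IsLocalRing.maximalIdeal O) O]
    (hp : (p : O) ∈ IsLocalRing.maximalIdeal O) (F : (CuspForms.eigenChar hg.1).range →+* O)
    {A : ValuationSubring (AlgebraicClosure ℚ)} (hA : A.LiesOverPrime q)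
    {v : Ix (q * M' * q) → O}
    (hv : v ∈ eigenVec (q * M' * q) (F.comp (CuspForms.eigenChar hg.1).rangeRestrict))
    (hfix : ∀ σ ∈ A.inertiaSubgroupIn ℚ, galO (q * M' * q) p κ O hp σ *ᵥ v = v) : v = 0 := by
  haveI : NeZero q := ⟨(Fact.out : q.Prime).ne_zero⟩
  haveI : NeZero (q * M') := ⟨Nat.mul_ne_zero (NeZero.ne q) (NeZero.ne M')⟩
  obtain ⟨B, hB0, hbound⟩ := hB
  obtain ⟨P, hP0, hPne⟩ := exists_separating hg (q * M') (dvd_mul_right _ _)
    (fun h => absurd h (by
      have h1 : 0 < q * M' := Nat.pos_of_ne_zero (NeZero.ne _)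
      have h2 := (Fact.out : q.Prime).one_lt
      intro h3
      nlinarith)) {p}
  set t := evalGood (q * M' * q) {p} (q * M' * q) P
  set cst := F ((CuspForms.eigenChar hg.1).rangeRestrict t)
  have hcst : cst ≠ 0 := fun h0 =>
    hPne (congrArg Subtype.val (values_hom_injective _ F (h0.trans (map_zero F).symm)))
  set w := (heckeMx (q * M' * q) t).map (Int.castRingHom O) *ᵥ v
  have hw : w = cst • v := hv t
  have hwfix : ∀ σ ∈ A.inertiaSubgroupIn ℚ, galO (q * M' * q) p κ O hp σ *ᵥ w = w := fun σ hσ => by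
    rw [hw, Matrix.mulVec_smul, hfix σ hσ]
  have key : ((B : O) * cst) • v = 0 := by
    refine vec_ext (q * M' * q) p O hp fun k f i => ?_
    haveI : NeZero (p ^ k) := ⟨pow_ne_zero _ (Fact.out : p.Prime).ne_zero⟩
    set c := (torsCoord (N := q * M' * q) κ (p ^ k)).symm fun j => f (v j) with hc
    set d := opAct κ (p ^ k) t c with hd
    have hdw : d = (torsCoord (N := q * M' * q) κ (p ^ k)).symm fun j => f (w j) := by
      refine (torsCoord (N := q * M' * q) κ (p ^ k)).injective ?_
      rw [hd, torsCoord_opAct, hc, AddEquiv.apply_symm_apply, AddEquiv.apply_symm_apply]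
      funext j
      exact (functional_intMulVec p f _ v j).symm
    have hn : ∀ r : ℕ, r.Prime → r ∣ p ^ k → r ∈ ({p} : Finset ℕ) := fun r hr hd =>
      Finset.mem_singleton.2 ((Nat.prime_dvd_prime_iff_eq hr Fact.out).1 (hr.dvd_of_dvd_pow hd))
    have hqk : ¬ q ∣ p ^ k := fun h => hqp ((Nat.prime_dvd_prime_iff_eq Fact.out Fact.out).1
      ((Fact.out : q.Prime).dvd_of_dvd_pow h))
    obtain ⟨D, hD⟩ := Pic0.mk_surjective (d : JZero (q * M' * q))
    have htors : p ^ k • Pic0.mk D = 0 := by
      rw [hD]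
      have h := Pic0.mem_torsion.1 d.2
      rwa [natCast_zsmul] at h
    have hfixd : ∀ σ ∈ A.inertiaSubgroupIn ℚ, σ • Pic0.mk D = Pic0.mk D := fun σ hσ => by
      rw [hD, hdw]
      exact smul_torsCoord_symm_of_fixed κ p hp σ (hwfix σ hσ) k f
    have hB' := hbound A hA (p ^ k) hqk D htors hfixd
      (isPrincipal_of_pushPic_eq_zero (q * M') q _ D (by
        rw [hD]
        exact pushPic_opAct_eq_zero κ (p ^ k) (heckeAlphaBar QA (q * M') q)
          (fun σ x => alpha_compat (q * M') q σ x) {p} hn P hP0 c))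
      (isPrincipal_of_pushPic_eq_zero (q * M') q _ D (by
        rw [hD]
        exact pushPic_opAct_eq_zero κ (p ^ k) (heckeBetaBar QA (q * M') q)
          (fun σ x => beta_compat (q * M') q σ x) {p} hn P hP0 c))
    rw [hD] at hB'
    have hBd : B • d = 0 := Subtype.ext hB'
    have h1 := congrArg (torsCoord (N := q * M' * q) κ (p ^ k)) hBd
    rw [map_nsmul, map_zero, hdw, AddEquiv.apply_symm_apply] at h1
    rw [Pi.zero_apply, map_zero, Pi.smul_apply, smul_eq_mul, mul_assoc, ← nsmul_eq_mul, map_nsmul]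
    have h2 := congrFun h1 i
    rw [hw] at h2
    simpa using h2
  exact (smul_eq_zero.1 key).resolve_left (mul_ne_zero (Nat.cast_ne_zero.2 hB0.ne') hcst)

end FLTAgent.EigenLattice
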