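import Fermat.Agent.Carayol.Valuation

/-!
# Divisibility of valuations descends along separable extensions of constants
-/

set_option autoImplicit false

noncomputable section

set_option linter.style.haveILetI false

open Polynomial

namespace FLTAgent.EigenLattice

section ValRing

variable {K F : Type*} [Field K] [Field F] {jK : K →+* F} {v : F → ℤ}
  (hv : Carayol.IsIntVal jK v)

include hv

theorem intVal_one : v 1 = 0 := by
  have h := hv.map_mul 1 1 one_ne_zero one_ne_zero
  rw [mul_one] at h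
  omega

theorem intVal_inv {x : F} (hx : x ≠ 0) : v x⁻¹ = - v x := by
  have h := hv.map_mul x x⁻¹ hx (inv_ne_zero hx)
  rw [mul_inv_cancel₀ hx, intVal_one hv] at h
  omega

theorem intVal_pow {x : F} (hx : x ≠ 0) (k : ℕ) : v (x ^ k) = k * v x := by
  induction k with
  | zero => simp [intVal_one hv]
  | succ k ih =>
    rw [pow_succ, hv.map_mul _ _ (pow_ne_zero _ hx) hx, ih]
    push_cast
    ring

theorem intVal_zpow {x : F} (hx : x ≠ 0) (k : ℤ) : v (x ^ k) = k * v x := by
  rcases Int.eq_nat_or_neg k with ⟨m, rfl | rfl⟩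
  · rw [zpow_natCast, intVal_pow hv hx]
  · rw [zpow_neg, zpow_natCast, intVal_inv hv (pow_ne_zero _ hx), intVal_pow hv hx]
    ring

theorem intVal_neg {x : F} (hx : x ≠ 0) : v (-x) = v x := by
  have h := hv.map_mul (-1) x (neg_ne_zero.2 one_ne_zero) hx
  have h2 := hv.map_mul (-1) (-1) (neg_ne_zero.2 one_ne_zero) (neg_ne_zero.2 one_ne_zero)
  rw [neg_mul, one_mul] at h
  rw [neg_mul, one_mul, neg_neg, intVal_one hv] at h2
  omega

/-- The ring of a valuation. -/
def valRing : Subring F where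
  carrier := {x | x = 0 ∨ 0 ≤ v x}
  mul_mem' := fun {a b} ha hb => by
    rcases eq_or_ne a 0 with rfl | ha0
    · exact Or.inl (zero_mul _)
    rcases eq_or_ne b 0 with rfl | hb0
    · exact Or.inl (mul_zero _)
    exact Or.inr (by
      rw [hv.map_mul _ _ ha0 hb0]
      exact add_nonneg (ha.resolve_left ha0) (hb.resolve_left hb0))
  one_mem' := Or.inr (intVal_one hv).ge
  add_mem' := fun {a b} ha hb => by
    rcases eq_or_ne a 0 with rfl | ha0
    · rwa [zero_add]
    rcases eq_or_ne b 0 with rfl | hb0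
    · rwa [add_zero]
    rcases eq_or_ne (a + b) 0 with h0 | h0
    · exact Or.inl h0
    exact Or.inr ((le_min (ha.resolve_left ha0) (hb.resolve_left hb0)).trans
      (hv.map_add _ _ ha0 hb0 h0))
  zero_mem' := Or.inl rfl
  neg_mem' := fun {a} ha => by
    rcases eq_or_ne a 0 with rfl | ha0
    · exact Or.inl neg_zero
    exact Or.inr (by rw [intVal_neg hv ha0]; exact ha.resolve_left ha0)

theorem mem_valRing {x : F} : x ∈ valRing hv ↔ x = 0 ∨ 0 ≤ v x := Iff.rfl

theorem const_mem_valRing (c : K) : jK c ∈ valRing hv := by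
  rcases eq_or_ne (jK c) 0 with h | h
  · exact Or.inl h
  · exact Or.inr (hv.map_const c h).ge

theorem exists_mul_pow_mem {π : F} (hπ0 : π ≠ 0) (hπ : 0 < v π) (x : F) :
    ∃ k : ℕ, x * π ^ k ∈ valRing hv := by
  rcases eq_or_ne x 0 with rfl | hx
  · exact ⟨0, Or.inl (by simp)⟩
  refine ⟨(v x).natAbs, Or.inr ?_⟩
  rw [hv.map_mul _ _ hx (pow_ne_zero _ hπ0), intVal_pow hv hπ0]
  have h1 : (1 : ℤ) ≤ v π := hπ
  have h2 : ((v x).natAbs : ℤ) ≤ (v x).natAbs * v π := le_mul_of_one_le_right (by positivity) h1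
  omega

end ValRing

/-- If `f` is an `n`th power at every place of `E` over the constants `L`, then every valuation of
`f` in `F` is divisible by `n`. -/
theorem dvd_intVal_of_forall {K L F E : Type*} [Field K] [Field L] [Algebra K L]
    [Algebra.IsAlgebraic K L] [Algebra.IsSeparable K L] [Field F] [Field E] [Algebra L E]
    (jK : K →+* F) (j : F →+* E)
    (hcomm : ∀ c, j (jK c) = algebraMap L E (algebraMap K L c))
    (hgen : Subfield.closure (Set.range (algebraMap L E) ∪ Set.range j) = ⊤)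
    {v : F → ℤ} (hv : Carayol.IsIntVal jK v) {f : F} (hf : f ≠ 0) {n : ℕ}
    (h : ∀ V : ValuationSubring E, (∀ c, algebraMap L E c ∈ V) →
      ∃ g, V.valuation (j f) = V.valuation g ^ n) :
    (n : ℤ) ∣ v f := by
  classical
  by_cases htriv : ∀ x, x ≠ 0 → v x = 0
  · rw [htriv f hf]; exact dvd_zero _
  push Not at htriv
  obtain ⟨x₁, hx₁, hvx₁⟩ := htriv
  have hex : ∃ e : ℕ, 0 < e ∧ ∃ x, x ≠ 0 ∧ v x = e := by
    rcases lt_or_gt_of_ne hvx₁ with hneg | hpos
    · exact ⟨(-v x₁).toNat, by omega, x₁⁻¹, inv_ne_zero hx₁, by rw [intVal_inv hv hx₁]; omega⟩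
    · exact ⟨(v x₁).toNat, by omega, x₁, hx₁, by omega⟩
  obtain ⟨he, π, hπ0, hπ⟩ := Nat.find_spec hex
  set e := Nat.find hex
  have hπpos : 0 < v π := by omega
  -- every value is a multiple of `e`
  have hdvd : ∀ x, x ≠ 0 → (e : ℤ) ∣ v x := by
    intro x hx
    have he0 : (e : ℤ) ≠ 0 := by omega
    set r := v x % e with hr
    have hr0 := Int.emod_nonneg (v x) he0
    have hr1 := Int.emod_lt_of_pos (v x) (show (0 : ℤ) < e by omega)
    refine Int.dvd_of_emod_eq_zero ?_
    by_contra hne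
    refine Nat.find_min hex (m := r.toNat) (by omega) ⟨by omega, x * π ^ (-(v x / e)),
      mul_ne_zero hx (zpow_ne_zero _ hπ0), ?_⟩
    rw [hv.map_mul _ _ hx (zpow_ne_zero _ hπ0), intVal_zpow hv hπ0, hπ, Int.toNat_of_nonneg hr0,
      Int.emod_def]
    ring
  set O := valRing hv with hO
  have hπO : π ∈ O := Or.inr hπpos.le
  have hdiv : ∀ x : F, x ≠ 0 → 0 < v x → x / π ∈ O := by
    intro x hx hvx
    obtain ⟨k, hk⟩ := hdvd x hx
    refine Or.inr ?_
    rw [div_eq_mul_inv, hv.map_mul _ _ hx (inv_ne_zero hπ0), intVal_inv hv hπ0, hπ, hk]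
    have hk1 : (1 : ℤ) ≤ k := by
      by_contra hlt
      nlinarith
    nlinarith
  -- an extension to `E`
  set A : Subring E := O.map j with hA
  set πA : A := ⟨j π, π, hπO, rfl⟩
  have hπA : Ideal.span {πA} ≠ ⊤ := by
    rw [Ne, Ideal.span_singleton_eq_top]
    intro hu
    obtain ⟨⟨w, w', hw', rfl⟩, hwu⟩ := isUnit_iff_exists_inv.1 hu
    have h1 : π * w' = 1 := j.injective (by rw [map_mul, map_one]; exact congrArg Subtype.val hwu)
    have hw0 : w' ≠ 0 := right_ne_zero_of_mul_eq_one h1
    have h2 := hv.map_mul π w' hπ0 hw0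
    rw [h1, intVal_one hv] at h2
    have h3 := hw'.resolve_left hw0
    omega
  obtain ⟨V, hAV, hIV⟩ := Ideal.image_subset_nonunits_valuationSubring _ hπA
  have hπV : V.valuation (j π) < 1 :=
    V.mem_nonunits_iff.1 (hIV ⟨πA, Ideal.subset_span rfl, rfl⟩)
  have hOV : ∀ x ∈ O, V.valuation (j x) ≤ 1 := fun x hx =>
    (V.valuation_le_one_iff _).2 (hAV ⟨x, hx, rfl⟩)
  have hjπ : V.valuation (j π) ≠ 0 := (_root_.map_ne_zero _).2 ((_root_.map_ne_zero j).2 hπ0)
  -- elements of value zero are units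
  have hunit : ∀ x : F, x ≠ 0 → v x = 0 → V.valuation (j x) = 1 := by
    intro x hx hvx
    refine le_antisymm (hOV x (Or.inr hvx.ge)) ?_
    have h1 := hOV x⁻¹ (Or.inr (by rw [intVal_inv hv hx, hvx, neg_zero]))
    rw [map_inv₀, map_inv₀] at h1
    exact (inv_le_one₀ (zero_lt_iff.2 ((_root_.map_ne_zero _).2 ((_root_.map_ne_zero j).2 hx)))).1 h1
  have hval : ∀ x : F, x ≠ 0 → ∀ k : ℤ, v x = e * k → V.valuation (j x) = V.valuation (j π) ^ k := by
    intro x hx k hk
    have hx' : x * π ^ (-k) ≠ 0 := mul_ne_zero hx (zpow_ne_zero _ hπ0)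
    have h1 := hunit _ hx' (by
      rw [hv.map_mul _ _ hx (zpow_ne_zero _ hπ0), intVal_zpow hv hπ0, hπ, hk]; ring)
    rw [map_mul, map_mul, map_zpow₀, map_zpow₀, zpow_neg] at h1
    rw [← mul_inv_eq_one₀ (zpow_ne_zero _ hjπ), h1]
  -- constants lie in `V`
  have hK : ∀ c : K, j (jK c) ∈ V := fun c =>
    (V.valuation_le_one_iff _).1 (hOV _ (const_mem_valRing hv c))
  have hLV : ∀ c : L, algebraMap L E c ∈ V := by
    intro c
    obtain ⟨q, hqm, hq⟩ := (Algebra.IsAlgebraic.isAlgebraic (R := K) c).isIntegral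
    refine (V.valuation_le_one_iff _).1 (le_of_not_gt fun hlt => ?_)
    have hint : IsIntegral V (algebraMap L E c) := by
      let θ : K →+* V := (j.comp jK).codRestrict V.toSubring hK
      refine ⟨q.map θ, hqm.map θ, ?_⟩
      rw [Polynomial.eval₂_map, show (algebraMap V E).comp θ = (algebraMap L E).comp (algebraMap K L)
        from RingHom.ext fun k => hcomm k, ← Polynomial.hom_eval₂, hq, map_zero]
    obtain ⟨y, hy⟩ := IsIntegrallyClosed.isIntegral_iff.1 hint
    exact absurd ((V.valuation_le_one_iff _).2 (hy ▸ y.2)) (not_le.2 hlt)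
  obtain ⟨g, hg⟩ := h V hLV
  -- a finite extension of constants containing `g`
  letI : Algebra F E := j.toAlgebra
  have hgmem : g ∈ IntermediateField.adjoin F (Set.range (algebraMap L E)) := by
    have hle : Subfield.closure (Set.range (algebraMap L E) ∪ Set.range j) ≤
        (IntermediateField.adjoin F (Set.range (algebraMap L E))).toSubfield := by
      rw [Subfield.closure_le]
      rintro _ (hx | ⟨x, rfl⟩)
      · exact IntermediateField.subset_adjoin F _ hx
      · exact (IntermediateField.adjoin F _).algebraMap_mem x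
    exact hle (hgen ▸ Subfield.mem_top g)
  obtain ⟨T, hT, hgT⟩ := IntermediateField.exists_finset_of_mem_adjoin hgmem
  choose cT hcT using fun t : T => hT t.2
  haveI : FiniteDimensional K (IntermediateField.adjoin K (Set.range cT)) :=
    IntermediateField.finiteDimensional_adjoin fun x _ => Algebra.IsIntegral.isIntegral x
  haveI : Algebra.IsSeparable K (IntermediateField.adjoin K (Set.range cT)) :=
    Algebra.isSeparable_tower_bot_of_isSeparable K _ L
  obtain ⟨b₀, hb₀⟩ := Field.exists_primitive_element K (IntermediateField.adjoin K (Set.range cT))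
  set β : L := (b₀ : L) with hβ
  set b : E := algebraMap L E β with hb
  have hbalg : IsAlgebraic F b := by
    obtain ⟨q, hq0, hq⟩ := Algebra.IsAlgebraic.isAlgebraic (R := K) β
    refine ⟨q.map jK, Polynomial.map_ne_zero hq0, ?_⟩
    rw [Polynomial.aeval_def, Polynomial.eval₂_map, hb,
      show (algebraMap F E).comp jK = (algebraMap L E).comp (algebraMap K L) from
        RingHom.ext fun k => hcomm k, ← Polynomial.hom_eval₂]
    rw [Polynomial.aeval_def] at hq
    rw [hq, map_zero]
  have hgb : g ∈ IntermediateField.adjoin F ({b} : Set E) := by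
    refine IntermediateField.adjoin_le_iff.2 (fun t ht => ?_) hgT
    have hbalgK : IsAlgebraic K b₀ := Algebra.IsAlgebraic.isAlgebraic b₀
    have h1 : (⟨cT ⟨t, ht⟩, IntermediateField.subset_adjoin K _ ⟨_, rfl⟩⟩ :
        IntermediateField.adjoin K (Set.range cT)) ∈ Algebra.adjoin K {b₀} := by
      rw [← IntermediateField.adjoin_simple_toSubalgebra_of_isAlgebraic hbalgK, hb₀]
      trivial
    rw [Algebra.adjoin_singleton_eq_range_aeval] at h1
    obtain ⟨q, hq⟩ := h1
    have h2 : aeval β q = cT ⟨t, ht⟩ := by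
      have h3 := congrArg (IntermediateField.adjoin K (Set.range cT)).val hq
      change (IntermediateField.adjoin K (Set.range cT)).val (aeval b₀ q) = _ at h3
      rw [← Polynomial.aeval_algHom_apply] at h3
      exact h3
    have h4 : t = Polynomial.aeval b (q.map jK) := by
      rw [Polynomial.aeval_def, Polynomial.eval₂_map, hb,
        show (algebraMap F E).comp jK = (algebraMap L E).comp (algebraMap K L) from
          RingHom.ext fun k => hcomm k, ← Polynomial.hom_eval₂, ← Polynomial.aeval_def, h2, hcT]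
    rw [h4]
    exact IntermediateField.algebra_adjoin_le_adjoin F _
      (Polynomial.aeval_mem_adjoin_singleton F b)
  -- evaluation of integral polynomials at `b`
  set ev : O[X] →+* E := Polynomial.eval₂RingHom (j.comp O.subtype) b with hev
  have hevC : ∀ x : O, ev (C x) = j (x : F) := fun x => Polynomial.eval₂_C _ _
  have hscale : ∀ y ∈ IntermediateField.adjoin F ({b} : Set E),
      ∃ (k : ℕ) (c : O[X]), y * j π ^ k = ev c := by
    intro y hy
    rw [← IntermediateField.mem_toSubalgebra,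
      IntermediateField.adjoin_simple_toSubalgebra_of_isAlgebraic hbalg] at hy
    rw [Algebra.adjoin_singleton_eq_range_aeval] at hy
    obtain ⟨q, rfl⟩ := hy
    induction q using Polynomial.induction_on' with
    | add q₁ q₂ h₁ h₂ =>
      obtain ⟨k₁, c₁, e₁⟩ := h₁
      obtain ⟨k₂, c₂, e₂⟩ := h₂
      refine ⟨k₁ + k₂, c₁ * C ⟨π, hπO⟩ ^ k₂ + c₂ * C ⟨π, hπO⟩ ^ k₁, ?_⟩
      simp only [map_add, map_mul, map_pow, hevC, AlgHom.toRingHom_eq_coe, RingHom.coe_coe]
      simp only [AlgHom.toRingHom_eq_coe, RingHom.coe_coe] at e₁ e₂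
      rw [← e₁, ← e₂]
      ring
    | monomial i a =>
      obtain ⟨k, hk⟩ := exists_mul_pow_mem hv hπ0 hπpos a
      refine ⟨k, monomial i ⟨_, hk⟩, ?_⟩
      simp only [AlgHom.toRingHom_eq_coe, RingHom.coe_coe, hev, Polynomial.coe_eval₂RingHom,
        Polynomial.eval₂_monomial, Polynomial.aeval_monomial, RingHom.comp_apply,
        Subring.subtype_apply, map_mul, map_pow]
      show algebraMap F E a * b ^ i * j π ^ k = _
      rw [RingHom.algebraMap_toAlgebra]
      ring
  -- reduction
  have hevV : ∀ c : O[X], ev c ∈ V := fun c => by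
    induction c using Polynomial.induction_on' with
    | add q₁ q₂ h₁ h₂ => rw [map_add]; exact add_mem h₁ h₂
    | monomial i a =>
      rw [hev, Polynomial.coe_eval₂RingHom, Polynomial.eval₂_monomial]
      exact mul_mem ((V.valuation_le_one_iff _).1 (hOV _ a.2)) (pow_mem (hLV β) i)
  set ρ : O[X] →+* IsLocalRing.ResidueField V :=
    (IsLocalRing.residue V).comp (ev.codRestrict V.toSubring hevV) with hρ
  have hρ0 : ∀ c : O[X], ρ c = 0 ↔ V.valuation (ev c) < 1 := fun c => by
    rw [hρ, RingHom.comp_apply, IsLocalRing.residue_eq_zero_iff]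
    exact V.valuation_lt_one_iff _
  set ψ : O →+* IsLocalRing.ResidueField V := ρ.comp C with hψ
  have hψker : ∀ x : O, ψ x = 0 → ∃ y : O, x = ⟨π, hπO⟩ * y := by
    intro x hx
    rw [hψ, RingHom.comp_apply, hρ0, hevC] at hx
    rcases eq_or_ne (x : F) 0 with h0 | h0
    · exact ⟨0, Subtype.ext (by simp [h0])⟩
    have hvx : 0 < v x := by
      refine lt_of_le_of_ne (x.2.resolve_left h0) fun hh => ?_
      rw [hunit _ h0 hh.symm] at hx
      exact lt_irrefl _ hx
    exact ⟨⟨_, hdiv _ h0 hvx⟩, Subtype.ext (by rw [MulMemClass.coe_mul, mul_div_cancel₀ _ hπ0])⟩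
  let kk : Subfield (IsLocalRing.ResidueField V) :=
    { ψ.range with
      inv_mem' := by
        rintro _ ⟨x, rfl⟩
        rcases eq_or_ne (ψ x) 0 with h0 | h0
        · exact ⟨0, by rw [h0, inv_zero, map_zero]⟩
        have hx0 : (x : F) ≠ 0 := fun hh => h0 (by rw [show x = 0 from Subtype.ext hh, map_zero])
        have hvx : v x = 0 := by
          refine le_antisymm (le_of_not_gt fun hpos => h0 ?_) (x.2.resolve_left hx0)
          rw [hψ, RingHom.comp_apply, hρ0, hevC]
          obtain ⟨k, hk⟩ := hdvd _ hx0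
          rw [hval _ hx0 k hk]
          have hk1 : (1 : ℤ) ≤ k := by
            by_contra hlt
            nlinarith
          exact zpow_lt_one₀ (zero_lt_iff.2 hjπ) hπV (show (0 : ℤ) < k by omega)
        refine ⟨⟨(x : F)⁻¹, Or.inr (by rw [intVal_inv hv hx0, hvx, neg_zero])⟩,
          eq_inv_of_mul_eq_one_left ?_⟩
        rw [← map_mul, show (⟨(x : F)⁻¹, Or.inr (by rw [intVal_inv hv hx0, hvx, neg_zero])⟩ : O) * x
          = 1 from Subtype.ext (inv_mul_cancel₀ hx0), map_one] }
  let ψ' : O →+* kk := ψ.codRestrict kk fun x => ⟨x, rfl⟩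
  have hψ'surj : Function.Surjective ψ' := by
    rintro ⟨_, x, rfl⟩
    exact ⟨x, rfl⟩
  set bb : IsLocalRing.ResidueField V := ρ X with hbb
  have hρeval : ∀ c : O[X], ρ c = aeval bb (c.map ψ') := by
    intro c
    rw [Polynomial.aeval_def, Polynomial.eval₂_map]
    conv_lhs => rw [← Polynomial.eval₂_C_X (p := c), Polynomial.hom_eval₂]
    rfl
  let jO : K →+* O := jK.codRestrict O (const_mem_valRing hv)
  set p₀ : K[X] := minpoly K β with hp₀
  have hp₀root : ρ (p₀.map jO) = 0 := by
    have hz : ev (p₀.map jO) = 0 := by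
      rw [hev, Polynomial.coe_eval₂RingHom, Polynomial.eval₂_map, hb,
        show (j.comp O.subtype).comp jO = (algebraMap L E).comp (algebraMap K L) from
          RingHom.ext fun k => hcomm k, ← Polynomial.hom_eval₂, ← Polynomial.aeval_def, hp₀,
        minpoly.aeval, map_zero]
    rw [hρ0, hz, map_zero]
    exact zero_lt_one
  set pb : kk[X] := (p₀.map jO).map ψ' with hpb
  have hroot : aeval bb pb = 0 := by rw [← hρeval]; exact hp₀root
  have hsep : pb.Separable := by
    rw [hpb, Polynomial.map_map]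
    exact Polynomial.Separable.map (Algebra.IsSeparable.isSeparable K β)
  have hpb0 : pb ≠ 0 := hsep.ne_zero
  have hbint : IsIntegral kk bb := ⟨pb * C pb.leadingCoeff⁻¹, Polynomial.monic_mul_leadingCoeff_inv hpb0,
    by rw [← Polynomial.aeval_def, map_mul, hroot, zero_mul]⟩
  obtain ⟨sb, hsb⟩ := minpoly.dvd kk bb hroot
  obtain ⟨r, hr⟩ := Polynomial.map_surjective ψ' hψ'surj (minpoly kk bb)
  obtain ⟨s, hs⟩ := Polynomial.map_surjective ψ' hψ'surj sb
  have hs0 : ρ s ≠ 0 := by
    intro h0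
    rw [hρeval, hs] at h0
    obtain ⟨u, hu⟩ := minpoly.dvd kk bb h0
    refine (minpoly.irreducible hbint).not_isUnit (hsep.squarefree (minpoly kk bb) ⟨u, ?_⟩)
    rw [hsb, hu]
    ring
  have hker : ∀ c : O[X], c.map ψ' = 0 → ∃ w, c = C ⟨π, hπO⟩ * w := by
    intro c hc
    refine (Polynomial.C_dvd_iff_dvd_coeff _ _).2 fun i => ?_
    have h1 := congrArg (fun q => ((q.coeff i : kk) : IsLocalRing.ResidueField V)) hc
    simp only [Polynomial.coeff_map, Polynomial.coeff_zero, ZeroMemClass.coe_zero] at h1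
    obtain ⟨y, hy⟩ := hψker _ h1
    exact ⟨y, hy⟩
  obtain ⟨t, ht⟩ := hker (p₀.map jO - r * s) (by
    rw [Polynomial.map_sub, Polynomial.map_mul, hr, hs, ← hpb, hsb, sub_self])
  have hz : ev (p₀.map jO) = 0 := by
    rw [hev, Polynomial.coe_eval₂RingHom, Polynomial.eval₂_map, hb,
      show (j.comp O.subtype).comp jO = (algebraMap L E).comp (algebraMap K L) from
        RingHom.ext fun k => hcomm k, ← Polynomial.hom_eval₂, ← Polynomial.aeval_def, hp₀,
      minpoly.aeval, map_zero]
  have hstep : ∀ c : O[X], ρ c = 0 → ∃ c', ev c * ev s = j π * ev c' := by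
    intro c hc
    rw [hρeval] at hc
    obtain ⟨u, hu⟩ := minpoly.dvd kk bb hc
    obtain ⟨u', rfl⟩ := Polynomial.map_surjective ψ' hψ'surj u
    obtain ⟨w, hw⟩ := hker (c - r * u') (by
      rw [Polynomial.map_sub, Polynomial.map_mul, hr, hu, sub_self])
    refine ⟨w * s - t * u', ?_⟩
    have h1 := congrArg ev hw
    have h2 := congrArg ev ht
    rw [map_sub, map_mul, map_mul, hevC] at h1 h2
    rw [map_sub, map_mul, map_mul]
    rw [hz] at h2
    simp only at h1 h2
    linear_combination ev s * h1 - ev u' * h2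
  have hsV : V.valuation (ev s) = 1 :=
    le_antisymm ((V.valuation_le_one_iff _).2 (hevV s)) (not_lt.1 fun hlt => hs0 ((hρ0 s).2 hlt))
  have hmain : ∀ (N : ℕ) (c : O[X]), V.valuation (j π) ^ N ≤ V.valuation (ev c) →
      ∃ i : ℕ, V.valuation (ev c) = V.valuation (j π) ^ i := by
    intro N
    induction N with
    | zero =>
      intro c hc
      exact ⟨0, le_antisymm (by rw [pow_zero]; exact (V.valuation_le_one_iff _).2 (hevV c))
        (by rwa [pow_zero] at hc ⊢)⟩
    | succ N ih =>
      intro c hc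
      by_cases h1 : ρ c = 0
      · obtain ⟨c', hc'⟩ := hstep c h1
        have h2 : V.valuation (ev c) = V.valuation (j π) * V.valuation (ev c') := by
          rw [← map_mul, ← hc', map_mul, hsV, mul_one]
        rw [h2, pow_succ'] at hc
        obtain ⟨i, hi⟩ := ih c' ((mul_le_mul_iff_right₀ (zero_lt_iff.2 hjπ)).1 hc)
        exact ⟨i + 1, by rw [h2, hi, pow_succ']⟩
      · exact ⟨0, by
          rw [pow_zero]
          exact le_antisymm ((V.valuation_le_one_iff _).2 (hevV c))
            (not_lt.1 fun hlt => h1 ((hρ0 c).2 hlt))⟩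
  -- conclusion
  obtain ⟨a, ha⟩ := hdvd f hf
  rcases eq_or_ne n 0 with rfl | hn
  · rw [pow_zero, hval f hf a ha] at hg
    have ha0 : a = 0 := by
      rw [← zpow_zero (V.valuation (j π))] at hg
      exact (zpow_right_injective₀ (zero_lt_iff.2 hjπ) hπV.ne) hg
    simp [ha, ha0]
  have hg0 : g ≠ 0 := by
    rintro rfl
    rw [map_zero, zero_pow hn] at hg
    exact (_root_.map_ne_zero _).2 ((_root_.map_ne_zero j).2 hf) hg
  obtain ⟨k, c, hc⟩ := hscale g hgb
  obtain ⟨k', c', hc'⟩ := hscale g⁻¹ (inv_mem hgb)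
  have hgv : 0 < V.valuation g := zero_lt_iff.2 ((_root_.map_ne_zero _).2 hg0)
  obtain ⟨i, hi⟩ := hmain (k + k') c (by
    have h1 : V.valuation (ev c') ≤ 1 := (V.valuation_le_one_iff _).2 (hevV c')
    rw [← hc', map_mul, map_inv₀, map_pow, mul_comm,
      mul_inv_le_iff₀ hgv, one_mul] at h1
    rw [← hc, map_mul, map_pow, pow_add, mul_comm]
    exact mul_le_mul' h1 le_rfl)
  rw [← hc, map_mul, map_pow, ← zpow_natCast _ k, ← zpow_natCast _ i] at hi
  have hgi : V.valuation g = V.valuation (j π) ^ ((i : ℤ) - k) := by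
    rw [zpow_sub₀ hjπ, eq_div_iff (zpow_ne_zero _ hjπ), hi]
  rw [hgi, hval f hf a ha, ← zpow_natCast, ← zpow_mul] at hg
  have hai : a = ((i : ℤ) - k) * n := (zpow_right_injective₀ (zero_lt_iff.2 hjπ) hπV.ne) hg
  exact ⟨e * ((i : ℤ) - k), by rw [ha, hai]; ring⟩

end FLTAgent.EigenLattice
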