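import Fermat.Agent.EigenLattice.Galois
import Fermat.Agent.TorsionHom.GoodRep
import Fermat.Prelude.Def_GaloisRep_ComplexConjugation

/-!
# From torsion classes to functions
-/

set_option autoImplicit false

noncomputable section

set_option linter.style.haveILetI false
set_option synthInstance.maxHeartbeats 400000
set_option maxHeartbeats 1000000

open AlgebraicCurve

namespace FLTAgent.EigenLattice

open FLTAgent.TorsionHom (infPlace order_coe Good Reduced exists_reduced)
open ModularCurve (JZero modularFunctionFieldBar coeffMap arithmeticGalois modularFunctionFieldFull)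

local notation "QA" => AlgebraicClosure ℚ
local notation "GG" => (AlgebraicClosure ℚ ≃ₐ[ℚ] AlgebraicClosure ℚ)
local notation "gal[" N "]" => arithmeticGalois (L := AlgebraicClosure ℚ) (modularFunctionFieldFull N)

section Descent

variable {N : ℕ} [NeZero N] (κ : QA →+* ℂ) (σ : GG)

theorem order_coeffMap_galois (x : LaurentSeries QA) :
    (coeffMap (σ : QA →+* QA) x).order = x.order :=
  by
  rcases eq_or_ne x 0 with rfl | hx
  · rw [map_zero]
  refine le_antisymm (HahnSeries.order_le_of_coeff_ne_zero ?_)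
    (HahnSeries.order_le_of_coeff_ne_zero ?_)
  · rw [ModularCurve.coeffMap_coeff]
    exact (map_ne_zero _).2 (HahnSeries.coeff_order_eq_zero.not.2 hx)
  · intro h0
    have hne : coeffMap (σ : QA →+* QA) x ≠ 0 := fun h =>
      hx ((coeffMap (σ : QA →+* QA)).injective (h.trans (map_zero _).symm))
    apply HahnSeries.coeff_order_eq_zero.not.2 hne
    rw [ModularCurve.coeffMap_coeff, h0, map_zero]

theorem galois_infPlace : gal[N] σ • infPlace N κ = infPlace N κ := by
  refine Curves.place_eq_of_le fun f hf => ?_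
  rw [← Curves.ordGE_zero_iff_mem] at hf ⊢
  rcases hf with rfl | hf
  · exact Curves.ordGE_zero _ _
  refine Or.inr ?_
  obtain ⟨u, rfl⟩ : ∃ u, f = gal[N] σ • u := ⟨(gal[N] σ)⁻¹ • f, (smul_inv_smul _ f).symm⟩
  rw [SemilinearAut.ord_smul, ← order_coe] at hf
  rw [← order_coe]
  rw [show ((gal[N] σ • u : modularFunctionFieldBar N) : LaurentSeries QA) =
    coeffMap (σ : QA →+* QA) (u : LaurentSeries QA) from rfl, order_coeffMap_galois]
  exact hf

theorem good_galois {n : ℕ} {x : modularFunctionFieldBar N} (h : Good κ n x) :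
    Good κ n (gal[N] σ • x) := by
  refine ⟨fun h0 => h.1 ((smul_eq_zero_iff_eq (gal[N] σ)).1 h0), fun v => ?_⟩
  rw [show v = gal[N] σ • ((gal[N] σ)⁻¹ • v) from (smul_inv_smul _ v).symm,
    SemilinearAut.ord_smul]
  refine ⟨(h.2 _).1, fun hv => (h.2 _).2 fun he => hv ?_⟩
  rw [he, galois_infPlace]

theorem reduced_galois {n : ℕ} {x : modularFunctionFieldBar N} (h : Reduced κ n x) :
    Reduced κ n (gal[N] σ • x) := by
  set g := gal[N] σ with hgdef
  refine ⟨good_galois κ σ h.1, ?_, fun y hy hg => ?_⟩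
  · show HahnSeries.leadingCoeff (coeffMap (σ : QA →+* QA) (x : LaurentSeries QA)) = 1
    rw [HahnSeries.leadingCoeff_eq, order_coeffMap_galois, ModularCurve.coeffMap_coeff,
      ← HahnSeries.leadingCoeff_eq, h.2.1, map_one]
  have hy' : g⁻¹ • y ≠ 0 := fun h0 => hy ((smul_eq_zero_iff_eq g⁻¹).1 h0)
  have hxy : g⁻¹ • ((g • x) * y ^ n) = x * (g⁻¹ • y) ^ n := by
    rw [smul_mul', inv_smul_smul, smul_pow']
  have h1 : Good κ n (g⁻¹ • ((g • x) * y ^ n)) := by
    rw [show g⁻¹ = gal[N] σ⁻¹ from (map_inv _ _).symm]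
    exact good_galois κ σ⁻¹ hg
  rw [hxy] at h1
  have h2 := h.2.2 _ hy' h1
  rw [← SemilinearAut.ord_smul g, galois_infPlace, ← hxy, smul_inv_smul,
    ← SemilinearAut.ord_smul g (v := infPlace N κ) (f := x), galois_infPlace] at h2
  exact h2

theorem eq_mul_pow_of_ord {n : ℕ} (hn : n ≠ 0) {f f' w : modularFunctionFieldBar N} (hf : f ≠ 0)
    (hf' : f' ≠ 0) (hw : w ≠ 0)
    (h : ∀ v : Place QA (modularFunctionFieldBar N), v.ord f' = v.ord f + n * v.ord w) :
    ∃ w' : modularFunctionFieldBar N, w' ≠ 0 ∧ f' = f * w' ^ n := by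
  have hden : f * w ^ n ≠ 0 := mul_ne_zero hf (pow_ne_zero _ hw)
  have hr : f' / (f * w ^ n) ≠ 0 := div_ne_zero hf' hden
  have h0 : ∀ v : Place QA (modularFunctionFieldBar N), v.ord (f' / (f * w ^ n)) = 0 := fun v => by
    have h1 := v.ord_mul hr hden
    rw [div_mul_cancel₀ _ hden, v.ord_mul hf (pow_ne_zero _ hw), Curves.ord_pow, h v] at h1
    omega
  obtain ⟨c, hc⟩ := Curves.eq_algebraMap_of_forall_ord_nonneg (K := QA) fun v => (h0 v).ge
  obtain ⟨d, hd⟩ := IsAlgClosed.exists_pow_nat_eq c (Nat.pos_of_ne_zero hn)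
  have he : f' = f * (algebraMap QA (modularFunctionFieldBar N) d * w) ^ n := by
    rw [mul_pow, ← map_pow, hd, ← hc, ← mul_assoc, mul_comm f, mul_assoc, div_mul_cancel₀ _ hden]
  refine ⟨_, fun h0 => hf' ?_, he⟩
  rw [he, h0, zero_pow hn, mul_zero]

end Descent

/-- A torsion class is represented by a divisor whose function is fixed by the stabiliser of the
class. -/
theorem exists_rational_function {N : ℕ} [NeZero N] {n : ℕ} (hn : n ≠ 0) {x : JZero N}
    (hx : n • x = 0) :
    ∃ (D : Divisor.degZero (K := QA) (F := modularFunctionFieldBar N))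
      (f : modularFunctionFieldBar N), f ≠ 0 ∧ Pic0.mk D = x ∧
        n • (D : Divisor QA _) = Curves.divOf QA f ∧
        ∀ σ : GG, σ • x = x → coeffMap (σ : QA →+* QA) (f : LaurentSeries QA) = f := by
  set κ : QA →+* ℂ := complexEmbedding.toRingHom
  obtain ⟨D₀, rfl⟩ := Pic0.mk_surjective x
  rw [← Kronecker.pic0_mk_nsmul] at hx
  obtain ⟨g, hg, hD₀⟩ := (QuotientAddGroup.eq_zero_iff _).1 hx
  have hord : ∀ v : Place QA (modularFunctionFieldBar N), v.ord g = n * (D₀ : Divisor QA _) v :=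
    fun v => by
      rw [← hD₀ v]
      simp
  obtain ⟨y, hy, hred⟩ := exists_reduced (κ := κ) hn hg fun v => hord v ▸ dvd_mul_right _ _
  have hyD : Curves.divOf QA y ∈
      Divisor.degZero (K := QA) (F := modularFunctionFieldBar N) := by
    rw [Divisor.mem_degZero]
    exact Curves.degree_divOf y
  refine ⟨D₀ + ⟨_, hyD⟩, g * y ^ n, hred.1.1, ?_, ?_, fun σ hσ => ?_⟩
  · rw [eq_comm]
    refine (QuotientAddGroup.eq.2 ?_)
    refine ⟨y, hy, fun v => ?_⟩
    simp [Curves.divOf_apply]
  · refine Finsupp.ext fun v => ?_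
    rw [Curves.divOf_apply, v.ord_mul hg (pow_ne_zero _ hy), Curves.ord_pow, hord]
    simp [Curves.divOf_apply, nsmul_eq_mul]
  have h1 : gal[N] σ • (g * y ^ n) = g * y ^ n := by
    rw [ModularCurve.galois_smul_pic0_def, SemilinearAut.pic0_smul_mk] at hσ
    obtain ⟨w, hw, hDw⟩ := (QuotientAddGroup.eq.1 hσ)
    have hred' := reduced_galois κ σ hred
    have hσy : gal[N] σ • y ≠ 0 := fun h0 => hy ((smul_eq_zero_iff_eq (gal[N] σ)).1 h0)
    obtain ⟨w', hw', he⟩ := eq_mul_pow_of_ord hn hred.1.1 hred'.1.1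
      (w := gal[N] σ • y * y⁻¹ * w⁻¹) (by simp [hy, hw]) fun v => by
      have hwv := hDw v
      rw [AddSubgroup.coe_subtype, AddSubgroup.coe_add, NegMemClass.coe_neg, Finsupp.add_apply,
        Finsupp.neg_apply, SemilinearAut.coe_degZeroSMulHom, SemilinearAut.divisor_smul_apply] at hwv
      obtain ⟨u, rfl⟩ : ∃ u, v = gal[N] σ • u :=
        ⟨(gal[N] σ)⁻¹ • v, (smul_inv_smul _ v).symm⟩
      rw [inv_smul_smul] at hwv
      rw [SemilinearAut.ord_smul, Place.ord_mul _ hg (pow_ne_zero _ hy),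
        Place.ord_mul _ hg (pow_ne_zero _ hy), Curves.ord_pow, Curves.ord_pow,
        Place.ord_mul _ (mul_ne_zero hσy (inv_ne_zero hy)) (inv_ne_zero hw),
        Place.ord_mul _ hσy (inv_ne_zero hy), SemilinearAut.ord_smul, Place.ord_inv,
        Place.ord_inv, hord, hord, ← hwv]
      ring
    exact hred'.eq_of_pow hn hred hw' he
  exact congrArg Subtype.val h1

/-- If a divisor pushes to a principal one, the norm of its function is an `n`th power up to
constants. -/
theorem exists_norm_eq {N l : ℕ} [NeZero N] [NeZero l]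
    (φ : modularFunctionFieldBar N →ₐ[QA] modularFunctionFieldBar (N * l))
    (hφ : φ.toRingHom.IsIntegral) {n : ℕ}
    {D : Divisor QA (modularFunctionFieldBar (N * l))} {f : modularFunctionFieldBar (N * l)}
    (hf : f ≠ 0) (hD : ∀ v : Place QA (modularFunctionFieldBar (N * l)), (n : ℤ) * D v = v.ord f)
    (hP : (Divisor.pushforwardAlong φ hφ D).IsPrincipal) :
    ∃ g : modularFunctionFieldBar N, g ≠ 0 ∧ ∃ c : QA, c ≠ 0 ∧
      (letI := algebraAlong φ; Algebra.norm (modularFunctionFieldBar N) f) =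
        algebraMap QA (modularFunctionFieldBar N) c * g ^ n := by
  haveI : NeZero (N * l) := ⟨Nat.mul_ne_zero (NeZero.ne N) (NeZero.ne l)⟩
  letI := algebraAlong φ
  haveI := isScalarTower_along φ
  haveI := isIntegral_along φ hφ
  haveI : Module.Finite (modularFunctionFieldBar N) (modularFunctionFieldBar (N * l)) :=
    Kronecker.finiteAlong φ
  obtain ⟨g, hg, hgD⟩ := hP
  set z := Algebra.norm (modularFunctionFieldBar N) f with hzdef
  have hz : z ≠ 0 := Algebra.norm_ne_zero_iff.2 hf
  have hnf := Kronecker.normFormulaAlong φ (Kronecker.finiteAlong φ)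
  have hord : ∀ v : Place QA (modularFunctionFieldBar N), v.ord z = n * v.ord g := fun v => by
    have h := hnf f hf (n • D) (fun w => by rw [← hD]; simp) v
    rw [← hgD v]
    show v.ord z = _
    rw [map_nsmul] at h
    show v.ord z = (n : ℤ) * Divisor.pushforward (modularFunctionFieldBar N) D v
    rw [hzdef]
    simpa [nsmul_eq_mul, eq_comm] using h
  have hgn : g ^ n ≠ 0 := pow_ne_zero _ hg
  have h0 : ∀ v : Place QA (modularFunctionFieldBar N), 0 ≤ v.ord (z / g ^ n) := fun v => by
    have h1 := v.ord_mul (div_ne_zero hz hgn) hgn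
    rw [div_mul_cancel₀ _ hgn, Curves.ord_pow, hord] at h1
    omega
  obtain ⟨c, hc⟩ := Curves.eq_algebraMap_of_forall_ord_nonneg (K := QA) h0
  refine ⟨g, hg, c, fun h => div_ne_zero hz hgn (by rw [hc, h, map_zero]), ?_⟩
  rw [← hc, div_mul_cancel₀ _ hgn]

end FLTAgent.EigenLattice
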