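import Fermat.Agent.EigenReps.Approx
import Fermat.Agent.CuspForms.EigenChar
import Fermat.Agent.PeriodHecke.Action
import Fermat.Prelude.Def_CuspForm_Newforms
import Mathlib.RingTheory.Filtration

/-!
# Eigensystems agreeing at almost all good primes agree at all good primes, and new eigensystems
-/

set_option autoImplicit false

noncomputable section

set_option linter.style.haveILetI false
set_option synthInstance.maxHeartbeats 400000
set_option maxHeartbeats 1000000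

open CongruenceSubgroup FLTAgent.EigenReps

namespace FLTAgent.EigenLattice

local notation "GG" => (AlgebraicClosure ℚ ≃ₐ[ℚ] AlgebraicClosure ℚ)

theorem tr_pow_two_step {G k : Type*} [Group G] [CommRing k] (P : PseudoChar G k) (g : G) (j : ℕ) :
    P.tr (g ^ (j + 2)) = P.tr (g ^ (j + 1)) * P.tr g - P.det g * P.tr (g ^ j) := by
  have h := P.tr_mul (g ^ (j + 1)) g
  rw [← pow_succ, show g ^ (j + 1) * g⁻¹ = g ^ j by rw [pow_succ, mul_inv_cancel_right]] at h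
  rw [show j + 2 = j + 1 + 1 from rfl, ← h]
  ring

theorem tr_pow_congr {G k : Type*} [Group G] [CommRing k] (P P' : PseudoChar G k) {g : G}
    (h1 : P.tr g = P'.tr g) (h2 : P.det g = P'.det g) (j : ℕ) : P.tr (g ^ j) = P'.tr (g ^ j) := by
  suffices h : P.tr (g ^ j) = P'.tr (g ^ j) ∧ P.tr (g ^ (j + 1)) = P'.tr (g ^ (j + 1)) from h.1
  induction j with
  | zero => exact ⟨by rw [pow_zero, P.tr_one, P'.tr_one], by rw [zero_add, pow_one, h1]⟩
  | succ j ih => exact ⟨ih.2, by rw [tr_pow_two_step, tr_pow_two_step, ih.1, ih.2, h1, h2]⟩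

theorem tr_eq_of_eqOn {k : Type*} [CommRing k] (P : PseudoChar GG k)
    {L : IntermediateField ℚ (AlgebraicClosure ℚ)}
    (hP : ∀ τ : GG, (∀ a ∈ L, τ a = a) → ∀ g, P.tr (g * τ) = P.tr g) {σ τ : GG}
    (h : ∀ x ∈ L, σ x = τ x) : P.tr σ = P.tr τ := by
  have h1 : ∀ a ∈ L, (τ⁻¹ * σ) a = a := fun a ha => by
    rw [AlgEquiv.mul_apply, h a ha, ← AlgEquiv.mul_apply, inv_mul_cancel, AlgEquiv.one_apply]
  have h2 := hP _ h1 τ
  rwa [mul_inv_cancel_left] at h2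

/-- Two pseudo-characters agreeing at almost all Frobenius elements agree. -/
theorem tr_eq_of_frobenius {k : Type*} [CommRing k] (P P' : PseudoChar GG k)
    {L L' : IntermediateField ℚ (AlgebraicClosure ℚ)} [FiniteDimensional ℚ L]
    [FiniteDimensional ℚ L']
    (hP : ∀ τ : GG, (∀ a ∈ L, τ a = a) → ∀ g, P.tr (g * τ) = P.tr g)
    (hP' : ∀ τ : GG, (∀ a ∈ L', τ a = a) → ∀ g, P'.tr (g * τ) = P'.tr g) (S : Finset ℕ)
    (h : ∀ ℓ : ℕ, ℓ.Prime → ℓ ∉ S → ∀ V : ValuationSubring (AlgebraicClosure ℚ), V.LiesOverPrime ℓ →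
      ∀ τ : GG, V.IsFrobeniusAt τ ℓ → P.tr τ = P'.tr τ ∧ P.det τ = P'.det τ) (σ : GG) :
    P.tr σ = P'.tr σ := by
  obtain ⟨ℓ, V, τ, j, hℓ, hℓS, hV, hτ, heq⟩ := Frobenius.exists_frobenius_pow_eqOn (L ⊔ L') σ S
  obtain ⟨h1, h2⟩ := h ℓ hℓ hℓS V hV τ hτ
  rw [tr_eq_of_eqOn P hP fun x hx => heq x ((le_sup_left : L ≤ L ⊔ L') hx),
    tr_eq_of_eqOn P' hP' fun x hx => heq x ((le_sup_right : L' ≤ L ⊔ L') hx)]
  exact tr_pow_congr P P' h1 h2 j

/-- Eigensystems which agree at almost all good primes agree at every good prime. -/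
theorem eigen_eq_of_almost_all {N₁ N₂ : ℕ} [NeZero N₁] [NeZero N₂]
    (χ₁ : CuspForm.heckeAlgebra N₁ 2 (∅ : Set ℕ) →+* ℂ)
    (χ₂ : CuspForm.heckeAlgebra N₂ 2 (∅ : Set ℕ) →+* ℂ) (bad : Finset ℕ)
    (h : ∀ (ℓ : ℕ) (hℓ : ℓ.Prime), ℓ ∉ bad → ¬ ℓ ∣ N₁ → ¬ ℓ ∣ N₂ →
      χ₁ (CuspForms.heckeGen N₁ ℓ hℓ) = χ₂ (CuspForms.heckeGen N₂ ℓ hℓ))
    {l : ℕ} (hl : l.Prime) (hl₁ : ¬ l ∣ N₁) (hl₂ : ¬ l ∣ N₂) :
    χ₁ (CuspForms.heckeGen N₁ l hl) = χ₂ (CuspForms.heckeGen N₂ l hl) := by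
  classical
  obtain ⟨p, hpge, hp⟩ := Nat.exists_infinite_primes (l + 1)
  haveI : Fact p.Prime := ⟨hp⟩
  have hlp : l ≠ p := by omega
  set S : Finset ℕ := ((bad ∪ (N₁ * N₂).primeFactors).erase l) ∪ {p}
  have hpS : p ∈ S := Finset.mem_union_right _ (Finset.mem_singleton_self p)
  have hN : ∀ q : ℕ, q.Prime → q ∣ N₁ ∨ q ∣ N₂ → q ∈ S := by
    intro q hq hd
    refine Finset.mem_union_left _ (Finset.mem_erase.2 ⟨?_, Finset.mem_union_right _ ?_⟩)
    · rintro rfl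
      rcases hd with hd | hd
      · exact hl₁ hd
      · exact hl₂ hd
    · refine Nat.mem_primeFactors.2 ⟨hq, ?_, Nat.mul_ne_zero (NeZero.ne _) (NeZero.ne _)⟩
      rcases hd with hd | hd
      · exact dvd_mul_of_dvd_left hd _
      · exact dvd_mul_of_dvd_right hd _
  have hlS : l ∉ (↑S : Set ℕ) := by
    simp [S, hlp]
  haveI : Module.Finite ℤ (CuspForm.heckeAlgebra N₁ 2 (∅ : Set ℕ)) := PeriodHecke.finite_hecke N₁
  haveI : Module.Finite ℤ (CuspForm.heckeAlgebra N₂ 2 (∅ : Set ℕ)) := PeriodHecke.finite_hecke N₂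
  set B : Subalgebra ℤ ℂ := χ₁.toIntAlgHom.range ⊔ χ₂.toIntAlgHom.range with hB
  haveI hfinB : Module.Finite ℤ B := by
    haveI h1 : Module.Finite ℤ χ₁.toIntAlgHom.range :=
      Module.Finite.of_surjective χ₁.toIntAlgHom.rangeRestrict.toLinearMap
        χ₁.toIntAlgHom.rangeRestrict_surjective
    haveI h2 : Module.Finite ℤ χ₂.toIntAlgHom.range :=
      Module.Finite.of_surjective χ₂.toIntAlgHom.rangeRestrict.toLinearMap
        χ₂.toIntAlgHom.rangeRestrict_surjective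
    exact Subalgebra.finite_sup _ _
  haveI : IsNoetherianRing B := isNoetherian_of_tower ℤ inferInstance
  haveI : Algebra.IsIntegral ℤ B := Algebra.IsIntegral.of_finite ℤ B
  let g₁ : CuspForm.heckeAlgebra N₁ 2 (∅ : Set ℕ) →+* B :=
    χ₁.codRestrict B.toSubring fun t =>
      (le_sup_left : _ ≤ χ₁.toIntAlgHom.range ⊔ χ₂.toIntAlgHom.range) ⟨t, rfl⟩
  let g₂ : CuspForm.heckeAlgebra N₂ 2 (∅ : Set ℕ) →+* B :=
    χ₂.codRestrict B.toSubring fun t =>
      (le_sup_right : _ ≤ χ₁.toIntAlgHom.range ⊔ χ₂.toIntAlgHom.range) ⟨t, rfl⟩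
  have hgoal : g₁ (CuspForms.heckeGen N₁ l hl) = g₂ (CuspForms.heckeGen N₂ l hl) := by
    set I : Ideal B := Ideal.span {(p : B)}
    have hItop : I ≠ ⊤ := by
      rw [Ne, Ideal.span_singleton_eq_top]
      intro hu
      have hinj : Function.Injective (algebraMap ℤ B) := fun a b hab => by
        have := congrArg Subtype.val hab
        simpa using this
      haveI : IsLocalHom (algebraMap ℤ B) :=
        RingHom.IsIntegral.isLocalHom (Algebra.IsIntegral.isIntegral (R := ℤ)) hinj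
      have hu' : IsUnit (algebraMap ℤ B (p : ℤ)) := by rwa [map_natCast]
      have h2 := Int.natAbs_of_isUnit (IsUnit.of_map (algebraMap ℤ B) (p : ℤ) hu')
      rw [Int.natAbs_natCast] at h2
      exact hp.ne_one h2
    refine sub_eq_zero.1 ?_
    have hbot := Ideal.iInf_pow_eq_bot_of_isDomain I hItop
    rw [← Ideal.mem_bot, ← hbot, Ideal.mem_iInf]
    intro e
    rw [← Ideal.Quotient.eq]
    set q := Ideal.Quotient.mk (I ^ e)
    have he : ((p : B ⧸ I ^ e)) ^ e = 0 := by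
      rw [← map_natCast q, ← map_pow, Ideal.Quotient.eq_zero_iff_mem]
      exact Ideal.pow_mem_pow (Ideal.mem_span_singleton_self _) e
    let θ₁ := q.comp (g₁.comp (toFull N₁ S))
    let θ₂ := q.comp (g₂.comp (toFull N₂ S))
    set P₁ := pseudoChar N₁ S p hpS (fun r hr hd => hN r hr (Or.inl hd)) θ₁ he
    set P₂ := pseudoChar N₂ S p hpS (fun r hr hd => hN r hr (Or.inr hd)) θ₂ he
    obtain ⟨L₁, hL₁, h₁⟩ :=
      exists_pseudoChar_level N₁ S p hpS (fun r hr hd => hN r hr (Or.inl hd)) θ₁ he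
    obtain ⟨L₂, hL₂, h₂⟩ :=
      exists_pseudoChar_level N₂ S p hpS (fun r hr hd => hN r hr (Or.inr hd)) θ₂ he
    obtain ⟨A, hA⟩ := Frobenius.exists_liesOverPrime l hl
    obtain ⟨σ, hσ⟩ := Frobenius.exists_isFrobeniusAt A l hl hA
    have key : P₁.tr σ = P₂.tr σ := by
      refine tr_eq_of_frobenius P₁ P₂ (fun τ hτ => (h₁ τ hτ).2) (fun τ hτ => (h₂ τ hτ).2)
        (bad ∪ S) (fun ℓ hℓ hℓb V hV τ hτ => ?_) σ
      have hℓS : ℓ ∉ (↑S : Set ℕ) := fun hh => hℓb (Finset.mem_union_right _ hh)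
      have hℓ1 : ¬ ℓ ∣ N₁ := fun hh => hℓS (hN ℓ hℓ (Or.inl hh))
      have hℓ2 : ¬ ℓ ∣ N₂ := fun hh => hℓS (hN ℓ hℓ (Or.inr hh))
      obtain ⟨e1, d1⟩ := pseudoChar_frobenius N₁ S p hpS (fun r hr hd => hN r hr (Or.inl hd)) θ₁ he
        hℓ hℓ1 hℓS hV hτ
      obtain ⟨e2, d2⟩ := pseudoChar_frobenius N₂ S p hpS (fun r hr hd => hN r hr (Or.inr hd)) θ₂ he
        hℓ hℓ2 hℓS hV hτ
      refine ⟨?_, d1.trans d2.symm⟩
      rw [e1, e2]
      show q (g₁ (toFull N₁ S _)) = q (g₂ (toFull N₂ S _))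
      rw [toFull_T, toFull_T]
      exact congrArg q (Subtype.ext
        (h ℓ hℓ (fun hh => hℓb (Finset.mem_union_left _ hh)) hℓ1 hℓ2))
    rw [(pseudoChar_frobenius N₁ S p hpS (fun r hr hd => hN r hr (Or.inl hd)) θ₁ he hl hl₁ hlS hA
        hσ).1, (pseudoChar_frobenius N₂ S p hpS (fun r hr hd => hN r hr (Or.inr hd)) θ₂ he hl hl₂
        hlS hA hσ).1] at key
    change q (g₁ (toFull N₁ S _)) = q (g₂ (toFull N₂ S _)) at key
    rwa [toFull_T, toFull_T] at key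
  exact congrArg Subtype.val hgoal

section New

variable (M : ℕ) (avoid : Finset ℕ)

/-- Primes outside the level and a finite set. -/
abbrev GoodIdx := {q : Nat.Primes // ¬ (q : ℕ) ∣ M ∧ (q : ℕ) ∉ avoid}

/-- Polynomials in the good operators, evaluated at a level. -/
def evalGood (L : ℕ) [NeZero L] :
    MvPolynomial (GoodIdx M avoid) ℤ →+* CuspForm.heckeAlgebra L 2 (∅ : Set ℕ) :=
  (MvPolynomial.aeval fun q : GoodIdx M avoid => CuspForms.heckeGen L q.1 q.1.2).toRingHom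

theorem evalGood_X (L : ℕ) [NeZero L] (q : GoodIdx M avoid) :
    evalGood M avoid L (MvPolynomial.X q) = CuspForms.heckeGen L q.1 q.1.2 :=
  MvPolynomial.aeval_X _ q

/-- A complex valued hom of a subring of a finite ring extends. -/
theorem exists_extend_hom {T A : Type*} [CommRing T] [CommRing A] [Module.Finite ℤ A]
    (ev : T →+* A) (φ : T →+* ℂ) (hker : RingHom.ker ev ≤ RingHom.ker φ) :
    ∃ χ : A →+* ℂ, ∀ P, χ (ev P) = φ P := by
  set R := ev.range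
  let ψ : R →+* ℂ :=
    ev.rangeRestrict.liftOfRightInverse (Function.surjInv ev.rangeRestrict_surjective)
      (Function.rightInverse_surjInv _) ⟨φ, fun P hP => hker (RingHom.mem_ker.2
        (congrArg Subtype.val (RingHom.mem_ker.1 hP)))⟩
  have hψ : ∀ P, ψ (ev.rangeRestrict P) = φ P := fun P =>
    RingHom.liftOfRightInverse_comp_apply _ _ _ _ P
  haveI : Algebra.IsIntegral ℤ A := Algebra.IsIntegral.of_finite ℤ _
  haveI : Algebra.IsIntegral R A := Algebra.IsIntegral.tower_top (R := ℤ)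
  haveI hprime : (RingHom.ker ψ).IsPrime := RingHom.ker_isPrime ψ
  obtain ⟨Q, -, hQ, hQc⟩ := Ideal.exists_ideal_over_prime_of_isIntegral (R := R)
    (S := A) (RingHom.ker ψ) ⊥ (by
      rw [← RingHom.ker_eq_comap_bot, (RingHom.injective_iff_ker_eq_bot _).1 Subtype.val_injective]
      exact bot_le)
  let ψ' : R ⧸ RingHom.ker ψ →+* ℂ := RingHom.kerLift ψ
  letI : Algebra (R ⧸ RingHom.ker ψ) (A ⧸ Q) :=
    (Ideal.quotientMap Q (algebraMap R A) hQc.ge).toAlgebra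
  haveI : Algebra.IsIntegral (R ⧸ RingHom.ker ψ) (A ⧸ Q) := by
    constructor
    intro x
    obtain ⟨x, rfl⟩ := Ideal.Quotient.mk_surjective x
    obtain ⟨P, hPm, hP⟩ := Algebra.IsIntegral.isIntegral (R := R) x
    refine ⟨P.map (Ideal.Quotient.mk _), hPm.map _, ?_⟩
    rw [Polynomial.eval₂_map, RingHom.algebraMap_toAlgebra, Ideal.quotientMap_comp_mk,
      ← Polynomial.hom_eval₂, hP, map_zero]
  letI : Algebra (R ⧸ RingHom.ker ψ) ℂ := ψ'.toAlgebra
  haveI : FaithfulSMul (R ⧸ RingHom.ker ψ) ℂ :=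
    (faithfulSMul_iff_algebraMap_injective _ _).2 (RingHom.kerLift_injective ψ)
  haveI : FaithfulSMul (R ⧸ RingHom.ker ψ) (A ⧸ Q) :=
    (faithfulSMul_iff_algebraMap_injective _ _).2 (Ideal.quotientMap_injective' hQc.le)
  haveI : Algebra.IsAlgebraic (R ⧸ RingHom.ker ψ) (A ⧸ Q) := Algebra.IsIntegral.isAlgebraic
  let F : (A ⧸ Q) →ₐ[R ⧸ RingHom.ker ψ] ℂ := IsAlgClosed.lift
  refine ⟨F.toRingHom.comp (Ideal.Quotient.mk Q), fun P => ?_⟩
  rw [← hψ]
  exact F.commutes (Ideal.Quotient.mk _ (ev.rangeRestrict P))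

/-- A newform is separated from lower level by good operators outside any finite set. -/
theorem exists_separating {M : ℕ} [NeZero M] {g : CuspForm (Gamma0 M) 2} (hg : g.IsNewform)
    (L : ℕ) [NeZero L] (hL : L ∣ M) (hLM : L ≠ M) (avoid : Finset ℕ) :
    ∃ P : MvPolynomial (GoodIdx M avoid) ℤ, evalGood M avoid L P = 0 ∧
      CuspForms.eigenChar hg.1 (evalGood M avoid M P) ≠ 0 := by
  by_contra hcon
  push Not at hcon
  haveI : Module.Finite ℤ (CuspForm.heckeAlgebra L 2 (∅ : Set ℕ)) := PeriodHecke.finite_hecke L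
  obtain ⟨χ, hχ⟩ := exists_extend_hom (evalGood M avoid L)
    ((CuspForms.eigenChar hg.1).comp (evalGood M avoid M))
    fun P hP => RingHom.mem_ker.2 (hcon P (RingHom.mem_ker.1 hP))
  obtain ⟨f, hf, hfc⟩ :=
    CuspForms.exists_eigenform_of_ringHom (CuspForms.hasIntegralStructure L 2) χ
  refine hg.2 L hL hLM ⟨f, hf, fun ℓ hℓ hℓM => ?_⟩
  have hℓL : ¬ ℓ ∣ L := fun h => hℓM (h.trans hL)
  rw [hfc ℓ hℓ, ← CuspForms.eigenChar_heckeGen hg.1 ℓ hℓ]
  refine eigen_eq_of_almost_all χ (CuspForms.eigenChar hg.1) avoid (fun q hq hqa hqL hqM => ?_)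
    hℓ hℓL hℓM
  have := hχ (MvPolynomial.X ⟨⟨q, hq⟩, hqM, hqa⟩)
  rw [evalGood_X, RingHom.comp_apply, evalGood_X] at this
  exact this

end New

end FLTAgent.EigenLattice
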