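import Fermat.Agent.EigenLattice.Rep
import Fermat.Agent.EigenLattice.MultOne

/-!
# Push forward of torsion along degeneracy maps commutes with the good operators
-/

set_option autoImplicit false

noncomputable section

set_option linter.style.haveILetI false
set_option linter.unusedSectionVars false
set_option synthInstance.maxHeartbeats 400000
set_option maxHeartbeats 1000000

open CongruenceSubgroup Matrix AlgebraicCurve
open scoped MatrixGroups

namespace FLTAgent.EigenLattice

open ModularCurve (JZero modularFunctionFieldBar arithmeticGalois modularFunctionFieldFull)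
open FLTAgent.TorsionHom (heckeTors)

local notation "QA" => AlgebraicClosure ℚ
local notation "GG" => (AlgebraicClosure ℚ ≃ₐ[ℚ] AlgebraicClosure ℚ)

section Op

variable {N : ℕ} [NeZero N] (κ : AlgebraicClosure ℚ →+* ℂ) (n : ℕ) [NeZero n]

/-- The action of the Hecke algebra on torsion. -/
def opAct (t : CuspForm.heckeAlgebra N 2 (∅ : Set ℕ))
    (x : Pic0.torsion (AlgebraicClosure ℚ) (modularFunctionFieldBar N) n) :
    Pic0.torsion (AlgebraicClosure ℚ) (modularFunctionFieldBar N) n :=
  (torsCoord (N := N) κ n).symm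
    ((heckeMx N t).map (Int.castRingHom (ZMod n)) *ᵥ torsCoord κ n x)

theorem torsCoord_opAct (t : CuspForm.heckeAlgebra N 2 (∅ : Set ℕ))
    (x : Pic0.torsion (AlgebraicClosure ℚ) (modularFunctionFieldBar N) n) :
    torsCoord κ n (opAct κ n t x) =
      (heckeMx N t).map (Int.castRingHom (ZMod n)) *ᵥ torsCoord κ n x :=
  AddEquiv.apply_symm_apply _ _

theorem opAct_add (s t : CuspForm.heckeAlgebra N 2 (∅ : Set ℕ))
    (x : Pic0.torsion (AlgebraicClosure ℚ) (modularFunctionFieldBar N) n) :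
    opAct κ n (s + t) x = opAct κ n s x + opAct κ n t x :=
  (torsCoord (N := N) κ n).injective (by
    rw [map_add, torsCoord_opAct, torsCoord_opAct, torsCoord_opAct, heckeMx_add,
      Matrix.map_add _ (map_add _), Matrix.add_mulVec])

theorem opAct_mul (s t : CuspForm.heckeAlgebra N 2 (∅ : Set ℕ))
    (x : Pic0.torsion (AlgebraicClosure ℚ) (modularFunctionFieldBar N) n) :
    opAct κ n (s * t) x = opAct κ n t (opAct κ n s x) :=
  (torsCoord (N := N) κ n).injective (by
    rw [torsCoord_opAct, torsCoord_opAct, torsCoord_opAct, heckeMx_mul, Matrix.map_mul,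
      Matrix.mulVec_mulVec])

theorem opAct_intCast (c : ℤ)
    (x : Pic0.torsion (AlgebraicClosure ℚ) (modularFunctionFieldBar N) n) :
    opAct κ n (c : CuspForm.heckeAlgebra N 2 (∅ : Set ℕ)) x = c • x :=
  (torsCoord (N := N) κ n).injective (by
    rw [torsCoord_opAct, heckeMx_intCast, map_zsmul,
      show (c : Matrix (Ix N) (Ix N) ℤ).map (Int.castRingHom (ZMod n)) =
        (c : Matrix (Ix N) (Ix N) (ZMod n)) from map_intCast (Int.castRingHom (ZMod n)).mapMatrix c,
      ← zsmul_one c, Matrix.smul_mulVec, Matrix.one_mulVec])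

theorem opAct_heckeGen (q : Nat.Primes)
    (x : Pic0.torsion (AlgebraicClosure ℚ) (modularFunctionFieldBar N) n) :
    opAct κ n (CuspForms.heckeGen N q q.2) x = heckeTors n q x :=
  (torsCoord (N := N) κ n).injective (by rw [torsCoord_opAct, torsCoord_heckeTors])

theorem coe_heckeTors_frobenius (q : Nat.Primes) (hqN : ¬ (q : ℕ) ∣ N) (hqn : ¬ (q : ℕ) ∣ n)
    {A : ValuationSubring QA} (hA : A.LiesOverPrime q) {σ : GG} (hσ : A.IsFrobeniusAt σ q)
    (x : Pic0.torsion (AlgebraicClosure ℚ) (modularFunctionFieldBar N) n) :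
    (heckeTors n q x : JZero N) = σ • (x : JZero N) + (q : ℕ) • (σ⁻¹ • (x : JZero N)) := by
  haveI : Fact (q : ℕ).Prime := ⟨q.2⟩
  haveI : NeZero (q : ℕ) := ⟨q.2.ne_zero⟩
  have hx : n • (x : JZero N) = 0 := by
    have h := Pic0.mem_torsion.1 x.2
    rwa [natCast_zsmul] at h
  exact frobenius_relation N (q : ℕ) hqN hA hσ hqn hx

end Op

section Push

variable {N l : ℕ} [NeZero N] [NeZero l] (κ : AlgebraicClosure ℚ →+* ℂ) (n : ℕ) [NeZero n]
  (φ : modularFunctionFieldBar N →ₐ[AlgebraicClosure ℚ] modularFunctionFieldBar (N * l))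

/-- Push forward on torsion. -/
def pushTors (x : Pic0.torsion (AlgebraicClosure ℚ) (modularFunctionFieldBar (N * l)) n) :
    Pic0.torsion (AlgebraicClosure ℚ) (modularFunctionFieldBar N) n :=
  ⟨pushPic N l φ (x : JZero (N * l)), by
    rw [Pic0.mem_torsion, ← map_zsmul, Pic0.mem_torsion.1 x.2, map_zero]⟩

theorem pushTors_add (x y : Pic0.torsion (AlgebraicClosure ℚ) (modularFunctionFieldBar (N * l)) n) :
    pushTors n φ (x + y) = pushTors n φ x + pushTors n φ y :=
  Subtype.ext (map_add (pushPic N l φ) _ _)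

theorem pushTors_zsmul (c : ℤ)
    (x : Pic0.torsion (AlgebraicClosure ℚ) (modularFunctionFieldBar (N * l)) n) :
    pushTors n φ (c • x) = c • pushTors n φ x :=
  Subtype.ext (map_zsmul (pushPic N l φ) _ _)

variable (hφ : ∀ (σ : GG) (x : modularFunctionFieldBar N),
  φ (arithmeticGalois (L := QA) (modularFunctionFieldFull N) σ • x) =
    arithmeticGalois (L := QA) (modularFunctionFieldFull (N * l)) σ • φ x)

include hφ in
theorem pushTors_heckeTors (q : Nat.Primes) (hq : ¬ (q : ℕ) ∣ N * l) (hqn : ¬ (q : ℕ) ∣ n)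
    (x : Pic0.torsion (AlgebraicClosure ℚ) (modularFunctionFieldBar (N * l)) n) :
    haveI : NeZero (N * l) := ⟨Nat.mul_ne_zero (NeZero.ne N) (NeZero.ne l)⟩
    pushTors n φ (heckeTors n q x) = heckeTors n q (pushTors n φ x) := by
  haveI : NeZero (N * l) := ⟨Nat.mul_ne_zero (NeZero.ne N) (NeZero.ne l)⟩
  obtain ⟨A, hA⟩ := Frobenius.exists_liesOverPrime (q : ℕ) q.2
  obtain ⟨σ, hσ⟩ := Frobenius.exists_isFrobeniusAt A (q : ℕ) q.2 hA
  refine Subtype.ext ?_
  rw [coe_heckeTors_frobenius n q (fun h => hq (h.trans (dvd_mul_right N l))) hqn hA hσ]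
  show pushPic N l φ (heckeTors n q x : JZero (N * l)) = _
  rw [coe_heckeTors_frobenius n q hq hqn hA hσ, map_add, map_nsmul, pushPic_smul N l φ σ (hφ σ),
    pushPic_smul N l φ σ⁻¹ (hφ σ⁻¹)]
  rfl

include hφ in
theorem pushTors_opAct (avoid : Finset ℕ)
    (hn : ∀ q : ℕ, q.Prime → q ∣ n → q ∈ avoid)
    (P : MvPolynomial (GoodIdx (N * l) avoid) ℤ)
    (x : Pic0.torsion (AlgebraicClosure ℚ) (modularFunctionFieldBar (N * l)) n) :
    haveI : NeZero (N * l) := ⟨Nat.mul_ne_zero (NeZero.ne N) (NeZero.ne l)⟩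
    pushTors n φ (opAct κ n (evalGood (N * l) avoid (N * l) P) x) =
      opAct κ n (evalGood (N * l) avoid N P) (pushTors n φ x) := by
  haveI : NeZero (N * l) := ⟨Nat.mul_ne_zero (NeZero.ne N) (NeZero.ne l)⟩
  induction P using MvPolynomial.induction_on generalizing x with
  | C a =>
    rw [eq_intCast MvPolynomial.C a, map_intCast, map_intCast, opAct_intCast, opAct_intCast,
      pushTors_zsmul]
  | add P Q hP hQ =>
    rw [map_add, map_add, opAct_add, opAct_add, pushTors_add, hP, hQ]
  | mul_X P q hP =>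
    rw [map_mul, map_mul, evalGood_X, evalGood_X, opAct_mul, opAct_mul, opAct_heckeGen,
      opAct_heckeGen, pushTors_heckeTors n φ hφ q.1 q.2.1 (fun h => q.2.2 (hn _ q.1.2 h)), hP]

include hφ in
/-- An operator vanishing at the lower level kills the push forward. -/
theorem pushPic_opAct_eq_zero (avoid : Finset ℕ)
    (hn : ∀ q : ℕ, q.Prime → q ∣ n → q ∈ avoid)
    (P : MvPolynomial (GoodIdx (N * l) avoid) ℤ) (hP : evalGood (N * l) avoid N P = 0)
    (x : Pic0.torsion (AlgebraicClosure ℚ) (modularFunctionFieldBar (N * l)) n) :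
    haveI : NeZero (N * l) := ⟨Nat.mul_ne_zero (NeZero.ne N) (NeZero.ne l)⟩
    pushPic N l φ (opAct κ n (evalGood (N * l) avoid (N * l) P) x : JZero (N * l)) = 0 := by
  haveI : NeZero (N * l) := ⟨Nat.mul_ne_zero (NeZero.ne N) (NeZero.ne l)⟩
  refine (congrArg Subtype.val (pushTors_opAct κ n φ hφ avoid hn P x)).trans ?_
  rw [hP, ← Int.cast_zero, opAct_intCast, zero_zsmul]
  rfl

end Push

end FLTAgent.EigenLattice
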