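import Fermat.Agent.EigenLattice.Padic
import Fermat.Prelude.Def_GaloisRep_Adic
import Mathlib.RingTheory.Localization.Module
import Mathlib.RingTheory.Localization.FractionRing

/-!
# The rank two representation on an eigen lattice
-/

set_option autoImplicit false

noncomputable section

set_option linter.style.haveILetI false
set_option linter.unusedSectionVars false
set_option synthInstance.maxHeartbeats 400000
set_option maxHeartbeats 1000000

open CongruenceSubgroup Matrix
open scoped MatrixGroups

namespace FLTAgent.EigenLattice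

open FLTAgent.PeriodHecke (actDual eigenDual mem_eigenDual exists_free_pair finrank_eigenDual
  mem_generators)

variable (N : ℕ) [NeZero N]

local notation "QA" => AlgebraicClosure ℚ
local notation "GG" => (AlgebraicClosure ℚ ≃ₐ[ℚ] AlgebraicClosure ℚ)
local notation "HH" => CuspForm.heckeAlgebra N 2 (∅ : Set ℕ)

theorem heckeMx_one : heckeMx N (1 : HH) = 1 := by
  rw [heckeMx, map_one, LinearMap.toMatrix_one, Matrix.transpose_one]

theorem heckeMx_mul (s t : HH) : heckeMx N (s * t) = heckeMx N t * heckeMx N s := by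
  rw [heckeMx, heckeMx, heckeMx, map_mul, LinearMap.toMatrix_mul, Matrix.transpose_mul]

theorem heckeMx_add (s t : HH) : heckeMx N (s + t) = heckeMx N s + heckeMx N t := by
  rw [heckeMx, heckeMx, heckeMx, map_add, map_add, Matrix.transpose_add]

theorem heckeMx_intCast (c : ℤ) : heckeMx N (c : HH) = (c : Matrix (Ix N) (Ix N) ℤ) := by
  rw [heckeMx, map_intCast, ← zsmul_one, map_zsmul, LinearMap.toMatrix_one, Matrix.transpose_smul,
    Matrix.transpose_one, zsmul_one]

/-- Every element of the algebra is built from the generators. -/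
theorem hecke_induction {P : HH → Prop} (hgen : ∀ q : Nat.Primes, P (CuspForms.heckeGen N q q.2))
    (hint : ∀ c : ℤ, P (c : HH)) (hadd : ∀ s t, P s → P t → P (s + t))
    (hmul : ∀ s t, P s → P t → P (s * t)) (t : HH) : P t := by
  obtain ⟨t, ht⟩ := t
  induction ht using Algebra.adjoin_induction with
  | mem x hx =>
    obtain ⟨p, hp, rfl⟩ := mem_generators N hx
    have e : (⟨PeriodHecke.heckeLin N p, Algebra.subset_adjoin hx⟩ : HH) =
        CuspForms.heckeGen N p hp.out := Subtype.ext (PeriodHecke.coe_heckeGen N p).symm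
    exact e ▸ hgen ⟨p, hp.out⟩
  | algebraMap c =>
    exact hint c
  | add x y hx hy ih ih' => exact hadd ⟨x, hx⟩ ⟨y, hy⟩ ih ih'
  | mul x y hx hy ih ih' => exact hmul ⟨x, hx⟩ ⟨y, hy⟩ ih ih'

theorem constr_comp {A : Type*} [CommRing A] (t : HH) (v : Ix N → A) (i : Ix N) :
    (bas N).constr ℤ v (actDual N t (bas N i)) =
      ((heckeMx N t).map (Int.castRingHom A) *ᵥ v) i := by
  conv_lhs => rw [← (bas N).sum_repr (actDual N t (bas N i)), map_sum]
  simp only [Matrix.mulVec, dotProduct, Matrix.map_apply, eq_intCast]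
  refine Finset.sum_congr rfl fun j _ => ?_
  rw [map_zsmul, Module.Basis.constr_basis, heckeMx, Matrix.transpose_apply,
    LinearMap.toMatrix_apply, zsmul_eq_mul]

section Eigen

variable {A : Type*} [CommRing A]

/-- Eigenvectors in coordinates. -/
def eigenVec (χ : HH →+* A) : Submodule A (Ix N → A) where
  carrier := {v | ∀ t, (heckeMx N t).map (Int.castRingHom A) *ᵥ v = χ t • v}
  add_mem' ha hb t := by rw [Matrix.mulVec_add, ha t, hb t, smul_add]
  zero_mem' t := by rw [Matrix.mulVec_zero, smul_zero]
  smul_mem' c v hv t := by rw [Matrix.mulVec_smul, hv t, smul_comm]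

theorem mem_eigenVec {χ : HH →+* A} {v : Ix N → A} :
    v ∈ eigenVec N χ ↔ ∀ t, (heckeMx N t).map (Int.castRingHom A) *ᵥ v = χ t • v := Iff.rfl

end Eigen

theorem finrank_eigenVec {K : Type*} [Field K] [CharZero K] (χ : HH →+* K) :
    Module.finrank K (eigenVec N χ) = 2 := by
  obtain ⟨u, v, hinj, m, hm, hmem⟩ := exists_free_pair N
  rw [← finrank_eigenDual (actDual N) χ hinj hm hmem]
  have h : eigenDual (actDual N) χ =
      (eigenVec N χ).map ((bas N).constr K : (Ix N → K) ≃ₗ[K] _).toLinearMap := by
    ext l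
    rw [Submodule.mem_map_equiv, mem_eigenVec, mem_eigenDual]
    constructor
    · intro hl t
      funext i
      rw [← constr_comp]
      have h1 : (bas N).constr ℤ (((bas N).constr K).symm l) = l :=
        (bas N).ext fun j => by rw [Module.Basis.constr_basis]; rfl
      rw [h1, hl t]
      rfl
    · intro hl t w
      have h1 : l ∘ₗ actDual N t = χ t • l := (bas N).ext fun i => by
        have h2 : (bas N).constr ℤ (((bas N).constr K).symm l) = l :=
          (bas N).ext fun j => by rw [Module.Basis.constr_basis]; rfl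
        have h3 := congrFun (hl t) i
        rw [← constr_comp, h2] at h3
        exact h3
      exact LinearMap.congr_fun h1 w
  rw [h, LinearEquiv.finrank_map_eq]

section Lattice

variable {O : Type} [CommRing O] [IsDomain O] [IsPrincipalIdealRing O] [CharZero O] (χ : CuspForm.heckeAlgebra N 2 (∅ : Set ℕ) →+* O)

theorem finrank_eigenVec_lattice : Module.finrank O (eigenVec N χ) = 2 := by
  classical
  haveI : CharZero (FractionRing O) :=
    charZero_of_injective_algebraMap (IsFractionRing.injective O (FractionRing O))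
  set ι' := algebraMap O (FractionRing O)
  set χK : HH →+* FractionRing O := ι'.comp χ
  let emb : (Ix N → O) →ₗ[O] (Ix N → FractionRing O) :=
    LinearMap.pi fun i => (Algebra.linearMap O (FractionRing O)).comp (LinearMap.proj i)
  have hemb : ∀ v i, emb v i = ι' (v i) := fun _ _ => rfl
  have hinj : Function.Injective emb := fun v w h =>
    funext fun i => IsFractionRing.injective O (FractionRing O) (congrFun h i)
  have hcast : ∀ (t : HH) (v : Ix N → O),
      (heckeMx N t).map (Int.castRingHom (FractionRing O)) *ᵥ emb v =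
        emb ((heckeMx N t).map (Int.castRingHom O) *ᵥ v) := fun t v => by
    funext i
    simp [Matrix.mulVec, dotProduct, hemb, map_sum]
  have hmem : ∀ v, emb v ∈ eigenVec N χK ↔ v ∈ eigenVec N χ := fun v => by
    rw [mem_eigenVec, mem_eigenVec]
    refine forall_congr' fun t => ?_
    rw [hcast, show χK t • emb v = emb (χ t • v) by
      rw [map_smul]; funext i; simp [χK, hemb, ι', Algebra.smul_def]]
    exact hinj.eq_iff
  haveI : Module.Free O (eigenVec N χ) := Module.free_of_finite_type_torsion_free'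
  set b := Module.Free.chooseBasis O (eigenVec N χ)
  let b' : Module.Free.ChooseBasisIndex O (eigenVec N χ) → eigenVec N χK :=
    fun r => ⟨emb (b r), (hmem _).2 (b r).2⟩
  have hli : LinearIndependent (FractionRing O) b' := by
    rw [← LinearIndependent.iff_fractionRing (R := O) (K := FractionRing O)]
    refine LinearIndependent.of_comp ((eigenVec N χK).subtype.restrictScalars O) ?_
    exact b.linearIndependent.map' (emb.comp (eigenVec N χ).subtype)
      (LinearMap.ker_eq_bot.2 (hinj.comp Subtype.val_injective))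
  have hsp : ⊤ ≤ Submodule.span (FractionRing O) (Set.range b') := by
    rintro w -
    obtain ⟨⟨d, hd⟩, hint⟩ := IsLocalization.exist_integer_multiples_of_finite
      (nonZeroDivisors O) (fun i => (w : Ix N → FractionRing O) i)
    choose z hz using hint
    have hd0 : ι' d ≠ 0 := IsFractionRing.to_map_ne_zero_of_mem_nonZeroDivisors hd
    have hz' : emb z = ι' d • (w : Ix N → FractionRing O) := funext fun i => by
      rw [hemb, hz i, Pi.smul_apply, smul_eq_mul, Algebra.smul_def]
    have hzE : z ∈ eigenVec N χ := (hmem z).1 (hz' ▸ Submodule.smul_mem _ _ w.2)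
    have hsum : (w : Ix N → FractionRing O) =
        (((ι' d)⁻¹ • ∑ r, (ι' (b.repr ⟨z, hzE⟩ r)) • b' r : eigenVec N χK) :
          Ix N → FractionRing O) := by
      rw [Submodule.coe_smul, Submodule.coe_sum, Finset.sum_congr rfl fun r _ =>
          show ((ι' (b.repr ⟨z, hzE⟩ r) • b' r : eigenVec N χK) : Ix N → FractionRing O) =
              emb (b.repr ⟨z, hzE⟩ r • (b r : Ix N → O)) by
            rw [map_smul, Submodule.coe_smul, algebraMap_smul], ← map_sum,
        show ∑ r, b.repr ⟨z, hzE⟩ r • (b r : Ix N → O) = z by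
          have h1 := congrArg Subtype.val (b.sum_repr ⟨z, hzE⟩)
          rw [Submodule.coe_sum] at h1
          exact h1, hz', smul_smul,
        inv_mul_cancel₀ hd0, one_smul]
    rw [Subtype.ext hsum]
    exact Submodule.smul_mem _ _ (Submodule.sum_mem _ fun r _ =>
      Submodule.smul_mem _ _ (Submodule.subset_span ⟨r, rfl⟩))
  rw [Module.finrank_eq_card_basis b, ← Module.finrank_eq_card_basis (Module.Basis.mk hli hsp),
    finrank_eigenVec]

end Lattice

section Rep

variable (p : ℕ) [Fact p.Prime] (κ : AlgebraicClosure ℚ →+* ℂ)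
  {O : Type} [CommRing O] [IsDomain O] [IsDiscreteValuationRing O] [CharZero O]
  [IsAdicComplete (IsLocalRing.maximalIdeal O) O] (hp : (p : O) ∈ IsLocalRing.maximalIdeal O)
  (χ : CuspForm.heckeAlgebra N 2 (∅ : Set ℕ) →+* O)

theorem galO_hecke (σ : GG) (t : HH) :
    galO N p κ O hp σ * heckeO N O t = heckeO N O t * galO N p κ O hp σ := by
  induction t using hecke_induction N with
  | hgen q => exact galO_heckeGen N p κ O hp σ q
  | hint c =>
    rw [heckeO, heckeMx_intCast, show (c : Matrix (Ix N) (Ix N) ℤ).map (Int.castRingHom O) =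
      (c : Matrix (Ix N) (Ix N) O) from map_intCast (Int.castRingHom O).mapMatrix c]
    exact (Int.cast_commute c _).eq.symm
  | hadd s t hs ht =>
    rw [heckeO] at hs ht ⊢
    rw [heckeMx_add, Matrix.map_add _ (map_add _), mul_add, add_mul, hs, ht]
  | hmul s t hs ht =>
    rw [heckeO] at hs ht ⊢
    rw [heckeMx_mul, Matrix.map_mul, ← mul_assoc, ht, mul_assoc, hs, mul_assoc]

theorem galO_mem (σ : GG) {v : Ix N → O} (hv : v ∈ eigenVec N χ) :
    galO N p κ O hp σ *ᵥ v ∈ eigenVec N χ := fun t => by
  have h := galO_hecke N p κ hp σ t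
  rw [heckeO] at h
  rw [Matrix.mulVec_mulVec, ← h, ← Matrix.mulVec_mulVec, hv t, Matrix.mulVec_smul]

/-- The action of `σ` on the eigen lattice. -/
def eigenAct (σ : GG) : Module.End O (eigenVec N χ) :=
  (Matrix.toLin' (galO N p κ O hp σ)).restrict fun v hv => by
    rw [Matrix.toLin'_apply]; exact galO_mem N p κ hp χ σ hv

@[simp] theorem coe_eigenAct (σ : GG) (v : eigenVec N χ) :
    (eigenAct N p κ hp χ σ v : Ix N → O) = galO N p κ O hp σ *ᵥ (v : Ix N → O) :=
  Matrix.toLin'_apply _ _

/-- The representation on the eigen lattice. -/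
def eigenRep : GaloisRepAdic O where
  V := eigenVec N χ
  instFree := Module.free_of_finite_type_torsion_free'
  finrank_eq := finrank_eigenVec_lattice N χ
  ρ :=
    { toFun := eigenAct N p κ hp χ
      map_one' := LinearMap.ext fun v => Subtype.ext (by
        rw [coe_eigenAct, galO_one, Matrix.one_mulVec]; rfl)
      map_mul' := fun σ τ => LinearMap.ext fun v => Subtype.ext (by
        rw [coe_eigenAct, galO_mul, Module.End.mul_apply, coe_eigenAct, coe_eigenAct,
          Matrix.mulVec_mulVec]) }
  isAdicContinuous := by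
    intro n
    obtain ⟨ϖ, hϖ⟩ := IsDiscreteValuationRing.exists_irreducible O
    obtain ⟨L, hL, h⟩ := exists_level_galO N p κ O hp n
    refine ⟨L, hL, fun σ hσ (v : eigenVec N χ) => ?_⟩
    show eigenAct N p κ hp χ σ v - v ∈ _
    have hd : ∀ i, ∃ w, ((eigenAct N p κ hp χ σ v - v : eigenVec N χ) : Ix N → O) i = ϖ ^ n * w := by
      intro i
      refine Ideal.mem_span_singleton.1 ?_
      rw [← Ideal.span_singleton_pow, ← hϖ.maximalIdeal_eq, Submodule.coe_sub, Pi.sub_apply,
        coe_eigenAct,
        show (galO N p κ O hp σ *ᵥ (v : Ix N → O)) i - (v : Ix N → O) i =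
          ((galO N p κ O hp σ - 1) *ᵥ (v : Ix N → O)) i by
            rw [Matrix.sub_mulVec, Matrix.one_mulVec, Pi.sub_apply]]
      exact Ideal.sum_mem _ fun j _ => Ideal.mul_mem_right _ _ (by
        show (galO N p κ O hp σ i j - (1 : Matrix (Ix N) (Ix N) O) i j) ∈ _
        exact h σ hσ i j)
    choose w hw using hd
    have hwv : ϖ ^ n • w = ((eigenAct N p κ hp χ σ v - v : eigenVec N χ) : Ix N → O) :=
      funext fun i => (hw i).symm
    have hwE : w ∈ eigenVec N χ := fun t => by
      have h1 := (eigenAct N p κ hp χ σ v - v).2 t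
      rw [← hwv, Matrix.mulVec_smul, smul_comm] at h1
      exact smul_right_injective (Ix N → O) (pow_ne_zero n hϖ.ne_zero) h1
    rw [show eigenAct N p κ hp χ σ v - v = ϖ ^ n • (⟨w, hwE⟩ : eigenVec N χ) from
      Subtype.ext hwv.symm]
    exact Submodule.smul_mem_smul (Ideal.pow_mem_pow (by
      rw [hϖ.maximalIdeal_eq]; exact Ideal.mem_span_singleton_self ϖ) n) Submodule.mem_top

theorem coe_eigenRep_apply (σ : GG) (v : eigenVec N χ) :
    Subtype.val (show eigenVec N χ from (eigenRep N p κ hp χ).ρ σ v) =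
      galO N p κ O hp σ *ᵥ (v : Ix N → O) :=
  coe_eigenAct N p κ hp χ σ v

/-- The quadratic relation of Frobenius on the eigen lattice. -/
theorem eigenRep_frobenius {ℓ : ℕ} (hℓ : ℓ.Prime) (hℓN : ¬ ℓ ∣ N) (hℓp : ℓ ≠ p)
    {A : ValuationSubring QA} (hA : A.LiesOverPrime ℓ) {σ : GG} (hσ : A.IsFrobeniusAt σ ℓ) :
    (eigenRep N p κ hp χ).ρ σ * (eigenRep N p κ hp χ).ρ σ -
      χ (CuspForms.heckeGen N ℓ hℓ) • (eigenRep N p κ hp χ).ρ σ + (ℓ : O) • 1 = 0 := by
  refine LinearMap.ext fun (v : eigenVec N χ) => Subtype.ext ?_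
  have h := galO_frobenius N p κ O hp hℓ hℓN hℓp hA hσ (v : Ix N → O)
  rw [show heckeO N O (CuspForms.heckeGen N ℓ hℓ) *ᵥ (galO N p κ O hp σ *ᵥ (v : Ix N → O)) = _ from
    galO_mem N p κ hp χ σ v.2 _] at h
  show galO N p κ O hp σ *ᵥ (galO N p κ O hp σ *ᵥ (v : Ix N → O)) -
    χ (CuspForms.heckeGen N ℓ hℓ) • (galO N p κ O hp σ *ᵥ (v : Ix N → O)) +
      (ℓ : O) • (v : Ix N → O) = 0
  exact h

end Rep

end FLTAgent.EigenLattice
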