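import Fermat.Agent.Kronecker.GoodReduction
import Fermat.Agent.Kronecker.Inputs
import Fermat.Prelude.Thm_ModularCurve_coeffMap_qExpand

/-!
# Galois equivariance of the Hecke operators and finite level of the torsion of `J₀(N)`
-/

set_option autoImplicit false

noncomputable section

set_option linter.style.haveILetI false
set_option linter.unusedSectionVars false
set_option synthInstance.maxHeartbeats 400000
set_option maxHeartbeats 1000000

open AlgebraicCurve ModularCurve FLTAgent.Curves

open scoped Pointwise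

namespace FLTAgent.EigenLattice

section Along

variable {K F F' : Type*} [Field K] [Field F] [Field F'] [Algebra K F] [Algebra K F']
  (φ : F →ₐ[K] F') (hφ : φ.toRingHom.IsIntegral) (g : SemilinearAut K F)
  (g' : SemilinearAut K F') (hg : ∀ x, φ (g • x) = g' • φ x)

include hg in
theorem inv_compat (x : F) : φ (g⁻¹ • x) = g'⁻¹ • φ x := by
  rw [eq_inv_smul_iff, ← hg, smul_inv_smul]

include hg in
theorem restrict_smul (w : Place K F') :
    letI := algebraAlong φ
    haveI := isScalarTower_along φ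
    haveI := isIntegral_along φ hφ
    (g' • w).restrict F = g • w.restrict F := by
  letI := algebraAlong φ
  haveI := isScalarTower_along φ
  haveI := isIntegral_along φ hφ
  apply Place.ext
  ext f
  rw [Place.restrict_toValuationSubring, ValuationSubring.mem_comap,
    SemilinearAut.smul_toValuationSubring, SemilinearAut.smul_toValuationSubring,
    ValuationSubring.mem_pointwise_smul_iff_inv_smul_mem,
    ValuationSubring.mem_pointwise_smul_iff_inv_smul_mem, Place.restrict_toValuationSubring,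
    ValuationSubring.mem_comap]
  show g'⁻¹ • φ f ∈ _ ↔ φ (g⁻¹ • f) ∈ _
  rw [inv_compat φ g g' hg]

include hg in
theorem ramificationIndex_smul (w : Place K F') :
    letI := algebraAlong φ
    (g' • w).ramificationIndex F = w.ramificationIndex F := by
  letI := algebraAlong φ
  have key : ∀ f : F, (g' • w).ord (φ f) = w.ord (φ (g⁻¹ • f)) := fun f => by
    have h := SemilinearAut.ord_smul g' w (φ (g⁻¹ • f))
    rw [← hg, smul_inv_smul] at h
    exact h
  unfold Place.ramificationIndex
  congr 1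
  ext n
  constructor
  · rintro ⟨hn, f, hf, he⟩
    exact ⟨hn, g⁻¹ • f, by simpa using hf, by rw [← he]; exact (key f).symm⟩
  · rintro ⟨hn, f, hf, he⟩
    refine ⟨hn, g • f, by simpa using hf, ?_⟩
    show (g' • w).ord (φ (g • f)) = _
    rw [key, inv_smul_smul]
    exact he

variable [HasPrincipalDivisors K F'] in
include hg in
theorem pullbackAlong_smul (D : Divisor K F) :
    Divisor.pullbackAlong φ hφ (g • D) = g' • Divisor.pullbackAlong φ hφ D := by
  letI := algebraAlong φ
  haveI := isScalarTower_along φ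
  haveI := isIntegral_along φ hφ
  ext w
  show Divisor.pullback F' (g • D) w = (g' • Divisor.pullback F' D) w
  rw [SemilinearAut.divisor_smul_apply g', Divisor.pullback_apply, Divisor.pullback_apply]
  obtain ⟨u, rfl⟩ : ∃ u, w = g' • u := ⟨g'⁻¹ • w, (smul_inv_smul _ _).symm⟩
  rw [inv_smul_smul, ramificationIndex_smul φ g g' hg, restrict_smul φ hφ g g' hg,
    SemilinearAut.divisor_smul_apply_smul]

variable [IsAlgClosed K] [IsFunctionField K F] [IsFunctionField K F'] in
include hg in
theorem pushforwardAlong_smul (D : Divisor K F') :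
    Divisor.pushforwardAlong φ hφ (g' • D) = g • Divisor.pushforwardAlong φ hφ D := by
  letI := algebraAlong φ
  haveI := isScalarTower_along φ
  haveI := isIntegral_along φ hφ
  show Divisor.pushforward F (g' • D) = g • Divisor.pushforward F D
  have hone : ∀ w : Place K F', (w.inertiaDeg F : ℤ) = 1 := by
    intro w
    have h := w.deg_restrict_mul_inertiaDeg (F := F)
    rw [deg_eq_one, deg_eq_one, one_mul] at h
    rw [h, Nat.cast_one]
  induction D using Finsupp.induction with
  | zero => rw [smul_zero, map_zero, smul_zero]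
  | single_add w n D _ _ ih =>
    rw [smul_add, map_add, map_add, smul_add, ih, SemilinearAut.smul_single,
      Divisor.pushforward_single, Divisor.pushforward_single, SemilinearAut.smul_single, hone, hone,
      restrict_smul φ hφ g g' hg]

variable [HasPrincipalDivisors K F'] [IsAlgClosed K] [IsFunctionField K F]
  [IsFunctionField K F'] in
theorem correspondence_smul (ψ : F →ₐ[K] F') (hψ : ψ.toRingHom.IsIntegral)
    (hgφ : ∀ x, φ (g • x) = g' • φ x) (hgψ : ∀ x, ψ (g • x) = g' • ψ x) (D : Divisor K F) :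
    g • Divisor.correspondence φ ψ hφ hψ D = Divisor.correspondence φ ψ hφ hψ (g • D) := by
  rw [Divisor.correspondence_apply, Divisor.correspondence_apply,
    pullbackAlong_smul φ hφ g g' hgφ, pushforwardAlong_smul ψ hψ g g' hgψ]

variable (g : SemilinearAut K F) in
omit hφ in
theorem smul_mk_eq (D : Divisor.degZero (K := K) (F := F)) {E : Divisor K F}
    {hE : E ∈ Divisor.degZero (K := K) (F := F)} (h : g • (D : Divisor K F) = E) :
    g • Pic0.mk D = Pic0.mk ⟨E, hE⟩ := by
  rw [SemilinearAut.pic0_smul_mk]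
  exact congrArg Pic0.mk (Subtype.ext h)

end Along

local notation "QA" => AlgebraicClosure ℚ
local notation "GG" => (AlgebraicClosure ℚ ≃ₐ[ℚ] AlgebraicClosure ℚ)
local notation "gal[" N "]" => arithmeticGalois (L := AlgebraicClosure ℚ) (modularFunctionFieldFull N)

variable (N l : ℕ) [NeZero N] [NeZero l]

theorem alpha_compat (σ : GG) (x : modularFunctionFieldBar N) :
    heckeAlphaBar QA N l (gal[N] σ • x) = gal[N * l] σ • heckeAlphaBar QA N l x := by
  refine Subtype.ext ?_
  rw [coe_heckeAlphaBar, coe_arithmeticGalois_smul, coe_arithmeticGalois_smul, coe_heckeAlphaBar]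

theorem beta_compat (σ : GG) (x : modularFunctionFieldBar N) :
    heckeBetaBar QA N l (gal[N] σ • x) = gal[N * l] σ • heckeBetaBar QA N l x := by
  refine Subtype.ext ?_
  rw [coe_heckeBetaBar, coe_arithmeticGalois_smul, coe_arithmeticGalois_smul, coe_heckeBetaBar,
    coeffMap_qExpand]

/-- The Hecke operators on `J₀(N)` commute with Galois. -/
theorem smul_heckeOperatorAlong (σ : GG) (x : JZero N) :
    σ • heckeOperatorAlong QA N l x = heckeOperatorAlong QA N l (σ • x) := by
  haveI : NeZero (N * l) := ⟨Nat.mul_ne_zero (NeZero.ne N) (NeZero.ne l)⟩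
  haveI : HasPrincipalDivisors QA (modularFunctionFieldBar (N * l)) :=
    hasPrincipalDivisors
  obtain ⟨D, rfl⟩ := Pic0.mk_surjective x
  have hα : HeckeAlphaBarIntegral QA N l := Kronecker.isIntegralAlong _
  have hβ : HeckeBetaBarIntegral QA N l := Kronecker.isIntegralAlong _
  obtain ⟨h, he⟩ := Kronecker.heckeOperatorAlong_mk N l hα hβ D
  obtain ⟨h', he'⟩ :=
    Kronecker.heckeOperatorAlong_mk N l hα hβ (SemilinearAut.degZeroSMulHom (gal[N] σ) D)
  rw [he, galois_smul_pic0_def, galois_smul_pic0_def, SemilinearAut.pic0_smul_mk (gal[N] σ) D, he']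
  refine smul_mk_eq (gal[N] σ) _ ?_
  show gal[N] σ • heckeDivBar hα hβ (D : Divisor _ _) = _
  have key := correspondence_smul (heckeBetaBar QA N l) hβ (gal[N] σ) (gal[N * l] σ)
    (heckeAlphaBar QA N l) hα (beta_compat N l σ) (alpha_compat N l σ) (D : Divisor _ _)
  rw [heckeDivBar]
  rw [key, SemilinearAut.coe_degZeroSMulHom]

/-- Push forward of divisor classes along a degeneracy map. -/
def pushPic (φ : modularFunctionFieldBar N →ₐ[QA] modularFunctionFieldBar (N * l)) :
    JZero (N * l) →+ JZero N :=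
  haveI : NeZero (N * l) := ⟨Nat.mul_ne_zero (NeZero.ne N) (NeZero.ne l)⟩
  letI := algebraAlong φ
  haveI := isScalarTower_along φ
  haveI := isIntegral_along φ (Kronecker.isIntegralAlong φ)
  haveI : Module.Finite (modularFunctionFieldBar N) (modularFunctionFieldBar (N * l)) :=
    Kronecker.finiteAlong φ
  haveI : HasPrincipalDivisors QA (modularFunctionFieldBar (N * l)) := hasPrincipalDivisors
  Pic0.pushforwardHom QA (modularFunctionFieldBar N) (modularFunctionFieldBar (N * l))
    (Kronecker.normFormulaAlong φ (Kronecker.finiteAlong φ))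

theorem pushPic_mk (φ : modularFunctionFieldBar N →ₐ[QA] modularFunctionFieldBar (N * l))
    (D : Divisor.degZero (K := QA) (F := modularFunctionFieldBar (N * l))) :
    ∃ h : Divisor.pushforwardAlong φ
        (haveI : NeZero (N * l) := ⟨Nat.mul_ne_zero (NeZero.ne N) (NeZero.ne l)⟩
         Kronecker.isIntegralAlong φ) (D : Divisor _ _) ∈
        Divisor.degZero (K := QA) (F := modularFunctionFieldBar N),
      pushPic N l φ (Pic0.mk D) = Pic0.mk ⟨_, h⟩ :=
  ⟨Divisor.pushforwardAlong_mem_degZero _ _ D.2, rfl⟩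

/-- A class pushes to zero exactly when the divisor pushes to a principal one. -/
theorem isPrincipal_of_pushPic_eq_zero
    (φ : modularFunctionFieldBar N →ₐ[QA] modularFunctionFieldBar (N * l))
    (D : Divisor.degZero (K := QA) (F := modularFunctionFieldBar (N * l)))
    (h0 : pushPic N l φ (Pic0.mk D) = 0) :
    (Divisor.pushforwardAlong φ
        (haveI : NeZero (N * l) := ⟨Nat.mul_ne_zero (NeZero.ne N) (NeZero.ne l)⟩
         Kronecker.isIntegralAlong φ) (D : Divisor _ _)).IsPrincipal := by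
  obtain ⟨h, he⟩ := pushPic_mk N l φ D
  rw [he] at h0
  have h1 := (QuotientAddGroup.eq_zero_iff _).1 h0
  exact h1

theorem pushPic_smul (φ : modularFunctionFieldBar N →ₐ[QA] modularFunctionFieldBar (N * l))
    (σ : GG) (hg : ∀ x, φ (gal[N] σ • x) = gal[N * l] σ • φ x) (x : JZero (N * l)) :
    pushPic N l φ (σ • x) = σ • pushPic N l φ x := by
  haveI : NeZero (N * l) := ⟨Nat.mul_ne_zero (NeZero.ne N) (NeZero.ne l)⟩
  obtain ⟨D, rfl⟩ := Pic0.mk_surjective x
  obtain ⟨h, he⟩ := pushPic_mk N l φ D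
  obtain ⟨h', he'⟩ := pushPic_mk N l φ (SemilinearAut.degZeroSMulHom (gal[N * l] σ) D)
  rw [he, galois_smul_pic0_def, galois_smul_pic0_def, SemilinearAut.pic0_smul_mk (gal[N * l] σ) D,
    he']
  exact (smul_mk_eq (gal[N] σ) _ (pushforwardAlong_smul φ _ _ _ hg (D : Divisor _ _)).symm).symm

omit [NeZero l] in
/-- An element of the function field is fixed by an open subgroup. -/
theorem exists_level_function (x : modularFunctionFieldBar N) :
    ∃ L : IntermediateField ℚ QA, FiniteDimensional ℚ L ∧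
      ∀ σ : GG, (∀ a ∈ L, σ a = a) → gal[N] σ • x = x := by
  suffices h : ∀ y : LaurentSeries QA, y ∈ modularFunctionFieldBar N →
      ∃ L : IntermediateField ℚ QA, FiniteDimensional ℚ L ∧
        ∀ σ : GG, (∀ a ∈ L, σ a = a) → coeffMap (σ : QA →+* QA) y = y by
    obtain ⟨L, hL, h⟩ := h x x.2
    exact ⟨L, hL, fun σ hσ => Subtype.ext ((coe_arithmeticGalois_smul _ σ x).trans (h σ hσ))⟩
  intro y hy
  rw [mem_laurentBaseChange_iff] at hy
  induction hy using Subfield.closure_induction with
  | mem z hz =>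
    rcases hz with ⟨a, rfl⟩ | ⟨w, hw, rfl⟩
    · have : Algebra.IsAlgebraic ℚ QA := AlgebraicClosure.isAlgebraic ℚ
      refine ⟨IntermediateField.adjoin ℚ {a}, IntermediateField.adjoin.finiteDimensional
        (Algebra.IsAlgebraic.isAlgebraic a).isIntegral, fun σ hσ => ?_⟩
      rw [coeffMap_algebraMap]
      exact congrArg _ (hσ a (IntermediateField.mem_adjoin_simple_self ℚ a))
    · exact ⟨⊥, inferInstance, fun σ _ => coeffMap_coeffEmb σ w⟩
  | one => exact ⟨⊥, inferInstance, fun σ _ => map_one _⟩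
  | add a b _ _ ha hb =>
    obtain ⟨L₁, h₁, ha⟩ := ha
    obtain ⟨L₂, h₂, hb⟩ := hb
    exact ⟨L₁ ⊔ L₂, inferInstance, fun σ hσ => by
      rw [map_add, ha σ fun c hc => hσ c ((le_sup_left : L₁ ≤ L₁ ⊔ L₂) hc),
        hb σ fun c hc => hσ c ((le_sup_right : L₂ ≤ L₁ ⊔ L₂) hc)]⟩
  | neg a _ ha =>
    obtain ⟨L, hL, ha⟩ := ha
    exact ⟨L, hL, fun σ hσ => by rw [map_neg, ha σ hσ]⟩
  | inv a _ ha =>
    obtain ⟨L, hL, ha⟩ := ha
    exact ⟨L, hL, fun σ hσ => by rw [map_inv₀, ha σ hσ]⟩
  | mul a b _ _ ha hb =>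
    obtain ⟨L₁, h₁, ha⟩ := ha
    obtain ⟨L₂, h₂, hb⟩ := hb
    exact ⟨L₁ ⊔ L₂, inferInstance, fun σ hσ => by
      rw [map_mul, ha σ fun c hc => hσ c ((le_sup_left : L₁ ≤ L₁ ⊔ L₂) hc),
        hb σ fun c hc => hσ c ((le_sup_right : L₂ ≤ L₁ ⊔ L₂) hc)]⟩

omit [NeZero l] in
/-- A torsion class is fixed by an open subgroup. -/
theorem exists_level_class {n : ℕ} (hn : n ≠ 0) {x : JZero N} (hx : n • x = 0) :
    ∃ L : IntermediateField ℚ QA, FiniteDimensional ℚ L ∧
      ∀ σ : GG, (∀ a ∈ L, σ a = a) → σ • x = x := by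
  obtain ⟨D, rfl⟩ := Pic0.mk_surjective x
  rw [← Kronecker.pic0_mk_nsmul] at hx
  obtain ⟨f, hf, hD⟩ := (QuotientAddGroup.eq_zero_iff _).1 hx
  obtain ⟨L, hL, hfix⟩ := exists_level_function N f
  refine ⟨L, hL, fun σ hσ => ?_⟩
  rw [galois_smul_pic0_def, SemilinearAut.pic0_smul_mk]
  refine congrArg Pic0.mk (Subtype.ext (Finsupp.ext fun v => ?_))
  rw [SemilinearAut.coe_degZeroSMulHom, SemilinearAut.divisor_smul_apply]
  have h1 := hD ((gal[N] σ)⁻¹ • v)
  have h2 := hD v
  have h3 := SemilinearAut.ord_smul (gal[N] σ) ((gal[N] σ)⁻¹ • v) f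
  rw [smul_inv_smul, hfix σ hσ] at h3
  rw [← h3, ← h2] at h1
  have h4 : (n : ℤ) * (D : Divisor QA _) ((gal[N] σ)⁻¹ • v) = (n : ℤ) * (D : Divisor QA _) v := by
    simpa [nsmul_eq_mul] using h1
  exact mul_left_cancel₀ (Int.natCast_ne_zero.2 hn) h4

omit [NeZero l] in
/-- Frobenius satisfies the Kronecker relation on torsion prime to `ℓ`. -/
theorem frobenius_relation (ℓ : ℕ) [Fact ℓ.Prime] [NeZero ℓ] (hℓN : ¬ ℓ ∣ N)
    {A : ValuationSubring QA} (hA : A.LiesOverPrime ℓ) {σ : GG} (hσ : A.IsFrobeniusAt σ ℓ)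
    {n : ℕ} (hn : ¬ ℓ ∣ n) {x : JZero N} (hx : n • x = 0) :
    heckeOperatorAlong QA N ℓ x = σ • x + ℓ • (σ⁻¹ • x) := by
  obtain ⟨hin, hinj⟩ := Kronecker.goodReductionAt N ℓ Fact.out hℓN A hA
  haveI : CharP (IsLocalRing.ResidueField A) ℓ := FrobTrace.charP_residueField hA
  refine sub_eq_zero.1 (hinj n hn _ ?_ ?_)
  · rw [nsmul_sub, nsmul_add, ← map_nsmul, hx, map_zero, smul_comm n σ x, hx, smul_zero,
      smul_comm n ℓ, smul_comm n σ⁻¹ x, hx, smul_zero, smul_zero, add_zero, sub_zero]
  · have hf := hσ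
    set φ := Kronecker.residueAut A ⟨σ, hσ.mem_decompositionSubgroup⟩ with hφdef
    have hφ : ∀ z, φ z = z ^ ℓ := fun z => by
      rw [hφdef, Kronecker.residueAut_apply]
      exact hσ.smul_residue_eq z
    have h2 := Kronecker.reductionModL_smul_of_frobenius hin hf φ hφ (σ⁻¹ • x)
    rw [smul_inv_smul] at h2
    rw [map_sub, map_add, map_nsmul, Kronecker.reductionModL_hecke hℓN hin φ hφ x,
      Kronecker.reductionModL_smul_of_frobenius hin hσ φ hφ x, sub_eq_zero]
    congr 1
    rw [h2, Kronecker.specialAut_symm, inv_smul_smul]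

end FLTAgent.EigenLattice
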