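import Fermat.Agent.EigenLattice.NewAt

/-!
# The representation of a newform is not unipotent on inertia at primes exactly squared in the level
-/

set_option autoImplicit false

noncomputable section

set_option linter.style.haveILetI false
set_option linter.unusedSectionVars false
set_option synthInstance.maxHeartbeats 400000
set_option maxHeartbeats 1000000

open CongruenceSubgroup Matrix Polynomial
open scoped MatrixGroups

namespace FLTAgent.EigenLattice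

local notation "QA" => AlgebraicClosure ℚ
local notation "GG" => (AlgebraicClosure ℚ ≃ₐ[ℚ] AlgebraicClosure ℚ)

/-- Inertia at `q` does not act unipotently on the eigen lattice. -/
theorem not_isUnipotent_eigenRep
    (hbound : ∀ (q M' : ℕ) [Fact q.Prime] [NeZero M'], ¬ q ∣ M' → CarayolBound q M')
    {M : ℕ} [NeZero M] {g : CuspForm (Gamma0 M) 2} (hg : g.IsNewform) (p : ℕ) [Fact p.Prime]
    (κ : AlgebraicClosure ℚ →+* ℂ) {O : Type} [CommRing O] [IsDomain O] [IsDiscreteValuationRing O]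
    [CharZero O] [IsAdicComplete (IsLocalRing.maximalIdeal O) O]
    (hp : (p : O) ∈ IsLocalRing.maximalIdeal O) (F : (CuspForms.eigenChar hg.1).range →+* O)
    {q : ℕ} (hq : q.Prime) (hqp : q ≠ p) (hfac : M.factorization q = 2) :
    ¬ (eigenRep M p κ hp (F.comp (CuspForms.eigenChar hg.1).rangeRestrict)).IsUnipotentOnInertiaAt q
    := by
  haveI : Fact q.Prime := ⟨hq⟩
  obtain ⟨M', hqM', rfl⟩ : ∃ M', ¬ q ∣ M' ∧ M = q * M' * q := by
    refine ⟨M / q ^ 2, hfac ▸ Nat.not_dvd_ordCompl hq (NeZero.ne M), ?_⟩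
    have h1 := Nat.ordProj_mul_ordCompl_eq_self M q
    rw [hfac] at h1
    linarith [h1, show q ^ 2 * (M / q ^ 2) = q * (M / q ^ 2) * q by ring]
  haveI : NeZero M' := ⟨fun h => hqM' (h ▸ dvd_zero q)⟩
  intro hun
  obtain ⟨A, hA⟩ := Frobenius.exists_liesOverPrime q hq
  set χ := F.comp (CuspForms.eigenChar hg.1).rangeRestrict
  set ρ := eigenRep (q * M' * q) p κ hp χ
  obtain ⟨bs⟩ := Deformation.nonempty_basis ρ
  obtain ⟨w, hw0, hw⟩ := exists_fixed_vector (A.inertiaSubgroupIn ℚ) (Deformation.matOf ρ bs)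
    fun σ hσ => by
      rw [← Frobenius.charpoly_eq_charpoly_matOf ρ bs]
      exact hun A hA σ hσ
  set u : ρ.V := bs.equivFun.symm w with hu
  have hu0 : u ≠ 0 := by
    rw [hu, Ne, LinearEquiv.map_eq_zero_iff]
    exact hw0
  have hufix : ∀ σ ∈ A.inertiaSubgroupIn ℚ, ρ.ρ σ u = u := fun σ hσ => by
    refine bs.equivFun.injective (funext fun i => ?_)
    have h1 := congrFun (hw σ hσ) i
    have h2 := LinearMap.toMatrix_mulVec_repr bs bs (ρ.ρ σ) u
    have h3 : (bs.repr u : Fin 2 → O) = w := bs.equivFun.apply_symm_apply w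
    rw [h3] at h2
    rw [Module.Basis.equivFun_apply, Module.Basis.equivFun_apply, ← h2, h3]
    exact h1
  set v : eigenVec (q * M' * q) χ := u
  have hfix : ∀ σ ∈ A.inertiaSubgroupIn ℚ,
      galO (q * M' * q) p κ O hp σ *ᵥ (v : Ix (q * M' * q) → O) = v := fun σ hσ => by
    have h := congrArg (fun z : eigenVec (q * M' * q) χ => (z : Ix (q * M' * q) → O))
      (hufix σ hσ : (ρ.ρ σ u : eigenVec (q * M' * q) χ) = (u : eigenVec (q * M' * q) χ))
    rwa [coe_eigenRep_apply] at h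
  exact hu0 (Subtype.ext
    (eq_zero_of_fixed (hbound q M' hqM') hg p hqp κ hp F hA v.2 hfix))

/-- Carayol's theorem at primes exactly squared in the level, from the geometric bound. -/
theorem s36_of_bound
    (hbound : ∀ (q M' : ℕ) [Fact q.Prime] [NeZero M'], ¬ q ∣ M' → CarayolBound q M')
    {M : ℕ} [NeZero M] {g : CuspForm (CongruenceSubgroup.Gamma0 M) 2} (hg : g.IsNewform)
    (lam : ℕ) [Fact lam.Prime]
    (S : Finset ℕ)
    (O' : Type) [CommRing O'] [IsDomain O'] [IsDiscreteValuationRing O']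
    [IsAdicComplete (IsLocalRing.maximalIdeal O') O'] [Finite (IsLocalRing.ResidueField O')]
    [CharZero O'] (hlamO' : (lam : O') ∈ IsLocalRing.maximalIdeal O')
    (chig : CuspForm.heckeAlgebra M 2 (↑S : Set ℕ) →+* ℂ)
    (hchig : ∀ (ℓ : ℕ) (hℓ : ℓ.Prime) (hℓM : ¬ ℓ ∣ M) (hℓS : ℓ ∉ (↑S : Set ℕ)),
      chig (CuspForm.heckeAlgebra.T hℓ hℓM hℓS) = ModularFormClass.qCoeff g ℓ)
    (iota : chig.range →+* O')
    (hlamS : lam ∈ S) (hMS : ∀ q : ℕ, q.Prime → q ∣ M → q ∈ S)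
    (hres : ∀ (O'' : Type) [CommRing O''] [IsDomain O''] [IsDiscreteValuationRing O'']
      [IsAdicComplete (IsLocalRing.maximalIdeal O'') O''] [Finite (IsLocalRing.ResidueField O'')] [CharZero O'']
      [Algebra O' O''] [Module.Finite O' O''] [IsLocalHom (algebraMap O' O'')],
      Function.Injective (algebraMap O' O'') → ∀ (ρ : GaloisRepAdic O''),
      (∀ (ℓ : ℕ) (hℓ : ℓ.Prime) (_hℓlam : ℓ ≠ lam) (hℓM : ¬ ℓ ∣ M) (hℓS : ℓ ∉ (↑S : Set ℕ)),
        ∀ A : ValuationSubring (AlgebraicClosure ℚ), A.LiesOverPrime ℓ →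
          ∀ σ : AlgebraicClosure ℚ ≃ₐ[ℚ] AlgebraicClosure ℚ, A.IsFrobeniusAt σ ℓ →
            LinearMap.charpoly (ρ.ρ σ) =
              X ^ 2 - C (algebraMap O' O'' ((iota.comp chig.rangeRestrict) (CuspForm.heckeAlgebra.T hℓ hℓM hℓS))) * X
                + C ((ℓ : O'')))
      → ρ.residual.IsAbsolutelyIrreducible ∧ ρ.residual.IsOdd) :
    ∃ (O'' : Type) (_ : CommRing O'') (_ : IsDomain O'') (_ : IsDiscreteValuationRing O'')
      (_ : IsAdicComplete (IsLocalRing.maximalIdeal O'') O'') (_ : Finite (IsLocalRing.ResidueField O''))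
      (_ : CharZero O'') (_ : Algebra O' O'') (_ : Module.Finite O' O'') (_ : IsLocalHom (algebraMap O' O'')),
      Function.Injective (algebraMap O' O'') ∧
      ∃ ρ : GaloisRepAdic O'',
        (∀ (ℓ : ℕ) (hℓ : ℓ.Prime) (hℓM : ¬ ℓ ∣ M) (hℓS : ℓ ∉ (↑S : Set ℕ)),
          ∀ A : ValuationSubring (AlgebraicClosure ℚ), A.LiesOverPrime ℓ →
            ∀ σ : AlgebraicClosure ℚ ≃ₐ[ℚ] AlgebraicClosure ℚ, A.IsFrobeniusAt σ ℓ →
              LinearMap.charpoly (ρ.ρ σ) =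
                X ^ 2 - C (algebraMap O' O'' ((iota.comp chig.rangeRestrict) (CuspForm.heckeAlgebra.T hℓ hℓM hℓS))) * X
                  + C ((ℓ : O''))) ∧
        (∀ q : ℕ, q.Prime → q ≠ lam → M.factorization q = 2 → ¬ ρ.IsUnipotentOnInertiaAt q) := by
  classical
  obtain ⟨O'', i1, i2, i3, i4, i5, i6, i7, i8, i9, hinj, F, hF⟩ :=
    exists_full_character hg.1 (S := (↑S : Set ℕ)) O' hMS chig hchig iota
  set κ : AlgebraicClosure ℚ →+* ℂ := complexEmbedding.toRingHom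
  set χ := F.comp (CuspForms.eigenChar hg.1).rangeRestrict with hχ
  have hp : (lam : O'') ∈ IsLocalRing.maximalIdeal O'' := by
    rw [← map_natCast (algebraMap O' O''), IsLocalRing.mem_maximalIdeal]
    exact fun hu => (IsLocalRing.mem_maximalIdeal _).1 hlamO' (isUnit_of_map_unit _ _ hu)
  set ρ := eigenRep M lam κ hp χ with hρ
  let a : ℕ → O'' := fun ℓ => if h : ℓ.Prime then χ (CuspForms.heckeGen M ℓ h) else 0
  have ha : ∀ (ℓ : ℕ) (hℓ : ℓ.Prime) (hℓM : ¬ ℓ ∣ M) (hℓS : ℓ ∉ (↑S : Set ℕ)),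
      a ℓ = algebraMap O' O''
        ((iota.comp chig.rangeRestrict) (CuspForm.heckeAlgebra.T hℓ hℓM hℓS)) := by
    intro ℓ hℓ hℓM hℓS
    simp only [a, dif_pos hℓ]
    exact hF ℓ hℓ hℓM hℓS
  have hquad : ∀ ℓ : ℕ, ℓ.Prime → ℓ ∉ S → ∀ V : ValuationSubring QA, V.LiesOverPrime ℓ →
      ∀ τ : GG, V.IsFrobeniusAt τ ℓ → ρ.ρ τ * ρ.ρ τ - a ℓ • ρ.ρ τ + (ℓ : O'') • 1 = 0 := by
    intro ℓ hℓ hℓS V hV τ hτ
    simp only [a, dif_pos hℓ]
    exact eigenRep_frobenius M lam κ hp χ hℓ (fun h => hℓS (hMS ℓ hℓ h))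
      (fun h => hℓS (h ▸ hlamS)) hV hτ
  have hns : ∃ σ, ∀ c : O'', ρ.ρ σ ≠ c • 1 := by
    by_contra hall
    push Not at hall
    obtain ⟨ρ', hred, hchar⟩ := exists_companion lam hp ρ hall
      (fun ℓ => ℓ.Prime ∧ ℓ ∉ S) (fun ℓ h => ⟨h.1, fun e => h.2 (e ▸ hlamS)⟩) a
      (fun ℓ h => hquad ℓ h.1 h.2)
    refine hred (hres O'' hinj ρ' fun ℓ hℓ _ hℓM hℓS A hA σ hσ => ?_).1
    rw [← ha ℓ hℓ hℓM hℓS]
    exact hchar ℓ ⟨hℓ, hℓS⟩ A hA σ hσ
  refine ⟨O'', i1, i2, i3, i4, i5, i6, i7, i8, i9, hinj, ρ, fun ℓ hℓ hℓM hℓS A hA σ hσ => ?_,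
    fun q hq hqlam hfac => not_isUnipotent_eigenRep hbound hg lam κ hp F hq hqlam hfac⟩
  rw [← ha ℓ hℓ hℓM hℓS]
  exact DetCyclo.charpoly_frobenius lam hp ρ S hlamS a hquad hns hℓ hℓS hA hσ

end FLTAgent.EigenLattice
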