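import Fermat.Agent.EigenLattice.Galois
import Fermat.Agent.TorsionHom.HeckeEquiv
import Fermat.Agent.PeriodHecke.Freeness
import Mathlib.NumberTheory.Padics.RingHoms

/-!
# The Galois and Hecke actions on the torsion of `J₀(N)` in coordinates of the dual lattice
-/

set_option autoImplicit false

noncomputable section

set_option linter.style.haveILetI false
set_option synthInstance.maxHeartbeats 400000
set_option maxHeartbeats 2000000

open CongruenceSubgroup Matrix AlgebraicCurve
open scoped MatrixGroups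

namespace FLTAgent.EigenLattice

open FLTAgent.PeriodHecke (Hpar mapHpar homEquiv homEquiv_apply actA actA_homEquiv actDual
  mapHpar_homEquiv)
open FLTAgent.TorsionHom (torsEquiv torsEquiv_spec heckeTors torsEquiv_heckeTors kummer
  kummer_mul_level rootHom rootHom_apply mapHpar_root_injective frickeHom)
open ModularCurve (JZero modularFunctionFieldBar)

variable (N : ℕ) [NeZero N]

local notation "Γ₀" => Gamma0 N
local notation "QA" => AlgebraicClosure ℚ
local notation "GG" => (AlgebraicClosure ℚ ≃ₐ[ℚ] AlgebraicClosure ℚ)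
local notation "HH" => CuspForm.heckeAlgebra N 2 (∅ : Set ℕ)

/-- The dual lattice. -/
abbrev DualLat := Module.Dual ℤ (Hpar (Gamma0 N) ℤ)

/-- Index set of a basis of the dual lattice. -/
abbrev Ix := Module.Free.ChooseBasisIndex ℤ (DualLat N)

/-- A basis of the dual lattice. -/
def bas : Module.Basis (Ix N) ℤ (DualLat N) := Module.Free.chooseBasis ℤ (DualLat N)

/-- A class as its values on the basis. -/
def vecEquiv (A : Type*) [AddCommGroup A] : Hpar Γ₀ A ≃+ (Ix N → A) :=
  (homEquiv N A).symm.trans ((bas N).constr ℤ).symm.toAddEquiv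

theorem vecEquiv_homEquiv {A : Type*} [AddCommGroup A] (l : DualLat N →ₗ[ℤ] A) (i : Ix N) :
    vecEquiv N A (homEquiv N A l) i = l (bas N i) := by
  show ((bas N).constr ℤ).symm ((homEquiv N A).symm (homEquiv N A l)) i = _
  rw [AddEquiv.symm_apply_apply]
  rfl

/-- The integer matrix of a Hecke operator. -/
def heckeMx (t : HH) : Matrix (Ix N) (Ix N) ℤ :=
  (LinearMap.toMatrix (bas N) (bas N) (actDual N t))ᵀ

theorem vecEquiv_actA {A : Type*} [CommRing A] (t : HH) (φ : Hpar Γ₀ A) :
    vecEquiv N A (actA N A t φ) = (heckeMx N t).map (Int.castRingHom A) *ᵥ vecEquiv N A φ := by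
  obtain ⟨l, rfl⟩ := (homEquiv N A).surjective φ
  funext i
  rw [actA_homEquiv, vecEquiv_homEquiv, LinearMap.comp_apply]
  conv_lhs => rw [← (bas N).sum_repr (actDual N t (bas N i)), map_sum]
  simp only [Matrix.mulVec, dotProduct, Matrix.map_apply]
  refine Finset.sum_congr rfl fun j _ => ?_
  rw [map_zsmul, vecEquiv_homEquiv, heckeMx, Matrix.transpose_apply, LinearMap.toMatrix_apply,
    zsmul_eq_mul]
  rfl

theorem vecEquiv_mapHpar {A B : Type*} [AddCommGroup A] [AddCommGroup B] (f : A →+ B)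
    (φ : Hpar Γ₀ A) (i : Ix N) : vecEquiv N B (mapHpar f φ) i = f (vecEquiv N A φ i) := by
  obtain ⟨l, rfl⟩ := (homEquiv N A).surjective φ
  rw [mapHpar_homEquiv, vecEquiv_homEquiv, vecEquiv_homEquiv]
  rfl

variable {N}

section Torsion

variable (κ : AlgebraicClosure ℚ →+* ℂ) (n : ℕ) [NeZero n]

local notation "Tors" => Pic0.torsion (AlgebraicClosure ℚ) (modularFunctionFieldBar N) n

/-- Torsion classes in coordinates. -/
def torsCoord : Tors ≃+ (Ix N → ZMod n) :=
  (torsEquiv (N := N) κ n).trans (vecEquiv N (ZMod n))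

theorem torsCoord_heckeTors (q : Nat.Primes) (c : Tors) :
    torsCoord κ n (heckeTors n q c) =
      (heckeMx N (CuspForms.heckeGen N q q.2)).map (Int.castRingHom (ZMod n)) *ᵥ
        torsCoord κ n c := by
  show vecEquiv N (ZMod n) (torsEquiv κ n (heckeTors n q c)) = _
  rw [torsEquiv_heckeTors, vecEquiv_actA]
  rfl

/-- The matrix of `σ` on the `n`-torsion. -/
def galMx (σ : GG) : Matrix (Ix N) (Ix N) (ZMod n) :=
  LinearMap.toMatrix' (AddMonoidHom.toZModLinearMap n
    ((torsCoord (N := N) κ n).toAddMonoidHom.comp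
      ((JZero.torsionGaloisRep N n σ).toAddMonoidHom.comp
        (torsCoord (N := N) κ n).symm.toAddMonoidHom)))

theorem galMx_mulVec (σ : GG) (c : Tors) :
    galMx κ n σ *ᵥ torsCoord κ n c = torsCoord κ n (JZero.torsionGaloisRep N n σ c) := by
  rw [galMx, ← Matrix.toLin'_apply, Matrix.toLin'_toMatrix']
  show torsCoord κ n (JZero.torsionGaloisRep N n σ ((torsCoord κ n).symm (torsCoord κ n c))) = _
  rw [AddEquiv.symm_apply_apply]

theorem mx_ext {M M' : Matrix (Ix N) (Ix N) (ZMod n)}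
    (h : ∀ c : Tors, M *ᵥ torsCoord κ n c = M' *ᵥ torsCoord κ n c) : M = M' := by
  refine Matrix.toLin'.injective (LinearMap.ext fun v => ?_)
  obtain ⟨c, rfl⟩ := (torsCoord (N := N) κ n).surjective v
  rw [Matrix.toLin'_apply, Matrix.toLin'_apply, h]

theorem galMx_mul (σ τ : GG) : galMx (N := N) κ n (σ * τ) = galMx κ n σ * galMx κ n τ :=
  mx_ext κ n fun c => by
    rw [← Matrix.mulVec_mulVec, galMx_mulVec, galMx_mulVec, galMx_mulVec, map_mul]
    rfl

theorem galMx_one : galMx (N := N) κ n 1 = 1 :=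
  mx_ext κ n fun c => by rw [galMx_mulVec, map_one, Matrix.one_mulVec]; rfl

theorem galMx_eq_one {σ : GG} (h : ∀ c : Tors, σ • (c : JZero N) = c) :
    galMx (N := N) κ n σ = 1 :=
  mx_ext κ n fun c => by
    rw [galMx_mulVec, Matrix.one_mulVec]
    exact congrArg _ (Subtype.ext ((JZero.coe_torsionGaloisRep_apply N σ c).trans (h c)))

theorem galMx_heckeGen (σ : GG) (q : Nat.Primes) :
    galMx (N := N) κ n σ * (heckeMx N (CuspForms.heckeGen N q q.2)).map (Int.castRingHom (ZMod n)) =
      (heckeMx N (CuspForms.heckeGen N q q.2)).map (Int.castRingHom (ZMod n)) * galMx κ n σ :=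
  mx_ext κ n fun c => by
    rw [← Matrix.mulVec_mulVec, ← Matrix.mulVec_mulVec, galMx_mulVec, ← torsCoord_heckeTors,
      galMx_mulVec, ← torsCoord_heckeTors]
    refine congrArg _ (Subtype.ext ?_)
    haveI : NeZero (q : ℕ) := ⟨q.2.ne_zero⟩
    rw [JZero.coe_torsionGaloisRep_apply, TorsionHom.coe_heckeTors, TorsionHom.coe_heckeTors,
      JZero.coe_torsionGaloisRep_apply, ModularCurve.heckeOperatorBar_apply,
      ModularCurve.heckeOperatorBar_apply]
    exact smul_heckeOperatorAlong N (q : ℕ) σ _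

theorem exists_level_galMx :
    ∃ L : IntermediateField ℚ QA, FiniteDimensional ℚ L ∧
      ∀ σ : GG, (∀ a ∈ L, σ a = a) → galMx (N := N) κ n σ = 1 := by
  haveI : Finite Tors := Finite.of_equiv _ (torsCoord (N := N) κ n).symm.toEquiv
  choose L hL h using fun c : Tors => exists_level_class N (NeZero.ne n)
    (x := (c : JZero N)) (by
      have hc := Pic0.mem_torsion.1 c.2
      rwa [natCast_zsmul] at hc)
  exact ⟨⨆ c, L c, IntermediateField.finiteDimensional_iSup_of_finite,
    fun σ hσ => galMx_eq_one κ n fun c => h c σ fun a ha => hσ a (le_iSup L c ha)⟩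

/-- Frobenius satisfies its quadratic relation in coordinates. -/
theorem galMx_frobenius {ℓ : ℕ} (hℓ : ℓ.Prime) (hℓN : ¬ ℓ ∣ N) (hℓn : ¬ ℓ ∣ n)
    {A : ValuationSubring QA} (hA : A.LiesOverPrime ℓ) {σ : GG} (hσ : A.IsFrobeniusAt σ ℓ) :
    galMx (N := N) κ n σ * galMx κ n σ -
      (heckeMx N (CuspForms.heckeGen N ℓ hℓ)).map (Int.castRingHom (ZMod n)) * galMx κ n σ +
      (ℓ : ZMod n) • (1 : Matrix (Ix N) (Ix N) (ZMod n)) = 0 := by
  haveI : Fact ℓ.Prime := ⟨hℓ⟩
  haveI : NeZero ℓ := ⟨hℓ.ne_zero⟩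
  refine mx_ext κ n fun c => ?_
  rw [Matrix.zero_mulVec, Matrix.add_mulVec, Matrix.sub_mulVec, ← Matrix.mulVec_mulVec,
    ← Matrix.mulVec_mulVec, galMx_mulVec, galMx_mulVec, Matrix.smul_mulVec, Matrix.one_mulVec,
    Nat.cast_smul_eq_nsmul, ← map_nsmul, ← torsCoord_heckeTors κ n ⟨ℓ, hℓ⟩, ← map_sub, ← map_add,
    AddEquiv.map_eq_zero_iff]
  refine Subtype.ext ?_
  show ((JZero.torsionGaloisRep N n σ (JZero.torsionGaloisRep N n σ c)) : JZero N) -
    (heckeTors n ⟨ℓ, hℓ⟩ (JZero.torsionGaloisRep N n σ c) : JZero N) + ℓ • (c : JZero N) = 0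
  erw [TorsionHom.coe_heckeTors]
  erw [ModularCurve.heckeOperatorBar_apply]
  rw [JZero.coe_torsionGaloisRep_apply, JZero.coe_torsionGaloisRep_apply]
  show σ • σ • (c : JZero N) - ModularCurve.heckeOperatorAlong QA N ℓ (σ • (c : JZero N)) +
    ℓ • (c : JZero N) = 0
  have hc : n • (σ • (c : JZero N)) = 0 := by
    have h := Pic0.mem_torsion.1 c.2
    rw [natCast_zsmul] at h
    rw [smul_comm n σ (c : JZero N), h, smul_zero]
  rw [frobenius_relation N ℓ hℓN hA hσ hℓn hc, inv_smul_smul]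
  abel

/-- Multiplication by `m` from integers modulo `n` to integers modulo `n m`. -/
def scaleHom (m : ℕ) [NeZero m] : ZMod n →+ ZMod (n * m) :=
  AddMonoidHom.mk' (fun x => ((m * x.val : ℕ) : ZMod (n * m))) fun x y => by
    rw [← Nat.cast_add, ZMod.natCast_eq_natCast_iff, ← Nat.mul_add, mul_comm n m]
    refine Nat.ModEq.mul_left' m ?_
    rw [ZMod.val_add]
    exact Nat.mod_modEq _ n

theorem rootHom_scaleHom (m : ℕ) [NeZero m] (x : ZMod n) :
    rootHom (n * m) (scaleHom n m x) = rootHom n x := by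
  refine Additive.toMul.injective (Units.ext ?_)
  rw [rootHom_apply, rootHom_apply, show scaleHom n m x = (((m * x.val : ℕ) : ℤ) : ZMod (n * m)) by
    rw [Int.cast_natCast]; rfl]
  conv_rhs => rw [← ZMod.natCast_zmod_val x, ← Int.cast_natCast]
  rw [ZMod.stdAddChar_coe, ZMod.stdAddChar_coe]
  push_cast
  congr 1
  have hm : (m : ℂ) ≠ 0 := Nat.cast_ne_zero.2 (NeZero.ne m)
  have hn : (n : ℂ) ≠ 0 := Nat.cast_ne_zero.2 (NeZero.ne n)
  field_simp

/-- A class seen at a higher level. -/
theorem torsCoord_mul_level (m : ℕ) [NeZero m] (c : Tors)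
    (d : Pic0.torsion (AlgebraicClosure ℚ) (modularFunctionFieldBar N) (n * m))
    (h : (d : JZero N) = (c : JZero N)) (i : Ix N) :
    torsCoord κ (n * m) d i = scaleHom n m (torsCoord κ n c i) := by
  show vecEquiv N (ZMod (n * m)) (torsEquiv κ (n * m) d) i =
    scaleHom n m (vecEquiv N (ZMod n) (torsEquiv κ n c) i)
  rw [← vecEquiv_mapHpar]
  refine congrFun (congrArg _ (mapHpar_root_injective (n * m) N ?_)) i
  rw [torsEquiv_spec, kummer_mul_level κ n m c d h, ← torsEquiv_spec]
  refine Subtype.ext (AddMonoidHom.ext fun γ => ?_)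
  exact (rootHom_scaleHom n m _).symm

/-- The matrices of `σ` at different levels are compatible. -/
theorem galMx_compat (m : ℕ) [NeZero m] (σ : GG) :
    (galMx (N := N) κ (n * m) σ).map (ZMod.castHom (dvd_mul_right n m) (ZMod n)) =
      galMx κ n σ := by
  refine mx_ext κ n fun c => ?_
  have hd : (c : JZero N) ∈
      Pic0.torsion (AlgebraicClosure ℚ) (modularFunctionFieldBar N) (n * m) := by
    have hc := Pic0.mem_torsion.1 c.2
    rw [Pic0.mem_torsion, Nat.cast_mul, mul_comm, mul_smul, hc, smul_zero]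
  have h2 := galMx_mulVec κ (n * m) σ ⟨_, hd⟩
  rw [galMx_mulVec]
  funext i
  have h3 := congrFun h2 i
  rw [torsCoord_mul_level κ n m (JZero.torsionGaloisRep N n σ c) _
    ((JZero.coe_torsionGaloisRep_apply N σ _).trans
      (JZero.coe_torsionGaloisRep_apply N σ c).symm) i] at h3
  simp only [Matrix.mulVec, dotProduct, Matrix.map_apply] at h3 ⊢
  simp only [torsCoord_mul_level κ n m c ⟨_, hd⟩ rfl] at h3
  have key : ∀ (a : ZMod (n * m)) (x : ZMod n),
      a * scaleHom n m x = scaleHom n m (ZMod.castHom (dvd_mul_right n m) (ZMod n) a * x) := by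
    intro a x
    conv_lhs => rw [← ZMod.natCast_zmod_val a, ← nsmul_eq_mul, ← map_nsmul, nsmul_eq_mul]
    conv_rhs => rw [← ZMod.natCast_zmod_val a, map_natCast]
  simp only [key, ← map_sum] at h3
  refine (?_ : Function.Injective (scaleHom n m)) h3
  intro x y hxy
  apply TorsionHom.rootHom_injective n
  rw [← rootHom_scaleHom n m, hxy, rootHom_scaleHom]

end Torsion

end FLTAgent.EigenLattice
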