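import Fermat.Agent.EigenLattice.Coord
import Mathlib.Algebra.Module.CharacterModule
import Mathlib.RingTheory.DiscreteValuationRing.Basic

/-!
# The Galois action on the dual lattice with coefficients in a complete discrete valuation ring
-/

set_option autoImplicit false

noncomputable section

set_option linter.style.haveILetI false
set_option linter.unusedSectionVars false
set_option linter.unusedSimpArgs false
set_option synthInstance.maxHeartbeats 400000
set_option maxHeartbeats 1000000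

open CongruenceSubgroup Matrix
open scoped MatrixGroups

namespace FLTAgent.EigenLattice

open FLTAgent.PeriodHecke (actDual)

section Algebra

variable (p : ℕ) [Fact p.Prime] {O : Type} [CommRing O] [IsDomain O] [IsDiscreteValuationRing O]
  [CharZero O] (hp : (p : O) ∈ IsLocalRing.maximalIdeal O)

include hp in
theorem natPow_mem (k : ℕ) : ((p ^ k : ℕ) : O) ∈ IsLocalRing.maximalIdeal O ^ k := by
  rw [Nat.cast_pow]
  exact Ideal.pow_mem_pow hp k

theorem exists_pow_le (k : ℕ) :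
    ∃ j, ∀ y ∈ IsLocalRing.maximalIdeal O ^ j, ((p ^ k : ℕ) : O) ∣ y := by
  obtain ⟨ϖ, hϖ⟩ := IsDiscreteValuationRing.exists_irreducible O
  have h0 : ((p ^ k : ℕ) : O) ≠ 0 := Nat.cast_ne_zero.2 (pow_ne_zero _ (Fact.out : p.Prime).ne_zero)
  obtain ⟨j, u, hu⟩ := IsDiscreteValuationRing.eq_unit_mul_pow_irreducible h0 hϖ
  refine ⟨j, fun y hy => ?_⟩
  rw [hϖ.maximalIdeal_eq, Ideal.span_singleton_pow, Ideal.mem_span_singleton] at hy
  rw [hu]
  exact (Units.mul_left_dvd).2 hy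

include hp in
theorem eq_of_forall_natPow_dvd [IsHausdorff (IsLocalRing.maximalIdeal O) O] {x y : O}
    (h : ∀ k, ((p ^ k : ℕ) : O) ∣ x - y) : x = y := by
  refine sub_eq_zero.1 (IsHausdorff.haus ‹_› _ fun k => ?_)
  rw [SModEq.sub_mem, smul_eq_mul, Ideal.mul_top, sub_zero]
  exact Ideal.mem_of_dvd _ (h k) (natPow_mem p hp k)

include hp in
theorem exists_limit_natPow [IsAdicComplete (IsLocalRing.maximalIdeal O) O] (a : ℕ → O)
    (ha : ∀ {k m}, k ≤ m → ((p ^ k : ℕ) : O) ∣ a m - a k) :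
    ∃ x, ∀ k, ((p ^ k : ℕ) : O) ∣ x - a k := by
  obtain ⟨x, hx⟩ := IsPrecomplete.prec (I := IsLocalRing.maximalIdeal O) inferInstance (f := a)
    fun {k m} hkm => by
      rw [SModEq.sub_mem, smul_eq_mul, Ideal.mul_top, ← neg_sub, Ideal.neg_mem_iff]
      exact Ideal.mem_of_dvd _ (ha hkm) (natPow_mem p hp k)
  refine ⟨x, fun k => ?_⟩
  obtain ⟨j, hj⟩ := exists_pow_le (O := O) p k
  have h1 : a (max j k) - x ∈ IsLocalRing.maximalIdeal O ^ j := by
    have h2 := hx (max j k)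
    rw [SModEq.sub_mem, smul_eq_mul, Ideal.mul_top] at h2
    exact Ideal.pow_le_pow_right (le_max_left _ _) h2
  have h3 := dvd_sub (ha (le_max_right j k)) (hj _ h1)
  have h4 : a (max j k) - a k - (a (max j k) - x) = x - a k := by ring
  rwa [h4] at h3

/-- The integers modulo `n` inside the rational circle. -/
def circleHom (n : ℕ) [NeZero n] : ZMod n →+ AddCircle (1 : ℚ) :=
  ZMod.lift n ⟨AddMonoidHom.mk' (fun j : ℤ => (((j : ℚ) / n : ℚ) : AddCircle (1 : ℚ)))
    (fun a b => by push_cast; rw [add_div, AddCircle.coe_add]),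
    by simp [div_self ((Nat.cast_ne_zero (R := ℚ)).2 (NeZero.ne n))]⟩

theorem circleHom_intCast (n : ℕ) [NeZero n] (j : ℤ) :
    circleHom n (j : ZMod n) = (((j : ℚ) / n : ℚ) : AddCircle (1 : ℚ)) :=
  ZMod.lift_coe n _ j

theorem circleHom_injective (n : ℕ) [NeZero n] : Function.Injective (circleHom n) := by
  refine (injective_iff_map_eq_zero _).2 fun a ha => ?_
  obtain ⟨j, rfl⟩ := ZMod.intCast_surjective a
  rw [circleHom_intCast, AddCircle.coe_eq_zero_iff] at ha
  obtain ⟨m, hm⟩ := ha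
  rw [zsmul_eq_mul, mul_one, eq_div_iff ((Nat.cast_ne_zero (R := ℚ)).2 (NeZero.ne n))] at hm
  rw [ZMod.intCast_zmod_eq_zero_iff_dvd]
  exact ⟨m, by exact_mod_cast hm.symm.trans (mul_comm _ _)⟩

theorem exists_circleHom (n : ℕ) [NeZero n] {x : AddCircle (1 : ℚ)} (hx : n • x = 0) :
    ∃ a, circleHom n a = x := by
  obtain ⟨q, rfl⟩ := QuotientAddGroup.mk_surjective x
  rw [← QuotientAddGroup.mk_nsmul] at hx
  obtain ⟨m, hm⟩ := AddSubgroup.mem_zmultiples_iff.1 ((QuotientAddGroup.eq_zero_iff _).1 hx)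
  refine ⟨(m : ZMod n), ?_⟩
  rw [circleHom_intCast]
  congr 1
  rw [nsmul_eq_mul, zsmul_eq_mul, mul_one] at hm
  rw [hm, mul_div_cancel_left₀ _ ((Nat.cast_ne_zero (R := ℚ)).2 (NeZero.ne n))]

/-- Functionals modulo `p ^ k` separate the quotient by `p ^ k`. -/
theorem exists_functional_ne_zero (k : ℕ) {x : O} (hx : ¬ ((p ^ k : ℕ) : O) ∣ x) :
    ∃ g : O →+ ZMod (p ^ k), g x ≠ 0 := by
  haveI : NeZero (p ^ k) := ⟨pow_ne_zero _ (Fact.out : p.Prime).ne_zero⟩
  set I : Ideal O := Ideal.span {((p ^ k : ℕ) : O)}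
  obtain ⟨c, hc⟩ := CharacterModule.exists_character_apply_ne_zero_of_ne_zero
    (a := Ideal.Quotient.mk I x) fun h =>
      hx (Ideal.mem_span_singleton.1 (Ideal.Quotient.eq_zero_iff_mem.1 h))
  have htors : ∀ y : O, ∃ a, circleHom (p ^ k) a = c (Ideal.Quotient.mk I y) := by
    intro y
    refine exists_circleHom _ ?_
    rw [← map_nsmul, nsmul_eq_mul, ← map_natCast (Ideal.Quotient.mk I), ← map_mul,
      Ideal.Quotient.eq_zero_iff_mem.2 (Ideal.mem_span_singleton.2 (dvd_mul_right _ _)), map_zero]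
  choose g hg using htors
  refine ⟨AddMonoidHom.mk' g fun a b => circleHom_injective _ ?_, fun h0 => hc ?_⟩
  · rw [map_add, hg, hg, hg, map_add, map_add]
  · rw [← hg x]
    rw [show g x = 0 from h0, map_zero]

theorem functional_mul_natCast {k : ℕ} (g : O →+ ZMod (p ^ k)) {x y : O} {a : ℕ}
    (h : ((p ^ k : ℕ) : O) ∣ x - a) : g (x * y) = (a : ZMod (p ^ k)) * g y := by
  obtain ⟨t, ht⟩ := h
  have : x * y = a • y + (p ^ k) • (t * y) := by
    rw [nsmul_eq_mul, nsmul_eq_mul]; linear_combination y * ht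
  rw [this, map_add, map_nsmul, map_nsmul, nsmul_eq_mul, nsmul_eq_mul, ZMod.natCast_self, zero_mul,
    add_zero]

theorem functional_mul_intCast {k : ℕ} (g : O →+ ZMod (p ^ k)) (a : ℤ) (y : O) :
    g ((a : O) * y) = (a : ZMod (p ^ k)) * g y := by
  rw [← zsmul_eq_mul, map_zsmul, zsmul_eq_mul]

/-- A functional carries the matrix action to the matrix action modulo `p ^ k`. -/
theorem functional_mulVec {k : ℕ} (g : O →+ ZMod (p ^ k)) {ι : Type} [Fintype ι]
    {M : Matrix ι ι O} {M' : Matrix ι ι (ZMod (p ^ k))}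
    (h : ∀ i j, ((p ^ k : ℕ) : O) ∣ M i j - ((M' i j).val : ℕ)) (v : ι → O) (i : ι) :
    g ((M *ᵥ v) i) = (M' *ᵥ fun j => g (v j)) i := by
  haveI : NeZero (p ^ k) := ⟨pow_ne_zero _ (Fact.out : p.Prime).ne_zero⟩
  simp only [Matrix.mulVec, dotProduct, map_sum]
  refine Finset.sum_congr rfl fun j _ => ?_
  rw [functional_mul_natCast p g (h i j), ZMod.natCast_zmod_val]

theorem functional_intMulVec {k : ℕ} (g : O →+ ZMod (p ^ k)) {ι : Type} [Fintype ι]
    (M : Matrix ι ι ℤ) (v : ι → O) (i : ι) :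
    g ((M.map (Int.castRingHom O) *ᵥ v) i) =
      (M.map (Int.castRingHom (ZMod (p ^ k))) *ᵥ fun j => g (v j)) i := by
  simp only [Matrix.mulVec, dotProduct, map_sum, Matrix.map_apply, eq_intCast,
    functional_mul_intCast]

include hp in
/-- Vectors are detected by functionals. -/
theorem eq_zero_of_forall_functional [IsHausdorff (IsLocalRing.maximalIdeal O) O] {x : O}
    (h : ∀ (k : ℕ) (g : O →+ ZMod (p ^ k)), g x = 0) : x = 0 := by
  refine eq_of_forall_natPow_dvd p hp fun k => ?_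
  rw [sub_zero]
  by_contra hx
  obtain ⟨g, hg⟩ := exists_functional_ne_zero p k hx
  exact hg (h k g)

end Algebra

variable (N : ℕ) [NeZero N] (p : ℕ) [Fact p.Prime] (κ : AlgebraicClosure ℚ →+* ℂ)
  (O : Type) [CommRing O] [IsDomain O] [IsDiscreteValuationRing O] [CharZero O]
  [IsAdicComplete (IsLocalRing.maximalIdeal O) O] (hp : (p : O) ∈ IsLocalRing.maximalIdeal O)

local notation "QA" => AlgebraicClosure ℚ
local notation "GG" => (AlgebraicClosure ℚ ≃ₐ[ℚ] AlgebraicClosure ℚ)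
local notation "HH" => CuspForm.heckeAlgebra N 2 (∅ : Set ℕ)

/-- The matrix of `σ` modulo `p ^ k`. -/
def galMxPow (k : ℕ) (σ : GG) : Matrix (Ix N) (Ix N) (ZMod (p ^ k)) :=
  haveI : NeZero (p ^ k) := ⟨pow_ne_zero _ (Fact.out : p.Prime).ne_zero⟩
  galMx κ (p ^ k) σ

theorem galMx_compat_of_eq {n n' m : ℕ} [NeZero n] [NeZero n'] [NeZero m] (h : n' = n * m) (σ : GG)
    (i j : Ix N) :
    ZMod.castHom (h ▸ dvd_mul_right n m) (ZMod n) (galMx κ n' σ i j) = galMx κ n σ i j := by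
  subst h
  exact congrFun (congrFun (galMx_compat κ n m σ) i) j

include hp in
theorem exists_limit_mx (σ : GG) (i j : Ix N) :
    ∃ x : O, ∀ k, ((p ^ k : ℕ) : O) ∣ x - ((galMxPow N p κ k σ i j).val : ℕ) := by
  refine exists_limit_natPow p hp _ fun {k m} hkm => ?_
  haveI hne : ∀ l, NeZero (p ^ l) := fun l => ⟨pow_ne_zero _ (Fact.out : p.Prime).ne_zero⟩
  have hpm : p ^ m = p ^ k * p ^ (m - k) := by rw [← pow_add, Nat.add_sub_cancel' hkm]
  have h := galMx_compat_of_eq N κ hpm σ i j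
  have h2 : (((galMxPow N p κ m σ i j).val : ℕ) : ZMod (p ^ k)) =
      (((galMxPow N p κ k σ i j).val : ℕ) : ZMod (p ^ k)) := by
    rw [ZMod.natCast_zmod_val (galMxPow N p κ k σ i j)]
    refine Eq.trans ?_ h
    rw [ZMod.castHom_apply, ← ZMod.natCast_val]
    rfl
  obtain ⟨t, ht⟩ := (ZMod.intCast_eq_intCast_iff_dvd_sub _ _ _).1
    (show (((galMxPow N p κ k σ i j).val : ℤ) : ZMod (p ^ k)) =
      (((galMxPow N p κ m σ i j).val : ℤ) : ZMod (p ^ k)) by
        rw [Int.cast_natCast, Int.cast_natCast]; exact h2.symm)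
  refine ⟨(t : O), ?_⟩
  have h3 := congrArg (Int.cast : ℤ → O) ht
  push_cast at h3 ⊢
  exact h3

/-- The matrix of `σ` with coefficients in `O`. -/
def galO (σ : GG) : Matrix (Ix N) (Ix N) O :=
  fun i j => (exists_limit_mx N p κ O hp σ i j).choose

theorem galO_spec (k : ℕ) (σ : GG) (i j : Ix N) :
    ((p ^ k : ℕ) : O) ∣ galO N p κ O hp σ i j - ((galMxPow N p κ k σ i j).val : ℕ) :=
  (exists_limit_mx N p κ O hp σ i j).choose_spec k

theorem functional_galO {k : ℕ} (g : O →+ ZMod (p ^ k)) (σ : GG) (v : Ix N → O) (i : Ix N) :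
    g ((galO N p κ O hp σ *ᵥ v) i) = (galMxPow N p κ k σ *ᵥ fun j => g (v j)) i :=
  functional_mulVec p g (galO_spec N p κ O hp k σ) v i

/-- The matrix of a Hecke operator with coefficients in `O`. -/
def heckeO (t : HH) : Matrix (Ix N) (Ix N) O := (heckeMx N t).map (Int.castRingHom O)

include hp in
theorem vec_ext {v w : Ix N → O}
    (h : ∀ (k : ℕ) (g : O →+ ZMod (p ^ k)) (i : Ix N), g (v i) = g (w i)) : v = w :=
  funext fun i => sub_eq_zero.1 (eq_zero_of_forall_functional p hp fun k g => by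
    rw [map_sub, h k g i, sub_self])

theorem mxO_ext {M M' : Matrix (Ix N) (Ix N) O} (h : ∀ v, M *ᵥ v = M' *ᵥ v) : M = M' :=
  Matrix.toLin'.injective (LinearMap.ext fun v => by rw [Matrix.toLin'_apply, Matrix.toLin'_apply, h])

theorem galO_mul (σ τ : GG) : galO N p κ O hp (σ * τ) = galO N p κ O hp σ * galO N p κ O hp τ :=
  mxO_ext N O fun v => vec_ext N p O hp fun k g i => by
    haveI : NeZero (p ^ k) := ⟨pow_ne_zero _ (Fact.out : p.Prime).ne_zero⟩
    rw [← Matrix.mulVec_mulVec, functional_galO, functional_galO,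
      show (fun j => g ((galO N p κ O hp τ *ᵥ v) j)) = galMxPow N p κ k τ *ᵥ fun j => g (v j) from
        funext fun j => functional_galO N p κ O hp g τ v j, Matrix.mulVec_mulVec]
    exact congrArg (fun M => (M *ᵥ fun j => g (v j)) i) (galMx_mul κ (p ^ k) σ τ)

theorem galO_one : galO N p κ O hp 1 = 1 :=
  mxO_ext N O fun v => vec_ext N p O hp fun k g i => by
    haveI : NeZero (p ^ k) := ⟨pow_ne_zero _ (Fact.out : p.Prime).ne_zero⟩
    rw [functional_galO, Matrix.one_mulVec,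
      show galMxPow N p κ k 1 = 1 from galMx_one κ (p ^ k), Matrix.one_mulVec]

theorem galO_heckeGen (σ : GG) (q : Nat.Primes) :
    galO N p κ O hp σ * heckeO N O (CuspForms.heckeGen N q q.2) =
      heckeO N O (CuspForms.heckeGen N q q.2) * galO N p κ O hp σ :=
  mxO_ext N O fun v => vec_ext N p O hp fun k g i => by
    haveI : NeZero (p ^ k) := ⟨pow_ne_zero _ (Fact.out : p.Prime).ne_zero⟩
    simp only [← Matrix.mulVec_mulVec, heckeO]
    rw [functional_galO, functional_intMulVec,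
      show (fun j => g (((heckeMx N (CuspForms.heckeGen N q q.2)).map (Int.castRingHom O) *ᵥ v) j)) =
        _ from funext fun j => functional_intMulVec p g _ v j,
      show (fun j => g ((galO N p κ O hp σ *ᵥ v) j)) = galMxPow N p κ k σ *ᵥ fun j => g (v j) from
        funext fun j => functional_galO N p κ O hp g σ v j, Matrix.mulVec_mulVec,
      Matrix.mulVec_mulVec]
    exact congrArg (fun M => (M *ᵥ fun j => g (v j)) i) (galMx_heckeGen κ (p ^ k) σ q)

theorem galO_frobenius {ℓ : ℕ} (hℓ : ℓ.Prime) (hℓN : ¬ ℓ ∣ N) (hℓp : ℓ ≠ p)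
    {A : ValuationSubring QA} (hA : A.LiesOverPrime ℓ) {σ : GG} (hσ : A.IsFrobeniusAt σ ℓ)
    (v : Ix N → O) :
    galO N p κ O hp σ *ᵥ (galO N p κ O hp σ *ᵥ v) -
      heckeO N O (CuspForms.heckeGen N ℓ hℓ) *ᵥ (galO N p κ O hp σ *ᵥ v) + (ℓ : O) • v = 0 :=
  vec_ext N p O hp fun k g i => by
    haveI : NeZero (p ^ k) := ⟨pow_ne_zero _ (Fact.out : p.Prime).ne_zero⟩
    have hℓk : ¬ ℓ ∣ p ^ k := fun h => hℓp ((Nat.prime_dvd_prime_iff_eq hℓ Fact.out).1
      (hℓ.dvd_of_dvd_pow h))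
    have hg1 : (fun j => g ((galO N p κ O hp σ *ᵥ v) j)) =
        galMxPow N p κ k σ *ᵥ fun j => g (v j) :=
      funext fun j => functional_galO N p κ O hp g σ v j
    rw [Pi.add_apply, Pi.sub_apply, map_add, map_sub, functional_galO, heckeO, functional_intMulVec,
      hg1, Pi.smul_apply, Pi.zero_apply, map_zero, smul_eq_mul, ← nsmul_eq_mul, map_nsmul]
    have h := congrArg (fun M => (M *ᵥ fun j => g (v j)) i)
      (galMx_frobenius κ (p ^ k) hℓ hℓN hℓk hA hσ)
    simp only [Matrix.add_mulVec, Matrix.sub_mulVec, Matrix.smul_mulVec, Matrix.one_mulVec,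
      Matrix.zero_mulVec, Pi.add_apply, Pi.sub_apply, Pi.smul_apply, Pi.zero_apply,
      ← Matrix.mulVec_mulVec, smul_eq_mul] at h
    rw [nsmul_eq_mul]
    exact h

theorem exists_level_galO (n : ℕ) :
    ∃ L : IntermediateField ℚ QA, FiniteDimensional ℚ L ∧
      ∀ σ : GG, (∀ a ∈ L, σ a = a) → ∀ i j : Ix N,
        galO N p κ O hp σ i j - (1 : Matrix (Ix N) (Ix N) O) i j ∈
          IsLocalRing.maximalIdeal O ^ n := by
  haveI : NeZero (p ^ n) := ⟨pow_ne_zero _ (Fact.out : p.Prime).ne_zero⟩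
  obtain ⟨L, hL, h⟩ := exists_level_galMx (N := N) κ (p ^ n)
  refine ⟨L, hL, fun σ hσ i j => ?_⟩
  have h1 := galO_spec N p κ O hp n σ i j
  rw [show galMxPow N p κ n σ = 1 from h σ hσ] at h1
  refine Ideal.mem_of_dvd _ ?_ (natPow_mem p hp n)
  rcases eq_or_ne i j with rfl | hij
  · rw [Matrix.one_apply_eq] at h1 ⊢
    rcases Nat.eq_zero_or_pos n with rfl | hn
    · rw [pow_zero, Nat.cast_one]; exact one_dvd _
    haveI : Fact (1 < p ^ n) := ⟨Nat.one_lt_pow hn.ne' (Fact.out : p.Prime).one_lt⟩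
    rwa [ZMod.val_one, Nat.cast_one] at h1
  · rw [Matrix.one_apply_ne hij] at h1 ⊢
    rwa [ZMod.val_zero, Nat.cast_zero] at h1

end FLTAgent.EigenLattice
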